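import Fermat.Agent.WP.Cusp
import Fermat.Agent.MZ.Hecke

/-!
The multiplicative Hecke operators on the function field of `X₀(N)` and values at the cusps.
-/

set_option autoImplicit false
set_option linter.unusedSectionVars false

noncomputable section

namespace Fermat.Agent.WP

open AlgebraicCurve IntermediateField
open Fermat.Agent.FunField Fermat.Agent.Flat Fermat.Agent.LG Fermat.Agent.ModFun Fermat.Agent.MZ
open Fermat.Agent.ESCore (ιC heckeChar)
open ModularCurve (qExpand jqModC)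
open CongruenceSubgroup (Gamma0)
open scoped IntermediateField.algebraAdjoinAdjoin

/-- The field of algebraic numbers. -/
local notation "Qb" => AlgebraicClosure ℚ
/-- The absolute Galois group. -/
local notation "GQ" => (AlgebraicClosure ℚ ≃ₐ[ℚ] AlgebraicClosure ℚ)

/-! ### order and leading coefficient -/

section Ser

variable {L : Type*} [Field L] {l : ℕ} [NeZero l] {ζ : Lˣ}

theorem order_twist (u : Lˣ) (x : LaurentSeries L) : (twist u x).order = x.order := by
  by_cases hx : x = 0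
  · rw [hx, map_zero]
  apply le_antisymm
  · apply HahnSeries.order_le_of_coeff_ne_zero
    rw [twist_coeff]
    refine mul_ne_zero (Units.ne_zero _) ?_
    rw [← HahnSeries.leadingCoeff_eq]
    exact HahnSeries.leadingCoeff_ne_zero.mpr hx
  · by_contra hcon
    push Not at hcon
    have h1 : (twist u x) ≠ 0 := by
      rw [Ne, _root_.map_eq_zero]; exact hx
    have h2 := HahnSeries.leadingCoeff_ne_zero.mpr h1
    rw [HahnSeries.leadingCoeff_eq, twist_coeff, HahnSeries.coeff_eq_zero_of_lt_order hcon,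
      mul_zero] at h2
    exact h2 rfl

theorem twN_aux {x : LaurentSeries L} (hx : x ≠ 0) (s : Finset (Fin l)) :
    ∏ j ∈ s, twist (ζ ^ (j : ℕ)) x ≠ 0 ∧
    (∏ j ∈ s, twist (ζ ^ (j : ℕ)) x).order = s.card * x.order ∧
    (x.order = 0 → (∏ j ∈ s, twist (ζ ^ (j : ℕ)) x).leadingCoeff = x.leadingCoeff ^ s.card) := by
  classical
  have hne : ∀ j : Fin l, twist (ζ ^ (j : ℕ)) x ≠ 0 := fun j => by
    rw [Ne, _root_.map_eq_zero]; exact hx
  induction s using Finset.induction_on with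
  | empty => exact ⟨by simp, by simp, fun _ => by simp⟩
  | insert i s hi ih =>
    obtain ⟨h1, h2, h3⟩ := ih
    rw [Finset.prod_insert hi, Finset.card_insert_of_notMem hi]
    refine ⟨mul_ne_zero (hne i) h1, ?_, fun h0 => ?_⟩
    · rw [HahnSeries.order_mul (hne i) h1, h2, order_twist]
      push_cast
      ring
    · rw [HahnSeries.leadingCoeff_mul, h3 h0, leadingCoeff_twist, h0, zpow_zero, Units.val_one,
        one_mul, pow_succ]
      ring

theorem order_tN (hζ : IsPrimitiveRoot ζ l) {x : LaurentSeries L} (hx : x ≠ 0) :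
    (tN l ζ x).order = (l + 1) * x.order := by
  have h0 : tN l ζ x ≠ 0 := tN_ne_zero hζ hx
  have hq : qExpand L l x ≠ 0 := fun h => h0 (by rw [tN, h, zero_mul])
  have hu : uN l ζ x ≠ 0 := fun h => h0 (by rw [tN, h, mul_zero])
  obtain ⟨h1, h2, -⟩ := twN_aux (ζ := ζ) hx (Finset.univ : Finset (Fin l))
  have h3 := order_qExpand' l hu
  rw [qExpand_uN hζ, twN, h2, Finset.card_univ, Fintype.card_fin] at h3
  have hl : (l : ℤ) ≠ 0 := by exact_mod_cast NeZero.ne l
  have h4 : (uN l ζ x).order = x.order := (mul_left_cancel₀ hl h3).symm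
  rw [tN, HahnSeries.order_mul hq hu, order_qExpand' l hx, h4]
  ring

theorem leadingCoeff_tN_of_order (hζ : IsPrimitiveRoot ζ l) {x : LaurentSeries L} (hx : x ≠ 0)
    (h0 : x.order = 0) : (tN l ζ x).leadingCoeff = x.leadingCoeff ^ (l + 1) := by
  obtain ⟨-, -, h3⟩ := twN_aux (ζ := ζ) hx (Finset.univ : Finset (Fin l))
  have h1 : (uN l ζ x).leadingCoeff = (twN l ζ x).leadingCoeff := by
    rw [← qExpand_uN hζ, CA.leadingCoeff_qExpand]
  rw [tN, HahnSeries.leadingCoeff_mul, CA.leadingCoeff_qExpand, h1, twN, h3 h0, Finset.card_univ,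
    Fintype.card_fin]
  ring

theorem coeff_zero_tN (hζ : IsPrimitiveRoot ζ l) {x : LaurentSeries L} (hx : x ≠ 0)
    (h0 : 0 ≤ x.order) : (tN l ζ x).coeff 0 = x.coeff 0 ^ (l + 1) := by
  rcases h0.eq_or_lt with h | h
  · have h1 := leadingCoeff_tN_of_order hζ hx h.symm
    rw [HahnSeries.leadingCoeff_eq, HahnSeries.leadingCoeff_eq, order_tN hζ hx, ← h, mul_zero] at h1
    exact h1
  · have h1 : (0 : ℤ) < (tN l ζ x).order := by
      rw [order_tN hζ hx]
      positivity
    rw [HahnSeries.coeff_eq_zero_of_lt_order h1, HahnSeries.coeff_eq_zero_of_lt_order h,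
      zero_pow (Nat.succ_ne_zero l)]

theorem tN_indep (hζ : IsPrimitiveRoot ζ l) {ζ' : Lˣ} (hζ' : IsPrimitiveRoot ζ' l)
    (x : LaurentSeries L) : tN l ζ x = tN l ζ' x := by
  rw [tN, tN, uN_indep hζ hζ']

end Ser

/-! ### the operator on the function field -/

section Op

variable {N : ℕ} [NeZero N]

theorem heckeChar_one' {l : ℕ} (hl : l.Prime) (hlN : ¬ l ∣ N) :
    heckeChar hl hlN (1 : Gamma0 N →* ℂˣ) = 1 := Fermat.Agent.ESCore.heckeChar_one hl hlN

theorem tN_mem_F0 {l : ℕ} [NeZero l] {ζ : Qbˣ} (hl : l.Prime) (hlN : ¬ l ∣ N)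
    (hζ : IsPrimitiveRoot ζ l) {z : LaurentSeries Qb} (hz : z ∈ F0 Qb N) :
    tN l ζ z ∈ F0 Qb N := by
  have key : ∀ x ∈ A0 Qb N, tN l ζ x ∈ F0 Qb N := by
    intro x hx
    have hle : A0 Qb N ≤ holC ιC N := Algebra.adjoin_le gens_subset_holC
    have h1 : XSer ιC N 1 x := xSer_one_iff.mpr (hle hx)
    have h2 := h1.tN hl hlN hζ
    rw [heckeChar_one'] at h2
    exact h2.mem_F0
  obtain ⟨a, b, hb, hab⟩ := IsFractionRing.div_surjective
    (A := Algebra.adjoin Qb (gens Qb N)) (⟨z, hz⟩ : IntermediateField.adjoin Qb (gens Qb N))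
  have hb0 : b ≠ 0 := nonZeroDivisors.ne_zero hb
  have hb0' : (b : LaurentSeries Qb) ≠ 0 := fun h => hb0 (Subtype.ext h)
  have h1 : (b : LaurentSeries Qb) * z = a := by
    have h2 := congrArg (fun z : IntermediateField.adjoin Qb (gens Qb N) =>
      (z : LaurentSeries Qb)) hab
    change (a : LaurentSeries Qb) / (b : LaurentSeries Qb) = z at h2
    rw [← h2, mul_div_cancel₀ _ hb0']
  have h2 : tN l ζ z = tN l ζ (a : LaurentSeries Qb) / tN l ζ (b : LaurentSeries Qb) := by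
    rw [eq_div_iff (tN_ne_zero hζ hb0'), ← tN_mul hζ, mul_comm, h1]
  rw [h2]
  exact div_mem (key _ a.2) (key _ b.2)

theorem exists_prim (l : ℕ) [NeZero l] : ∃ ζ : Qbˣ, IsPrimitiveRoot ζ l := by
  have : NeZero (l : Qb) := ⟨by exact_mod_cast NeZero.ne l⟩
  obtain ⟨z, hz⟩ := IsAlgClosed.exists_aeval_eq_zero Qb (Polynomial.cyclotomic l Qb)
    (Polynomial.degree_cyclotomic_pos l Qb (Nat.pos_of_ne_zero (NeZero.ne l))).ne'
  have h1 : IsPrimitiveRoot z l := by
    rw [← Polynomial.isRoot_cyclotomic_iff]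
    simpa [Polynomial.IsRoot] using hz
  have h2 : IsUnit z := h1.isUnit (NeZero.ne l)
  obtain ⟨u, rfl⟩ := h2
  exact ⟨u, IsPrimitiveRoot.coe_units_iff.mp h1⟩

/-- a primitive root of unity -/
def zl (l : ℕ) [NeZero l] : Qbˣ := (exists_prim l).choose

theorem zl_spec (l : ℕ) [NeZero l] : IsPrimitiveRoot (zl l) l := (exists_prim l).choose_spec

/-- **The multiplicative Hecke operator** on the function field. -/
def TF (N : ℕ) [NeZero N] {l : ℕ} [NeZero l] (hl : l.Prime) (hlN : ¬ l ∣ N) :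
    F0 Qb N →* F0 Qb N where
  toFun f := ⟨tN l (zl l) f, tN_mem_F0 hl hlN (zl_spec l) f.2⟩
  map_one' := Subtype.ext (tN_one (zl_spec l))
  map_mul' f g := Subtype.ext (tN_mul (zl_spec l) _ _)

variable {l : ℕ} [NeZero l] (hl : l.Prime) (hlN : ¬ l ∣ N)

theorem coe_TF (f : F0 Qb N) : (TF N hl hlN f : LaurentSeries Qb) = tN l (zl l) f := rfl

theorem coe_TF' {ζ : Qbˣ} (hζ : IsPrimitiveRoot ζ l) (f : F0 Qb N) :
    (TF N hl hlN f : LaurentSeries Qb) = tN l ζ f := by
  rw [coe_TF, tN_indep (zl_spec l) hζ]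

theorem TF_ne_zero {f : F0 Qb N} (hf : f ≠ 0) : TF N hl hlN f ≠ 0 := by
  intro h
  have h1 : (f : LaurentSeries Qb) ≠ 0 := fun h => hf (Subtype.ext h)
  exact tN_ne_zero (zl_spec l) h1 (congrArg Subtype.val h)

theorem TF_zero : TF N hl hlN 0 = 0 := by
  apply Subtype.ext
  rw [coe_TF, tN]
  change qExpand Qb l 0 * _ = 0
  rw [map_zero, zero_mul]

/-- Galois equivariance -/
theorem TF_galF0 (σ : GQ) (f : F0 Qb N) :
    TF N hl hlN (galF0 N σ • f) = galF0 N σ • TF N hl hlN f := by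
  apply Subtype.ext
  rw [coe_TF, coe_galF0_smul, coe_galF0_smul, coe_TF, coeffMap_tN]
  have hζ : IsPrimitiveRoot (Units.map (((σ.toRingEquiv : Qb ≃+* Qb) : Qb →+* Qb) : Qb →* Qb)
      (zl l)) l := (zl_spec l).map_of_injective (Units.map_injective σ.injective)
  exact tN_indep (zl_spec l) hζ _

/-- constants -/
theorem TF_C (a : Qb) : TF N hl hlN (algebraMap Qb _ a) = algebraMap Qb _ (a ^ (l + 1)) := by
  by_cases ha : a = 0
  · rw [ha, map_zero, TF_zero, zero_pow (Nat.succ_ne_zero l), map_zero]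
  apply Subtype.ext
  rw [coe_TF]
  change tN l (zl l) (algebraMap Qb (LaurentSeries Qb) a) = algebraMap Qb (LaurentSeries Qb) _
  rw [algebraMap_eq_C, algebraMap_eq_C]
  apply RingHom.injective (qExpand Qb l)
  rw [tN, map_mul, qExpand_uN (zl_spec l), twN]
  have h1 : ∀ j : Fin l, twist (zl l ^ (j : ℕ)) (HahnSeries.C a : LaurentSeries Qb) =
      HahnSeries.C a := fun j => by
    ext n
    rw [twist_coeff]
    by_cases hn : n = 0
    · subst hn
      simp
    · rw [HahnSeries.C_apply, HahnSeries.coeff_single_of_ne hn, mul_zero]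
  have h2 : ∀ b : Qb, qExpand Qb l (HahnSeries.C b) = HahnSeries.C b := fun b => by
    ext n
    by_cases hn : (l : ℤ) ∣ n
    · obtain ⟨m, rfl⟩ := hn
      rw [ModularCurve.qExpand_coeff_mul]
      by_cases hm : m = 0
      · subst hm
        simp
      · have hl0 : (l : ℤ) * m ≠ 0 := mul_ne_zero (by exact_mod_cast NeZero.ne l) hm
        rw [HahnSeries.C_apply, HahnSeries.coeff_single_of_ne hm,
          HahnSeries.coeff_single_of_ne hl0]
    · rw [ModularCurve.qExpand_coeff_of_not_dvd _ _ hn]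
      have hn0 : n ≠ 0 := fun h => hn (h ▸ dvd_zero _)
      rw [HahnSeries.C_apply, HahnSeries.coeff_single_of_ne hn0]
  rw [Finset.prod_congr rfl fun j _ => h1 j, Finset.prod_const, Finset.card_univ,
    Fintype.card_fin, h2, h2, h2, ← map_pow, ← map_mul, pow_succ]
  congr 1
  ring

theorem cInf_ord_TF (f : F0 Qb N) : (cInf N).ord (TF N hl hlN f) = (l + 1) * (cInf N).ord f := by
  by_cases hf : f = 0
  · rw [hf, TF_zero, Place.ord_zero, mul_zero]
  have h1 : (f : LaurentSeries Qb) ≠ 0 := fun h => hf (Subtype.ext h)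
  rw [cInf_ord (TF_ne_zero hl hlN hf), cInf_ord hf, coe_TF, order_tN (zl_spec l) h1]

theorem evp_cInf_TF {f : F0 Qb N} (hf : 0 ≤ (cInf N).ord f) :
    evp (cInf N) (TF N hl hlN f) = evp (cInf N) f ^ (l + 1) := by
  by_cases h0 : f = 0
  · rw [h0, TF_zero, evp_zero, zero_pow (Nat.succ_ne_zero l)]
  have h1 : (f : LaurentSeries Qb) ≠ 0 := fun h => h0 (Subtype.ext h)
  have h2 : 0 ≤ (cInf N).ord (TF N hl hlN f) := by
    rw [cInf_ord_TF]
    positivity
  rw [evp_cInf h2, evp_cInf hf, coe_TF, coeff_zero_tN (zl_spec l) h1 (by rwa [← cInf_ord h0])]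

/-- compatibility with series attached to characters -/
theorem xSer_TF {χ : Gamma0 N →* ℂˣ} {m : ℕ} {y : LaurentSeries Qb} (hy : XSer ιC N χ y)
    {f : F0 Qb N} (hf : y ^ m = (f : LaurentSeries Qb)) :
    XSer ιC N (heckeChar hl hlN χ) (tN l (zl l) y) ∧
      tN l (zl l) y ^ m = (TF N hl hlN f : LaurentSeries Qb) := by
  refine ⟨hy.tN hl hlN (zl_spec l), ?_⟩
  rw [coe_TF, ← hf, tN_pow (zl_spec l)]

end Op

/-! ### prime level -/

section Prime

variable {N : ℕ} [Fact N.Prime] [NeZero N] {l : ℕ} [NeZero l] (hl : l.Prime) (hlN : ¬ l ∣ N)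

theorem wN_TF (f : F0 Qb N) : wN N (TF N hl hlN f) = TF N hl hlN (wN N f) := by
  have key : ∀ x (hx : x ∈ A0 Qb N) (hx' : x ∈ F0 Qb N),
      wN N (TF N hl hlN ⟨x, hx'⟩) = TF N hl hlN (wN N ⟨x, hx'⟩) := by
    intro x hx hx'
    have hle : A0 Qb N ≤ holC ιC N := Algebra.adjoin_le gens_subset_holC
    have h1 : XSer ιC N 1 x := xSer_one_iff.mpr (hle hx)
    have h2 := h1.tN hl hlN (zl_spec l)
    rw [heckeChar_one'] at h2
    apply Subtype.ext
    exact wF_tN (frB N) Fact.out (mul_one N).symm hl hlN (zl_spec l) h1 h2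
  obtain ⟨a, b, hb, hab⟩ := IsFractionRing.div_surjective (A := A0 Qb N) f
  have hb0 : b ≠ 0 := nonZeroDivisors.ne_zero hb
  have hb1 : (algebraMap (A0 Qb N) (F0 Qb N) b) ≠ 0 := fun h =>
    hb0 (Subtype.ext (congrArg (fun z : F0 Qb N => (z : LaurentSeries Qb)) h))
  have h1 : f * algebraMap (A0 Qb N) (F0 Qb N) b = algebraMap (A0 Qb N) (F0 Qb N) a := by
    rw [← hab, div_mul_cancel₀ _ hb1]
  have ha := key a a.2 (algebraMap (A0 Qb N) (F0 Qb N) a).2
  have hb' := key b b.2 (algebraMap (A0 Qb N) (F0 Qb N) b).2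
  change wN N (TF N hl hlN (algebraMap (A0 Qb N) (F0 Qb N) a)) =
    TF N hl hlN (wN N (algebraMap (A0 Qb N) (F0 Qb N) a)) at ha
  change wN N (TF N hl hlN (algebraMap (A0 Qb N) (F0 Qb N) b)) =
    TF N hl hlN (wN N (algebraMap (A0 Qb N) (F0 Qb N) b)) at hb'
  rw [← h1, map_mul, map_mul, map_mul, map_mul, hb'] at ha
  refine mul_right_cancel₀ ?_ ha
  exact TF_ne_zero hl hlN ((map_ne_zero_iff _ (wN N).injective).mpr hb1)

theorem cZero_ord_TF (f : F0 Qb N) :
    (cZero N).ord (TF N hl hlN f) = (l + 1) * (cZero N).ord f := by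
  rw [cZero_ord', wN_TF, cInf_ord_TF, cZero_ord']

theorem evp_cZero_TF {f : F0 Qb N} (hf : 0 ≤ (cZero N).ord f) :
    evp (cZero N) (TF N hl hlN f) = evp (cZero N) f ^ (l + 1) := by
  have h2 : 0 ≤ (cZero N).ord (TF N hl hlN f) := by
    rw [cZero_ord_TF]
    positivity
  rw [evp_cZero' h2, wN_TF, evp_cInf_TF hl hlN (by rwa [← cZero_ord']), evp_cZero' hf]

end Prime

end Fermat.Agent.WP
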