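import Fermat.Agent.WP.Pl
import Fermat.Agent.MZ.LiftM0
import Fermat.Agent.LG.WQ2
import Fermat.Agent.Flat.Gal
import Fermat.Agent.Flat.Inj

/-!
The two cusps of `X₀(N)`, `N` prime, as places of the function field.
-/

set_option autoImplicit false
set_option linter.unusedSectionVars false

noncomputable section

namespace Fermat.Agent.WP

open AlgebraicCurve IntermediateField
open Fermat.Agent.FunField Fermat.Agent.Flat Fermat.Agent.LG Fermat.Agent.ModFun Fermat.Agent.MZ
open Fermat.Agent.ESCore (ιC)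
open ModularCurve (qExpand jqModC)

/-- The field of algebraic numbers. -/
local notation "Qb" => AlgebraicClosure ℚ
/-- The absolute Galois group. -/
local notation "GQ" => (AlgebraicClosure ℚ ≃ₐ[ℚ] AlgebraicClosure ℚ)

/-! ### places from embeddings -/

section Gen

variable {N : ℕ} [NeZero N]

theorem orderTop_C_nonneg (a : Qb) : 0 ≤ (HahnSeries.C a : LaurentSeries Qb).orderTop := by
  by_cases ha : a = 0
  · rw [ha, map_zero, HahnSeries.orderTop_zero]
    exact le_top
  · rw [HahnSeries.C_apply, HahnSeries.orderTop_single ha]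
    rfl

/-- a place from an embedding into the field of Laurent series -/
theorem exists_place_of_hom (φ : F0 Qb N →+* LaurentSeries Qb)
    (hφ : ∀ a : Qb, φ (algebraMap Qb (F0 Qb N) a) = HahnSeries.C a)
    {t : F0 Qb N} (ht : (φ t).order = 1) :
    ∃ v : Place Qb (F0 Qb N), v.toValuationSubring = valSub φ ∧
      (∀ f : F0 Qb N, f ≠ 0 → v.ord f = (φ f).order) ∧
      ∀ f : F0 Qb N, f ∈ v.toValuationSubring → evp v f = (φ f).coeff 0 := by
  have ht0 : t ≠ 0 := by
    rintro rfl
    rw [map_zero, HahnSeries.order_zero] at ht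
    exact absurd ht (by norm_num)
  have hne : valSub φ ≠ ⊤ := by
    intro h
    have h1 : t⁻¹ ∈ valSub φ := h ▸ ValuationSubring.mem_top _
    rw [mem_valSub_iff_order (inv_ne_zero ht0), order_map_inv _ ht0, ht] at h1
    omega
  obtain ⟨v, hv⟩ := sep_exists_place (sep_F0 N) (valSub φ) hne fun a => by
    rw [mem_valSub, hφ]
    exact orderTop_C_nonneg a
  obtain ⟨c, hc⟩ := order_eq_mul_ord φ v hv
  have hc1 : c = 1 := by
    have h1 := hc t ht0
    rw [ht] at h1
    have h2 : (c : ℤ) ∣ 1 := ⟨_, h1⟩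
    have h3 := Int.natAbs_dvd_natAbs.mpr h2
    simpa using h3
  subst hc1
  refine ⟨v, hv, fun f hf => by rw [hc f hf]; simp, fun f hf => ?_⟩
  have h1 := evp_spec ((sep_F0 N).rational v) hf
  rw [adicValuation_lt_one_iff] at h1
  have h2 : 0 < (φ (f - algebraMap Qb (F0 Qb N) (evp v f))).orderTop := by
    rcases h1 with h1 | h1
    · rw [h1, map_zero, HahnSeries.orderTop_zero]
      exact WithTop.coe_lt_top _
    · set g := f - algebraMap Qb (F0 Qb N) (evp v f) with hg
      have hg0 : g ≠ 0 := by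
        intro h
        rw [h, v.ord_zero] at h1
        exact lt_irrefl _ h1
      have h4 : φ g ≠ 0 := by simpa using hg0
      rw [← HahnSeries.order_eq_orderTop_of_ne_zero h4]
      have : 0 < (φ g).order := by rw [hc g hg0]; simpa using h1
      exact_mod_cast this
  have h5 := HahnSeries.coeff_eq_zero_of_lt_orderTop h2
  rw [map_sub, hφ, HahnSeries.coeff_sub] at h5
  simp only [HahnSeries.C_apply, HahnSeries.coeff_single_same] at h5
  linear_combination -h5

theorem coeff_jqModC_neg_one : (jqModC Qb).coeff (-1) = 1 := by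
  have h3 := coeff_jqModC_pow_self' (R := Qb) 1
  rwa [pow_one, Nat.cast_one] at h3

theorem order_jqModC : (jqModC Qb).order = -1 := by
  refine order_eq_of_coeff ?_ fun m hm => ?_
  · rw [coeff_jqModC_neg_one]
    exact one_ne_zero
  · have hn : m < -((1 : ℕ) : ℤ) := by simpa using hm
    have := coeff_jqModC_pow_of_lt' (R := Qb) hn
    rwa [pow_one] at this

theorem order_inv' {x : LaurentSeries Qb} (hx : x ≠ 0) : x⁻¹.order = -x.order := by
  have h3 := HahnSeries.order_mul hx (inv_ne_zero hx)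
  rw [mul_inv_cancel₀ hx, HahnSeries.order_one] at h3
  omega

theorem jqModC_ne_zero : jqModC Qb ≠ 0 := by
  intro h
  have := order_jqModC
  rw [h, HahnSeries.order_zero] at this
  exact absurd this (by norm_num)

theorem order_inv_jF : ((F0 Qb N).val.toRingHom (jF Qb N)⁻¹).order = 1 := by
  rw [map_inv₀]
  have h1 : (F0 Qb N).val.toRingHom (jF Qb N) = jqModC Qb := rfl
  rw [h1, order_inv' jqModC_ne_zero, order_jqModC]
  norm_num

theorem algebraMap_eq_C (a : Qb) : algebraMap Qb (LaurentSeries Qb) a = HahnSeries.C a := by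
  rw [ModularCurve.algebraMap_laurentSeries_eq_single]
  rfl

variable (N)

/-- The cusp `∞`. -/
def cInf : Place Qb (F0 Qb N) :=
  (exists_place_of_hom (F0 Qb N).val.toRingHom (fun a => algebraMap_eq_C a)
    (order_inv_jF (N := N))).choose

theorem cInf_val : (cInf N).toValuationSubring = valSub (F0 Qb N).val.toRingHom :=
  (exists_place_of_hom (F0 Qb N).val.toRingHom (fun a => algebraMap_eq_C a)
    (order_inv_jF (N := N))).choose_spec.1

variable {N}

theorem cInf_ord {f : F0 Qb N} (hf : f ≠ 0) : (cInf N).ord f = (f : LaurentSeries Qb).order :=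
  (exists_place_of_hom (F0 Qb N).val.toRingHom (fun a => algebraMap_eq_C a)
    (order_inv_jF (N := N))).choose_spec.2.1 f hf

theorem evp_cInf' {f : F0 Qb N} (hf : f ∈ (cInf N).toValuationSubring) :
    evp (cInf N) f = (f : LaurentSeries Qb).coeff 0 :=
  (exists_place_of_hom (F0 Qb N).val.toRingHom (fun a => algebraMap_eq_C a)
    (order_inv_jF (N := N))).choose_spec.2.2 f hf

theorem evp_cInf {f : F0 Qb N} (hf : 0 ≤ (cInf N).ord f) :
    evp (cInf N) f = (f : LaurentSeries Qb).coeff 0 := evp_cInf' (mem_of_ord_nonneg _ hf)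

theorem cInf_ord_jF : (cInf N).ord (jF Qb N) = -1 := by
  have h0 : jF Qb N ≠ 0 := fun h => jqModC_ne_zero (congrArg Subtype.val h)
  rw [cInf_ord h0]
  exact order_jqModC

theorem galF0_smul_ext {γ : SemilinearAut Qb (F0 Qb N)} {v w : Place Qb (F0 Qb N)}
    (h : ∀ f : F0 Qb N, f ∈ v.toValuationSubring ↔ γ • f ∈ w.toValuationSubring) : γ • v = w := by
  apply Place.ext
  ext f
  rw [SemilinearAut.smul_toValuationSubring,
    ValuationSubring.mem_pointwise_smul_iff_inv_smul_mem, h, smul_inv_smul]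

theorem mem_cInf {f : F0 Qb N} : f ∈ (cInf N).toValuationSubring ↔
    ∀ n < 0, (f : LaurentSeries Qb).coeff n = 0 := by
  rw [cInf_val, mem_valSub]
  change 0 ≤ (f : LaurentSeries Qb).orderTop ↔ _
  constructor
  · intro h n hn
    exact HahnSeries.coeff_eq_zero_of_lt_orderTop (lt_of_lt_of_le (by exact_mod_cast hn) h)
  · intro h
    by_contra hlt
    push Not at hlt
    have h0 : (f : LaurentSeries Qb) ≠ 0 := by
      intro h1
      rw [h1, HahnSeries.orderTop_zero] at hlt
      exact absurd hlt (by simp)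
    rw [← HahnSeries.order_eq_orderTop_of_ne_zero h0] at hlt
    have h2 : (f : LaurentSeries Qb).order < 0 := by exact_mod_cast hlt
    exact HahnSeries.coeff_order_eq_zero.not.2 h0 (h _ h2)

theorem galF0_cInf (σ : GQ) : galF0 N σ • cInf N = cInf N := by
  refine galF0_smul_ext fun f => ?_
  rw [mem_cInf, mem_cInf]
  refine forall₂_congr fun n _ => ?_
  rw [coeff_galF0_smul, map_eq_zero_iff σ σ.injective]

end Gen

/-! ### prime level -/

section Prime

variable (N : ℕ) [Fact N.Prime]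

/-- Bezout data for the Fricke involution -/
def frB : Bez N 1 := ⟨0, -1, by simp⟩

variable [NeZero N]

/-- the Fricke involution `f(τ) ↦ f(-1/(Nτ))` on the function field -/
def wN : F0 Qb N ≃+* F0 Qb N := (frB N).wF ιC Fact.out (mul_one N).symm

variable {N}

theorem wN_wN (f : F0 Qb N) : wN N (wN N f) = f := (frB N).wF_wF _ _ f

theorem wN_C (a : Qb) : wN N (algebraMap Qb _ a) = algebraMap Qb _ a := (frB N).wF_C _ _ a

/-- `j(Nτ)` -/
def jNF (N : ℕ) [NeZero N] : F0 Qb N :=
  ⟨qExpand Qb N (jqModC Qb), IntermediateField.subset_adjoin _ _ (gens_dvd dvd_rfl)⟩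

theorem qExpand_one_jq : qExpand Qb 1 (jqModC Qb) = jqModC Qb := by
  ext n
  have := ModularCurve.qExpand_coeff_mul (R := Qb) 1 (jqModC Qb) n
  simpa using this

theorem wN_jF : wN N (jF Qb N) = jNF N := by
  apply Subtype.ext
  have h1 : qExpand Qb 1 (jqModC Qb) ∈ F0 Qb N :=
    IntermediateField.subset_adjoin _ _ (gens_dvd (one_dvd N))
  have h2 : jF Qb N = ⟨_, h1⟩ := Subtype.ext qExpand_one_jq.symm
  have h3 := (frB N).wF_gen₁ (ι := ιC) (N := N) (Fact.out : N.Prime) (mul_one N).symm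
    (dvd_refl 1) h1
  rw [h2]
  refine h3.trans ?_
  simp only [mul_one]
  rfl

theorem wN_jNF : wN N (jNF N) = jF Qb N := by
  rw [← wN_jF, wN_wN]

theorem wN_galF0 (σ : GQ) (f : F0 Qb N) : wN N (galF0 N σ • f) = galF0 N σ • wN N f := by
  have h := (frB N).wF_actF (ι := ιC) (N := N) (Fact.out : N.Prime) (mul_one N).symm
    (σ.toRingEquiv) f
  exact h

theorem order_wN : (((F0 Qb N).val.toRingHom.comp (wN N : F0 Qb N →+* F0 Qb N)) (jNF N)⁻¹).order =
    1 := by
  rw [map_inv₀]
  have h1 : ((F0 Qb N).val.toRingHom.comp (wN N : F0 Qb N →+* F0 Qb N)) (jNF N) = jqModC Qb := by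
    change ((wN N (jNF N) : F0 Qb N) : LaurentSeries Qb) = _
    rw [wN_jNF]
    rfl
  rw [h1, order_inv' jqModC_ne_zero, order_jqModC]
  norm_num

theorem wN_C' (a : Qb) : ((F0 Qb N).val.toRingHom.comp (wN N : F0 Qb N →+* F0 Qb N))
    (algebraMap Qb (F0 Qb N) a) = HahnSeries.C a := by
  change ((wN N (algebraMap Qb _ a) : F0 Qb N) : LaurentSeries Qb) = _
  rw [wN_C]
  exact algebraMap_eq_C a

variable (N)

/-- The cusp `0`. -/
def cZero : Place Qb (F0 Qb N) :=
  (exists_place_of_hom ((F0 Qb N).val.toRingHom.comp (wN N : F0 Qb N →+* F0 Qb N)) wN_C'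
    (order_wN (N := N))).choose

variable {N}

theorem cZero_ord {f : F0 Qb N} (hf : f ≠ 0) :
    (cZero N).ord f = ((wN N f : F0 Qb N) : LaurentSeries Qb).order :=
  (exists_place_of_hom ((F0 Qb N).val.toRingHom.comp (wN N : F0 Qb N →+* F0 Qb N)) wN_C'
    (order_wN (N := N))).choose_spec.2.1 f hf

theorem cZero_val : (cZero N).toValuationSubring =
    valSub ((F0 Qb N).val.toRingHom.comp (wN N : F0 Qb N →+* F0 Qb N)) :=
  (exists_place_of_hom ((F0 Qb N).val.toRingHom.comp (wN N : F0 Qb N →+* F0 Qb N)) wN_C'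
    (order_wN (N := N))).choose_spec.1

theorem mem_cZero {f : F0 Qb N} : f ∈ (cZero N).toValuationSubring ↔
    wN N f ∈ (cInf N).toValuationSubring := by
  rw [cZero_val, cInf_val]
  exact Iff.rfl

theorem cZero_ord' (f : F0 Qb N) : (cZero N).ord f = (cInf N).ord (wN N f) := by
  by_cases hf : f = 0
  · subst hf
    rw [map_zero, Place.ord_zero, Place.ord_zero]
  · rw [cZero_ord hf, cInf_ord ((map_ne_zero_iff _ (wN N).injective).mpr hf)]

theorem cInf_ord' (f : F0 Qb N) : (cInf N).ord f = (cZero N).ord (wN N f) := by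
  rw [cZero_ord', wN_wN]

theorem evp_cZero {f : F0 Qb N} (hf : 0 ≤ (cZero N).ord f) :
    evp (cZero N) f = ((wN N f : F0 Qb N) : LaurentSeries Qb).coeff 0 :=
  (exists_place_of_hom ((F0 Qb N).val.toRingHom.comp (wN N : F0 Qb N →+* F0 Qb N)) wN_C'
    (order_wN (N := N))).choose_spec.2.2 f (mem_of_ord_nonneg _ hf)

theorem evp_cZero' {f : F0 Qb N} (hf : 0 ≤ (cZero N).ord f) :
    evp (cZero N) f = evp (cInf N) (wN N f) := by
  rw [evp_cZero hf, evp_cInf (by rwa [← cZero_ord'])]

theorem galF0_cZero (σ : GQ) : galF0 N σ • cZero N = cZero N := by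
  refine galF0_smul_ext fun f => ?_
  rw [mem_cZero, mem_cZero, wN_galF0, mem_cInf, mem_cInf]
  refine forall₂_congr fun n _ => ?_
  rw [coeff_galF0_smul, map_eq_zero_iff σ σ.injective]

theorem order_jNF : ((jNF N : F0 Qb N) : LaurentSeries Qb).order = -(N : ℤ) := by
  have h1 : ((jNF N : F0 Qb N) : LaurentSeries Qb) = qExpand Qb N (jqModC Qb) := rfl
  rw [h1]
  refine order_eq_of_coeff ?_ ?_
  · rw [show -(N : ℤ) = (N : ℤ) * (-1) by ring, ModularCurve.qExpand_coeff_mul,
      coeff_jqModC_neg_one]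
    exact one_ne_zero
  · intro m hm
    by_cases hdvd : (N : ℤ) ∣ m
    · obtain ⟨n, rfl⟩ := hdvd
      rw [ModularCurve.qExpand_coeff_mul]
      have hpos : (0 : ℤ) < N := by exact_mod_cast Nat.pos_of_ne_zero (NeZero.ne N)
      have hn : n < -((1 : ℕ) : ℤ) := by
        push_cast
        nlinarith
      have := coeff_jqModC_pow_of_lt' (R := Qb) hn
      rwa [pow_one] at this
    · exact ModularCurve.qExpand_coeff_of_not_dvd _ _ hdvd

theorem jF_ne_zero : jF Qb N ≠ 0 := fun h => jqModC_ne_zero (congrArg Subtype.val h)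

theorem jNF_ne_zero : jNF N ≠ 0 := by
  rw [← wN_jF]
  exact (map_ne_zero_iff _ (wN N).injective).mpr jF_ne_zero

theorem cZero_ord_jF : (cZero N).ord (jF Qb N) = -(N : ℤ) := by
  rw [cZero_ord jF_ne_zero, wN_jF, order_jNF]

theorem cInf_ord_jNF : (cInf N).ord (jNF N) = -(N : ℤ) := by
  rw [cInf_ord jNF_ne_zero, order_jNF]

theorem cZero_ord_jNF : (cZero N).ord (jNF N) = -1 := by
  rw [cZero_ord', wN_jNF, cInf_ord_jF]

theorem cInf_ne_cZero : cInf N ≠ cZero N := by
  intro h
  have h1 := cZero_ord_jF (N := N)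
  rw [← h, cInf_ord_jF] at h1
  have h2 := (Fact.out : N.Prime).one_lt
  omega

/-- these are all cusps -/
theorem eq_cusp {v : Place Qb (F0 Qb N)} (hv : v.ord (jF Qb N) < 0) : v = cInf N ∨ v = cZero N := by
  classical
  obtain ⟨ζ, hζ⟩ := exists_zeta_Qb N
  have h1 := natCard_places_infty (K := Qb) (N := N) hζ
  rw [Fermat.Agent.Gamma0Comb.cyc_T] at h1
  have h2 : ModularCurve.cuspCount N = 2 := by
    rw [ModularCurve.cuspCount, Nat.Prime.sum_divisors Fact.out,
      Nat.div_self (Fact.out : N.Prime).pos]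
    simp
  rw [h2] at h1
  have hpos : 0 < N := (Fact.out : N.Prime).pos
  have hmem : ∀ w : Place Qb (F0 Qb N), w.ord (jF Qb N) < 0 → 0 < w.ord (jF Qb N)⁻¹ := by
    intro w hw
    rw [w.ord_inv]
    omega
  have hfin : Finite {v : Place Qb (F0 Qb N) // 0 < v.ord (jF Qb N)⁻¹} :=
    Nat.finite_of_card_ne_zero (by rw [h1]; norm_num)
  let a : {v : Place Qb (F0 Qb N) // 0 < v.ord (jF Qb N)⁻¹} :=
    ⟨cInf N, hmem _ (by rw [cInf_ord_jF]; norm_num)⟩
  let b : {v : Place Qb (F0 Qb N) // 0 < v.ord (jF Qb N)⁻¹} :=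
    ⟨cZero N, hmem _ (by rw [cZero_ord_jF]; omega)⟩
  have hab : a ≠ b := fun h => cInf_ne_cZero (congrArg Subtype.val h)
  obtain ⟨x, y, hxy, huniv⟩ := Nat.card_eq_two_iff.mp h1
  have hall : ∀ z : {v : Place Qb (F0 Qb N) // 0 < v.ord (jF Qb N)⁻¹}, z = x ∨ z = y := by
    intro z
    have : z ∈ ({x, y} : Set _) := huniv ▸ Set.mem_univ z
    simpa using this
  have hz : ∀ z : {v : Place Qb (F0 Qb N) // 0 < v.ord (jF Qb N)⁻¹}, z = a ∨ z = b := by
    intro z
    rcases hall a with h3 | h3 <;> rcases hall b with h4 | h4 <;> rcases hall z with h5 | h5 <;>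
      simp_all
  rcases hz ⟨v, hmem v hv⟩ with h3 | h3
  · exact Or.inl (congrArg Subtype.val h3)
  · exact Or.inr (congrArg Subtype.val h3)

end Prime

end Fermat.Agent.WP
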