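import Fermat.Agent.ModFun.GenusX0
import Fermat.Agent.ModFun.GenDegree
import Fermat.Agent.Flat.RSpace

/-!
The places of the function field of `X₀(N)` above a point of the `j`-line different from
`0, 1728, ∞`, and values of modular functions at these places.
-/

set_option autoImplicit false

noncomputable section

namespace Fermat.Agent.WP

open UpperHalfPlane hiding I J
open Complex Function Filter Topology ModularForm IntermediateField AlgebraicCurve
open Fermat.Agent.ModFun Fermat.Agent.Flat
open scoped Manifold MatrixGroups ModularForm IntermediateField.algebraAdjoinAdjoin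

variable {K : Type*} [Field K] {N : ℕ} [NeZero N] {ι : K →+* ℂ} {ζ : Kˣ}

theorem evp_of_embF {s : ℍ → ℂ} (D : ExpData ι N s)
    (hζ : ι ζ = Complex.exp (2 * Real.pi * Complex.I / N)) {x : XN N} {v : Place K (F0 K N)}
    (hr : Flat.Rational v)
    (hv : v.toValuationSubring = FunField.valSub (embF D hζ x)) {f : F0 K N}
    (hf : f ∈ v.toValuationSubring) :
    ι (evp v f) = (embF D hζ x f).coeff 0 := by
  have h1 := evp_spec hr hf
  rw [FunField.adicValuation_lt_one_iff] at h1
  have h2 : 0 < (embF D hζ x (f - algebraMap K (F0 K N) (evp v f))).orderTop := by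
    rcases h1 with h1 | h1
    · rw [h1, map_zero, HahnSeries.orderTop_zero]
      exact WithTop.coe_lt_top _
    · set g := f - algebraMap K (F0 K N) (evp v f) with hg
      have hg0 : g ≠ 0 := by
        intro h
        rw [h, v.ord_zero] at h1
        exact lt_irrefl _ h1
      have h3 : g⁻¹ ∉ v.toValuationSubring := by
        rw [FunField.mem_iff_ord_nonneg, v.ord_inv]
        omega
      rw [hv, FunField.mem_valSub_iff_order (inv_ne_zero hg0), FunField.order_map_inv _ hg0] at h3
      have h4 : embF D hζ x g ≠ 0 := by simpa using hg0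
      rw [← HahnSeries.order_eq_orderTop_of_ne_zero h4]
      have : 0 < (embF D hζ x g).order := by omega
      exact_mod_cast this
  have h5 := HahnSeries.coeff_eq_zero_of_lt_orderTop h2
  rw [map_sub, embF_algebraMap_base, HahnSeries.coeff_sub] at h5
  simp only [HahnSeries.C_apply, HahnSeries.coeff_single_same] at h5
  linear_combination -h5

theorem isSeparable_of_fd {K F : Type*} [Field K] [Field F] [Algebra K F] [CharZero K] (t : F)
    (h : FiniteDimensional K⟮t⟯ F) : Algebra.IsSeparable K⟮t⟯ F := by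
  have : CharZero K⟮t⟯ := charZero_of_injective_algebraMap (algebraMap K K⟮t⟯).injective
  have : Algebra.IsAlgebraic K⟮t⟯ F := Algebra.IsAlgebraic.of_finite K⟮t⟯ F
  exact Algebra.IsAlgebraic.isSeparable_of_perfectField

section AlgClosed

variable [IsAlgClosed K] [CharZero K]

theorem sep_jF (hζ : ι ζ = Complex.exp (2 * Real.pi * Complex.I / N)) :
    Flat.Sep K (jF K N) :=
  ⟨transcendental_jF, finiteDimensional_F0 hζ, isSeparable_of_fd _ (finiteDimensional_F0 hζ)⟩

/-- The places above `j = c`, `c ≠ 0, 1728`. -/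
theorem exists_places_at (hζ : ι ζ = Complex.exp (2 * Real.pi * Complex.I / N)) {c : K}
    (hc0 : c ≠ 0) (hc1 : c ≠ 1728) {τ₀ : ℍ} (hτ₀ : J τ₀ = ι c) :
    ∃ p : XN N → Place K (F0 K N), Function.Injective p ∧
      (∀ x, (p x).ord (jF K N - algebraMap K (F0 K N) c) = 1) ∧
      (∀ v : Place K (F0 K N), 0 < v.ord (jF K N - algebraMap K (F0 K N) c) → ∃ x, p x = v) ∧
      (∀ x, (p x).toValuationSubring = FunField.valSub (embF (expData_sD τ₀) hζ x)) ∧
      ∀ x, ∀ f ∈ (p x).toValuationSubring,
        ι (evp (p x) f) = (embF (expData_sD τ₀) hζ x f).coeff 0 := by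
  classical
  set t : F0 K N := jF K N - algebraMap K (F0 K N) c with ht
  have htr : Transcendental K t := Fermat.Agent.FunField.transcendental_sub transcendental_jF c
  have htL : K⟮t⟯ = K⟮jF K N⟯ := Fermat.Agent.FunField.adjoin_sub_eq _ c
  have hfd : FiniteDimensional K⟮t⟯ (F0 K N) := by
    rw [htL]
    exact finiteDimensional_F0 hζ
  have hsep : Algebra.IsSeparable K⟮t⟯ (F0 K N) := isSeparable_of_fd _ hfd
  have hX : Fintype.card (XN N) = Module.finrank K⟮t⟯ (F0 K N) := by
    rw [htL]
    exact (finrank_eq hζ).symm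
  have h4 : E₄ τ₀ ≠ 0 := by
    intro h
    rw [← J_eq_zero_iff, hτ₀] at h
    exact hc0 (ι.injective (by rw [h, map_zero]))
  have h6 : E₆ τ₀ ≠ 0 := by
    intro h
    rw [← J_eq_1728_iff, hτ₀] at h
    exact hc1 (ι.injective (by rw [h]; exact (map_ofNat ι 1728).symm))
  have hord : (HahnSeries.ofPowerSeries ℤ ℂ (dExp τ₀ (J - fun _ => ι c))).order = ((1 : ℕ) : ℤ) := by
    have h1 := order_dExp_J_one τ₀ h4 h6
    rw [hτ₀] at h1
    exact order_ofPowerSeries (n := 1) (by simpa using h1)
  obtain ⟨p, hp, hpos, hcard⟩ := FunField.exists_place_map htr hX (embF (expData_sD τ₀) hζ)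
    (embF_injective _ hζ) (fun a => HahnSeries.C (ι a))
    (fun x a => embF_algebraMap_base _ hζ x a) (fun a => by
      by_cases ha : ι a = 0
      · rw [ha, map_zero, HahnSeries.orderTop_zero]
        exact le_top
      · rw [HahnSeries.C_apply, HahnSeries.orderTop_single ha]
        rfl) _ (fun x => embF_jF_sub hζ τ₀ x) (by rw [hord]; exact_mod_cast one_pos)
  have hone : ∀ x, (p x).ord t = 1 := fun x => ord_eq_one_of_ne hζ hc0 hc1 _ (hpos x)
  have hrat : ∀ v : Place K (F0 K N), Flat.Rational v := fun v => (sep_jF hζ).rational v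
  refine ⟨p, ?_, hone, ?_, hp, fun x f hf => evp_of_embF _ hζ (hrat _) (hp x) hf⟩
  · intro x y hxy
    have h1 := hcard (p x) (hpos x)
    rw [hone x] at h1
    have h2 : Nat.card {y // p y = p x} = 1 := by exact_mod_cast h1
    rw [Nat.card_eq_one_iff_unique] at h2
    obtain ⟨h3, -⟩ := h2
    have := h3.elim ⟨x, rfl⟩ ⟨y, hxy.symm⟩
    exact congrArg Subtype.val this
  · intro v hv
    have h1 := hcard v hv
    by_contra hne
    push Not at hne
    have : IsEmpty {x // p x = v} := ⟨fun x => hne x.1 x.2⟩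
    rw [Nat.card_of_isEmpty] at h1
    simp only [Nat.cast_zero] at h1
    omega

end AlgClosed

/-- the expansion at a point attached to a coset, for holomorphic functions -/
theorem embF_of_hasExp (hζ : ι ζ = Complex.exp (2 * Real.pi * Complex.I / N)) (τ₀ : ℍ)
    {F : F0 K N} {f : ℍ → ℂ} (hf : MDiff f) (hF : HasExp ι (qN 1) f (F : LaurentSeries K))
    (x : XN N) : embF (expData_sD τ₀) hζ x F =
      HahnSeries.ofPowerSeries ℤ ℂ (dExp τ₀ (conjHom x f)) := by
  obtain ⟨a, b, hb, hab⟩ := IsFractionRing.div_surjective (A := A0 K N) F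
  have hb0 : algebraMap (A0 K N) (F0 K N) b ≠ 0 := by
    intro h
    exact (nonZeroDivisors.ne_zero hb) ((injective_iff_map_eq_zero _).mp
      (IsFractionRing.injective (A0 K N) (F0 K N)) b h)
  have hab' : F * algebraMap (A0 K N) (F0 K N) b = algebraMap (A0 K N) (F0 K N) a := by
    rw [← hab, div_mul_cancel₀ _ hb0]
  have hea := ev_hasExp ι N (Subalgebra.inclusion (adjoin_le_holAlg hζ) a)
  have heb := ev_hasExp ι N (Subalgebra.inclusion (adjoin_le_holAlg hζ) b)
  set fa := ev ι N (Subalgebra.inclusion (adjoin_le_holAlg hζ) a) with hfa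
  set fb := ev ι N (Subalgebra.inclusion (adjoin_le_holAlg hζ) b) with hfb
  have hmul : f * fb = fa := by
    have h1 := hF.mul heb
    have h2 : (F : LaurentSeries K) * ((Subalgebra.inclusion (adjoin_le_holAlg hζ) b : holAlg ι N) :
        LaurentSeries K) = ((Subalgebra.inclusion (adjoin_le_holAlg hζ) a : holAlg ι N) :
        LaurentSeries K) := congrArg (fun z : F0 K N => (z : LaurentSeries K)) hab'
    rw [h2] at h1
    exact h1.fun_unique (qN_ne_zero 1) hea
  have hmdf : MDiff (conjHom x f) := mdiff_smul hf _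
  have h1 := (hasExp_dExp τ₀ hmdf).mul (embA_spec (expData_sD τ₀) hζ x b)
  have h2 : conjHom x f * conjHom x fb = conjHom x fa := by rw [← map_mul, hmul]
  rw [h2] at h1
  have h3 := h1.unique Function.injective_id (isParam_sD τ₀) (embA_spec (expData_sD τ₀) hζ x a)
  have h4 : embF (expData_sD τ₀) hζ x F * embA (expData_sD τ₀) hζ x b =
      embA (expData_sD τ₀) hζ x a := by
    rw [← embF_algebraMap, ← embF_algebraMap, ← map_mul, hab']
  have h5 : embA (expData_sD (ι := ι) (N := N) τ₀) hζ x b ≠ 0 := by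
    rw [← embF_algebraMap]
    simpa using hb0
  exact mul_right_cancel₀ h5 (h4.trans h3.symm)

theorem coeff_zero_embF (hζ : ι ζ = Complex.exp (2 * Real.pi * Complex.I / N)) (τ₀ : ℍ)
    {F : F0 K N} {f : ℍ → ℂ} (hf : MDiff f) (hF : HasExp ι (qN 1) f (F : LaurentSeries K))
    (x : XN N) : (embF (expData_sD τ₀) hζ x F).coeff 0 = f ((Quotient.out x)⁻¹ • τ₀) := by
  rw [embF_of_hasExp hζ τ₀ hf hF x]
  have h1 := HahnSeries.ofPowerSeries_apply_coeff (Γ := ℤ) (dExp τ₀ (conjHom x f)) 0
  rw [Nat.cast_zero] at h1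
  rw [h1, PowerSeries.coeff_zero_eq_constantCoeff_apply, constantCoeff_dExp, conjHom_apply]

theorem orderTop_embF_nonneg (hζ : ι ζ = Complex.exp (2 * Real.pi * Complex.I / N)) (τ₀ : ℍ)
    {F : F0 K N} {f : ℍ → ℂ} (hf : MDiff f) (hF : HasExp ι (qN 1) f (F : LaurentSeries K))
    (x : XN N) : 0 ≤ (embF (expData_sD τ₀) hζ x F).orderTop := by
  rw [embF_of_hasExp hζ τ₀ hf hF x]
  by_contra h
  push Not at h
  have h0 : HahnSeries.ofPowerSeries ℤ ℂ (dExp τ₀ (conjHom x f)) ≠ 0 := by
    rintro h1
    rw [h1, HahnSeries.orderTop_zero] at h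
    exact absurd h (by simp)
  rw [← HahnSeries.order_eq_orderTop_of_ne_zero h0] at h
  have h2 : (HahnSeries.ofPowerSeries ℤ ℂ (dExp τ₀ (conjHom x f))).order < 0 := by exact_mod_cast h
  have h3 := HahnSeries.coeff_order_eq_zero.not.2 h0
  exact h3 (ModularCurve.ofPowerSeries_coeff_of_neg _ h2)

end Fermat.Agent.WP
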