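import Fermat.Agent.WP.HF

/-!
A rational function with a simple pole at the cusp `∞` and no zero or pole at the cusp `0`.
-/

set_option autoImplicit false
set_option linter.unusedSectionVars false

noncomputable section

namespace Fermat.Agent.WP

open AlgebraicCurve IntermediateField Filter Topology
open Fermat.Agent.FunField Fermat.Agent.Flat Fermat.Agent.LG Fermat.Agent.ModFun Fermat.Agent.MZ
open Fermat.Agent.ESCore (ιC heckeChar)
open ModularCurve (qExpand jqModC)
open scoped PowerSeries.WithPiTopology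

/-- The field of algebraic numbers. -/
local notation "Qb" => AlgebraicClosure ℚ
/-- The absolute Galois group. -/
local notation "GQ" => (AlgebraicClosure ℚ ≃ₐ[ℚ] AlgebraicClosure ℚ)

/-! ### the constant 744 -/

theorem coeff_one_etaProd : PowerSeries.coeff 1 ModularCurve.etaProd = -1 := by
  have h := (PowerSeries.WithPiTopology.multipliable_one_sub_X_pow ℤ).hasProd.tendsto_prod_nat
  have h2 := ((PowerSeries.WithPiTopology.continuous_coeff ℤ 1).tendsto _).comp h
  have h3 : ∀ n, PowerSeries.coeff 1 (∏ i ∈ Finset.range (n + 1),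
      (1 - (PowerSeries.X : PowerSeries ℤ) ^ (i + 1))) = -1 := by
    intro n
    induction n with
    | zero =>
      rw [zero_add, Finset.prod_range_one, zero_add, pow_one, map_sub, PowerSeries.coeff_one_X,
        PowerSeries.coeff_one, if_neg one_ne_zero]
      norm_num
    | succ n ih =>
      rw [Finset.prod_range_succ, mul_sub, mul_one, map_sub, ih, PowerSeries.coeff_mul_X_pow',
        if_neg (by omega), sub_zero]
  have h4 : Tendsto (fun n => PowerSeries.coeff 1 (∏ i ∈ Finset.range n,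
      (1 - (PowerSeries.X : PowerSeries ℤ) ^ (i + 1)))) atTop (𝓝 (-1)) := by
    rw [← tendsto_add_atTop_iff_nat 1]
    simp only [h3]
    exact tendsto_const_nhds
  exact tendsto_nhds_unique h2 h4

theorem coeff_one_etaUnitInv : PowerSeries.coeff 1 ModularCurve.dedekindEtaUnitInv = 24 := by
  have h1 : PowerSeries.coeff 1 ModularCurve.dedekindEtaUnit = -24 := by
    rw [ModularCurve.dedekindEtaUnit, PowerSeries.coeff_one_pow, coeff_one_etaProd,
      ModularCurve.constantCoeff_etaProd]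
    norm_num
  have h := congrArg (PowerSeries.coeff 1) ModularCurve.dedekindEtaUnit_mul_inv
  rw [PowerSeries.coeff_one_mul, h1, ModularCurve.constantCoeff_dedekindEtaUnit,
    ModularCurve.constantCoeff_dedekindEtaUnitInv, PowerSeries.coeff_one, if_neg one_ne_zero] at h
  linarith

theorem coeff_one_jNum : PowerSeries.coeff 1 ModularCurve.jNum = 744 := by
  have h1 : PowerSeries.coeff 1 (ModularCurve.eisenstein4 ^ 3) = 720 := by
    rw [PowerSeries.coeff_one_pow, ModularCurve.constantCoeff_eisenstein4,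
      ModularCurve.eisenstein4, PowerSeries.coeff_mk]
    norm_num
  rw [ModularCurve.jNum, PowerSeries.coeff_one_mul, coeff_one_etaUnitInv, h1,
    map_pow (PowerSeries.constantCoeff (R := ℤ)),
    ModularCurve.constantCoeff_eisenstein4, ModularCurve.constantCoeff_dedekindEtaUnitInv]
  norm_num

theorem coeff_jqModC_pow_one_sub (n : ℕ) : (jqModC Qb ^ n).coeff (1 - (n : ℤ)) = 744 * n := by
  have h0 : (jqModC Qb) ^ n = HahnSeries.single (-(n : ℤ)) 1 *
      HahnSeries.ofPowerSeries ℤ Qb ((ModularCurve.jNum.map (Int.castRingHom Qb)) ^ n) := by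
    have h : n • (-1 : ℤ) = -(n : ℤ) := by simp
    rw [jqModC, mul_pow, HahnSeries.single_pow, one_pow, h, ← map_pow]
  have h1 : PowerSeries.constantCoeff (ModularCurve.jNum.map (Int.castRingHom Qb)) = 1 := by
    rw [← PowerSeries.coeff_zero_eq_constantCoeff, PowerSeries.coeff_map,
      PowerSeries.coeff_zero_eq_constantCoeff, ModularCurve.constantCoeff_jNum, map_one]
  rw [h0, HahnSeries.coeff_single_mul, one_mul, show (1 - (n : ℤ) - -n) = ((1 : ℕ) : ℤ) by simp,
    HahnSeries.ofPowerSeries_apply_coeff, PowerSeries.coeff_one_pow, h1, PowerSeries.coeff_map,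
    coeff_one_jNum]
  simp [mul_comm]

section Prime

variable {N : ℕ} [Fact N.Prime] [NeZero N]

theorem order_D : (((jNF N - jF Qb N ^ N : F0 Qb N)) : LaurentSeries Qb).order = 1 - N := by
  have h0 : (((jNF N - jF Qb N ^ N : F0 Qb N)) : LaurentSeries Qb) =
      qExpand Qb N (jqModC Qb) - jqModC Qb ^ N := rfl
  have hN : 2 ≤ N := (Fact.out : N.Prime).two_le
  rw [h0]
  refine order_eq_of_coeff ?_ fun m hm => ?_
  · rw [HahnSeries.coeff_sub, ModularCurve.qExpand_coeff_of_not_dvd, coeff_jqModC_pow_one_sub,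
      zero_sub, neg_ne_zero]
    · refine mul_ne_zero (by norm_num) ?_
      exact_mod_cast NeZero.ne N
    · intro h
      have h1 : (N : ℤ) ∣ 1 := by
        have := dvd_add h (dvd_refl (N : ℤ))
        simpa using this
      have h2 : N ∣ 1 := by exact_mod_cast h1
      have := Nat.le_of_dvd one_pos h2
      omega
  · rw [HahnSeries.coeff_sub]
    rcases (show m < -(N : ℤ) ∨ m = -(N : ℤ) by omega) with h | h
    · rw [coeff_jqModC_pow_of_lt' h, sub_zero]
      by_cases hdvd : (N : ℤ) ∣ m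
      · obtain ⟨n, rfl⟩ := hdvd
        rw [ModularCurve.qExpand_coeff_mul]
        have hpos : (0 : ℤ) < N := by omega
        have hn : n < -((1 : ℕ) : ℤ) := by
          push_cast
          nlinarith
        have := coeff_jqModC_pow_of_lt' (R := Qb) hn
        rwa [pow_one] at this
      · exact ModularCurve.qExpand_coeff_of_not_dvd _ _ hdvd
    · rw [h, coeff_jqModC_pow_self', show -(N : ℤ) = (N : ℤ) * (-1) by ring,
        ModularCurve.qExpand_coeff_mul, coeff_jqModC_neg_one, sub_self]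

theorem D_ne_zero : jNF N - jF Qb N ^ N ≠ 0 := by
  intro h
  have h1 := order_D (N := N)
  rw [h] at h1
  have h2 : ((0 : F0 Qb N) : LaurentSeries Qb).order = 0 := HahnSeries.order_zero
  have := (Fact.out : N.Prime).two_le
  omega

variable (N) in
/-- A function with a simple pole at `∞` and order `0` at the other cusp -/
def gInf : F0 Qb N := jF Qb N ^ N / (jNF N - jF Qb N ^ N)

theorem gInf_ne_zero : gInf N ≠ 0 := div_ne_zero (pow_ne_zero _ jF_ne_zero) D_ne_zero

theorem cInf_ord_gInf : (cInf N).ord (gInf N) = -1 := by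
  rw [gInf, div_eq_mul_inv, Place.ord_mul _ (pow_ne_zero _ jF_ne_zero) (inv_ne_zero D_ne_zero),
    Place.ord_inv, ord_pow, cInf_ord_jF, cInf_ord D_ne_zero, order_D]
  ring

theorem cZero_ord_D : (cZero N).ord (jNF N - jF Qb N ^ N) = -((N : ℤ) * N) := by
  have hN : 2 ≤ N := (Fact.out : N.Prime).two_le
  have h1 : (cZero N).ord (jF Qb N ^ N) = -((N : ℤ) * N) := by
    rw [ord_pow, cZero_ord_jF]
    ring
  have h2 := cZero_ord_jNF (N := N)
  have hNN : (4 : ℤ) ≤ (N : ℤ) * N := by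
    have : (2 : ℤ) ≤ N := by exact_mod_cast hN
    nlinarith
  have h3 : (cZero N).ord (-(jF Qb N ^ N)) = -((N : ℤ) * N) := by
    rw [ord_neg, h1]
  have h4 : jNF N + -(jF Qb N ^ N) ≠ 0 := by
    rw [← sub_eq_add_neg]
    exact D_ne_zero
  have h5 := ord_add_le (cZero N) h4
  rw [h2, h3, ← sub_eq_add_neg] at h5
  have h6 : jNF N + -(jNF N - jF Qb N ^ N) ≠ 0 := by
    rw [show jNF N + -(jNF N - jF Qb N ^ N) = jF Qb N ^ N by ring]
    exact pow_ne_zero _ jF_ne_zero
  have h7 := ord_add_le (cZero N) h6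
  rw [show jNF N + -(jNF N - jF Qb N ^ N) = jF Qb N ^ N by ring, h1, h2, ord_neg] at h7
  have h8 : -(jF Qb N ^ N) ≠ 0 := neg_ne_zero.mpr (pow_ne_zero _ jF_ne_zero)
  have h9 : -(jNF N - jF Qb N ^ N) ≠ 0 := neg_ne_zero.mpr D_ne_zero
  have h10 := h5.resolve_right (fun h => h.elim jNF_ne_zero h8)
  have h11 := h7.resolve_right (fun h => h.elim jNF_ne_zero h9)
  omega

theorem cZero_ord_gInf : (cZero N).ord (gInf N) = 0 := by
  rw [gInf, div_eq_mul_inv, Place.ord_mul _ (pow_ne_zero _ jF_ne_zero) (inv_ne_zero D_ne_zero),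
    Place.ord_inv, ord_pow, cZero_ord_jF, cZero_ord_D]
  ring

theorem galF0_jF (σ : GQ) : galF0 N σ • jF Qb N = jF Qb N := by
  apply Subtype.ext
  rw [coe_galF0_smul]
  exact coeffMap_jqModC _

theorem galF0_jNF (σ : GQ) : galF0 N σ • jNF N = jNF N := by
  rw [← wN_jF, ← wN_galF0, galF0_jF]

theorem galF0_gInf (σ : GQ) : galF0 N σ • gInf N = gInf N := by
  rw [gInf, smul_div₀', smul_pow', smul_sub, smul_pow', galF0_jF, galF0_jNF]

theorem wN_ne_zero {f : F0 Qb N} (hf : f ≠ 0) : wN N f ≠ 0 :=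
  (map_ne_zero_iff _ (wN N).injective).mpr hf

theorem galF0_zpow (σ : GQ) (f : F0 Qb N) (n : ℤ) :
    galF0 N σ • f ^ n = (galF0 N σ • f) ^ n :=
  map_zpow₀ (MulSemiringAction.toRingHom _ (F0 Qb N) (galF0 N σ)) f n

/-- a rational function with opposite orders at the cusps -/
theorem exists_ratio (x : ℤ) : ∃ G : F0 Qb N, G ≠ 0 ∧ (∀ σ : GQ, galF0 N σ • G = G) ∧
    (cInf N).ord G = x ∧ (cZero N).ord G = -x := by
  refine ⟨gInf N ^ (-x) * wN N (gInf N) ^ x, mul_ne_zero (zpow_ne_zero _ gInf_ne_zero)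
    (zpow_ne_zero _ (wN_ne_zero gInf_ne_zero)), fun σ => ?_, ?_, ?_⟩
  · rw [smul_mul', galF0_zpow, galF0_zpow, ← wN_galF0, galF0_gInf]
  · rw [Place.ord_mul _ (zpow_ne_zero _ gInf_ne_zero) (zpow_ne_zero _ (wN_ne_zero gInf_ne_zero)),
      Place.ord_zpow, Place.ord_zpow, cInf_ord_gInf, ← cZero_ord', cZero_ord_gInf]
    ring
  · rw [Place.ord_mul _ (zpow_ne_zero _ gInf_ne_zero) (zpow_ne_zero _ (wN_ne_zero gInf_ne_zero)),
      Place.ord_zpow, Place.ord_zpow, cZero_ord_gInf, ← cInf_ord', cInf_ord_gInf]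
    ring

theorem exists_rat_of_fixed {a : Qb} (h : ∀ σ : GQ, σ a = a) : ∃ r : ℚ, (r : Qb) = a := by
  have h1 : a ∈ (⊥ : IntermediateField ℚ Qb) := (InfiniteGalois.mem_bot_iff_fixed a).mpr h
  rw [IntermediateField.mem_bot] at h1
  obtain ⟨r, hr⟩ := h1
  exact ⟨r, by rw [← hr]; simp⟩

/-- the leading coefficient of the expansion at `∞` -/
def lc (f : F0 Qb N) : Qb := (f : LaurentSeries Qb).leadingCoeff

theorem lc_mul (f g : F0 Qb N) : lc (f * g) = lc f * lc g := HahnSeries.leadingCoeff_mul _ _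

theorem lc_one : lc (1 : F0 Qb N) = 1 := HahnSeries.leadingCoeff_one

theorem lc_pow (f : F0 Qb N) (n : ℕ) : lc (f ^ n) = lc f ^ n := by
  induction n with
  | zero => rw [pow_zero, pow_zero, lc_one]
  | succ n ih => rw [pow_succ, pow_succ, lc_mul, ih]

theorem lc_ne_zero {f : F0 Qb N} (hf : f ≠ 0) : lc f ≠ 0 :=
  HahnSeries.leadingCoeff_ne_zero.mpr fun h => hf (Subtype.ext h)

theorem lc_C (a : Qb) : lc (algebraMap Qb (F0 Qb N) a) = a := by
  have h1 : ((algebraMap Qb (F0 Qb N) a : F0 Qb N) : LaurentSeries Qb) = HahnSeries.C a :=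
    algebraMap_eq_C a
  rw [lc, h1, HahnSeries.C_apply]
  by_cases ha : a = 0
  · rw [ha]; simp
  · rw [HahnSeries.leadingCoeff_of_single]

theorem lc_rational {f : F0 Qb N} (hf : ∀ σ : GQ, galF0 N σ • f = f) : ∃ r : ℚ, (r : Qb) = lc f := by
  apply exists_rat_of_fixed
  intro σ
  have h1 := coeff_galF0_smul N σ f (f : LaurentSeries Qb).order
  rw [hf] at h1
  rw [lc, HahnSeries.leadingCoeff_eq]
  exact h1.symm

theorem evp_cInf_eq_lc {f : F0 Qb N} (hf0 : f ≠ 0) (hf : (cInf N).ord f = 0) :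
    evp (cInf N) f = lc f := by
  rw [evp_cInf hf.ge, lc, HahnSeries.leadingCoeff_eq, ← cInf_ord hf0, hf]

theorem lc_HF : lc (HF N) = 1 := by
  change (dSer Qb * qExpand Qb N (dInvSer Qb)).leadingCoeff = 1
  rw [HahnSeries.leadingCoeff_mul, CA.leadingCoeff_qExpand, ← HahnSeries.leadingCoeff_mul,
    dSer_mul_dInvSer, HahnSeries.leadingCoeff_one]

/-- **The modified function.** -/
theorem exists_Hr {x : ℤ} {m : ℕ} (hx : x * m = N - 1) : ∃ (G : F0 Qb N) (r s : ℚ), G ≠ 0 ∧
    (∀ σ : GQ, galF0 N σ • G = G) ∧ r ≠ 0 ∧ s ≠ 0 ∧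
    (cInf N).ord (HF N * G ^ m) = 0 ∧ (cZero N).ord (HF N * G ^ m) = 0 ∧
    evp (cInf N) (HF N * G ^ m) = (r : Qb) ^ m ∧
    evp (cZero N) (HF N * G ^ m) = (N : Qb) ^ 12 * (s : Qb) ^ m := by
  obtain ⟨G, hG0, hG, h1, h2⟩ := exists_ratio (N := N) x
  have hw : ∀ σ : GQ, galF0 N σ • wN N G = wN N G := fun σ => by rw [← wN_galF0, hG]
  obtain ⟨r, hr⟩ := lc_rational hG
  obtain ⟨s, hs⟩ := lc_rational hw
  have h0 : HF N * G ^ m ≠ 0 := mul_ne_zero HF_ne_zero (pow_ne_zero _ hG0)
  have o1 : (cInf N).ord (HF N * G ^ m) = 0 := by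
    rw [Place.ord_mul _ HF_ne_zero (pow_ne_zero _ hG0), cInf_ord_HF, ord_pow, h1]
    linear_combination hx
  have o2 : (cZero N).ord (HF N * G ^ m) = 0 := by
    rw [Place.ord_mul _ HF_ne_zero (pow_ne_zero _ hG0), cZero_ord_HF, ord_pow, h2]
    linear_combination -hx
  refine ⟨G, r, s, hG0, hG, ?_, ?_, o1, o2, ?_, ?_⟩
  · rintro rfl
    exact lc_ne_zero hG0 (by rw [← hr]; simp)
  · rintro rfl
    exact lc_ne_zero (wN_ne_zero hG0) (by rw [← hs]; simp)
  · rw [evp_cInf_eq_lc h0 o1, lc_mul, lc_pow, lc_HF, one_mul, hr]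
  · rw [evp_cZero' o2.ge, evp_cInf_eq_lc (wN_ne_zero h0) (by rw [← cZero_ord', o2]), map_mul,
      map_pow, wN_HF, lc_mul, lc_mul, lc_pow, lc_C, hs]
    have h3 : lc (HF N)⁻¹ = 1 := by
      have h4 := lc_mul (HF N) (HF N)⁻¹
      rw [mul_inv_cancel₀ HF_ne_zero, lc_one, lc_HF, one_mul] at h4
      exact h4.symm
    rw [h3, mul_one]

end Prime

end Fermat.Agent.WP
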