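import Fermat.Agent.WP.Pl
import Fermat.Agent.MX.Cus

/-!
Lifting a point of `X₀(N)` to a point of `X₀(pN)` with a given value of the Hauptmodul.
-/

set_option autoImplicit false
set_option linter.unusedSectionVars false

noncomputable section

namespace Fermat.Agent.WP

open UpperHalfPlane hiding I J
open Complex Function Filter Topology ModularForm IntermediateField AlgebraicCurve
open Fermat.Agent.ModFun Fermat.Agent.Flat Fermat.Agent.LG Fermat.Agent.MX Fermat.Agent.FunField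
open Fermat.Agent.ESCore (HauptFn ιC)
open CongruenceSubgroup
open scoped Manifold MatrixGroups ModularForm IntermediateField.algebraAdjoinAdjoin

/-- The field of algebraic numbers. -/
local notation "Qb" => AlgebraicClosure ℚ

/-- The projection of cosets. -/
def prX {M : ℕ} (N : ℕ) (y : XN M) : XN N := ((Quotient.out y : SL(2, ℤ)) : XN N)

theorem prX_mk {M N : ℕ} (h : N ∣ M) (g : SL(2, ℤ)) : prX N ((g : SL(2, ℤ)) : XN M) =
    ((g : SL(2, ℤ)) : XN N) := by
  rw [prX, QuotientGroup.eq]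
  have h1 : ((Quotient.out ((g : SL(2, ℤ)) : XN M) : SL(2, ℤ)) : XN M) = (g : SL(2, ℤ)) :=
    QuotientGroup.out_eq' _
  rw [QuotientGroup.eq] at h1
  rw [Gamma0_mem, ZMod.intCast_zmod_eq_zero_iff_dvd] at h1 ⊢
  exact (Int.natCast_dvd_natCast.mpr h).trans h1

theorem conjHom_prX {M N : ℕ} {f : ℍ → ℂ} (hf : IsInv N f) (y : XN M) :
    conjHom (prX N y) f = conjHom y f := by
  funext τ
  rw [prX, conjHom_mk hf, conjHom_apply]

theorem prX_injective {N p : ℕ} (h : p.Coprime N) :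
    Injective (fun y : XN (p * N) => (prX N y, prX p y)) := by
  intro y y' hyy
  obtain ⟨g, rfl⟩ := QuotientGroup.mk_surjective y
  obtain ⟨g', rfl⟩ := QuotientGroup.mk_surjective y'
  have h1 := (Prod.mk.injEq _ _ _ _ ▸ hyy : _ ∧ _)
  obtain ⟨h2, h3⟩ := h1
  change prX N ((g : SL(2, ℤ)) : XN (p * N)) = prX N ((g' : SL(2, ℤ)) : XN (p * N)) at h2
  change prX p ((g : SL(2, ℤ)) : XN (p * N)) = prX p ((g' : SL(2, ℤ)) : XN (p * N)) at h3
  rw [prX_mk (dvd_mul_left N p), prX_mk (dvd_mul_left N p), QuotientGroup.eq] at h2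
  rw [prX_mk (dvd_mul_right p N), prX_mk (dvd_mul_right p N), QuotientGroup.eq] at h3
  rw [QuotientGroup.eq]
  rw [Gamma0_mem, ZMod.intCast_zmod_eq_zero_iff_dvd] at h2 h3 ⊢
  push_cast
  exact (Nat.isCoprime_iff_coprime.mpr h).mul_dvd h3 h2

theorem card_XN (N : ℕ) [NeZero N] : Fintype.card (XN N) = ModularCurve.dedekindPsi N := by
  rw [← Gamma0Comb.natCard_coset N, Nat.card_eq_fintype_card]

theorem card_XN_prime {N : ℕ} [NeZero N] (h : N.Prime) : Fintype.card (XN N) = N + 1 := by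
  have h1 := Gamma0Comb.dedekindPsi_prime_pow h 0
  rw [zero_add, pow_one, pow_zero] at h1
  rw [card_XN, h1]

theorem prX_bijective {N p : ℕ} [NeZero N] [NeZero p] [NeZero (p * N)] (h : p.Coprime N) :
    Bijective (fun y : XN (p * N) => (prX N y, prX p y)) := by
  rw [Fintype.bijective_iff_injective_and_card]
  refine ⟨prX_injective h, ?_⟩
  rw [Fintype.card_prod, card_XN, card_XN, card_XN, Gamma0Comb.dedekindPsi_mul h, mul_comm]

section Emb

variable {K : Type*} [Field K] {M N : ℕ} [NeZero M] [NeZero N] {ι : K →+* ℂ} {ζ ζ' : Kˣ}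

theorem embF_inclusion (hζ : ι ζ = Complex.exp (2 * Real.pi * Complex.I / N))
    (hζ' : ι ζ' = Complex.exp (2 * Real.pi * Complex.I / M)) (h : N ∣ M) (τ₀ : ℍ)
    (hle : F0 K N ≤ F0 K M) (y : XN M) (f : F0 K N) :
    embF (expData_sD τ₀) hζ' y (IntermediateField.inclusion hle f) =
      embF (expData_sD τ₀) hζ (prX N y) f := by
  have key : (embF (expData_sD τ₀) hζ' y).comp
      ((IntermediateField.inclusion hle : F0 K N →ₐ[K] F0 K M) : F0 K N →+* F0 K M) =
      embF (expData_sD τ₀) hζ (prX N y) := by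
    apply ringHom_ext_adjoin
    · intro a
      rw [RingHom.comp_apply]
      change embF (expData_sD τ₀) hζ' y (algebraMap K (F0 K M) a) = _
      rw [embF_algebraMap_base]
      exact (embF_algebraMap_base (expData_sD τ₀) hζ _ a).symm
    · rintro x ⟨d, hd0, hd, rfl⟩
      rw [RingHom.comp_apply]
      have e1 := embF_of_hasExp hζ' τ₀ (F := ⟨_, IntermediateField.subset_adjoin _ _
        (gens_dvd (hd.trans h))⟩) (f := Jd d) (mdiff_Jd d) (hasExp_Jd ι) y
      have e2 := embF_of_hasExp hζ τ₀ (F := ⟨_, IntermediateField.subset_adjoin _ _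
        (gens_dvd hd)⟩) (f := Jd d) (mdiff_Jd d) (hasExp_Jd ι) (prX N y)
      rw [conjHom_prX (fun γ hγ τ => Jd_invariant hd hγ τ)] at e2
      exact e1.trans e2.symm
  exact congrArg (fun g : F0 K N →+* LaurentSeries ℂ => g f) key

theorem abv_inclusion (hζ : ι ζ = Complex.exp (2 * Real.pi * Complex.I / N))
    (hζ' : ι ζ' = Complex.exp (2 * Real.pi * Complex.I / M)) (h : N ∣ M) (τ₀ : ℍ)
    (hle : F0 K N ≤ F0 K M) (y : XN M) {v' : Place K (F0 K M)} {v : Place K (F0 K N)}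
    (hv' : v'.toValuationSubring = FunField.valSub (embF (expData_sD τ₀) hζ' y))
    (hv : v.toValuationSubring = FunField.valSub (embF (expData_sD τ₀) hζ (prX N y))) :
    Abv ((IntermediateField.inclusion hle : F0 K N →ₐ[K] F0 K M) : F0 K N →+* F0 K M) v' v := by
  apply abv_of_iff
  · intro a
    rfl
  intro f
  by_cases hf : f = 0
  · rw [hf, map_zero]
    exact ⟨fun _ => zero_mem _, fun _ => zero_mem _⟩
  have hf' : ((IntermediateField.inclusion hle : F0 K N →ₐ[K] F0 K M) : F0 K N →+* F0 K M) f ≠ 0 :=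
    (_root_.map_ne_zero _).mpr hf
  rw [hv, hv', FunField.mem_valSub_iff_order hf, FunField.mem_valSub_iff_order hf']
  have := embF_inclusion hζ hζ' h τ₀ hle y f
  change 0 ≤ (embF (expData_sD τ₀) hζ' y (IntermediateField.inclusion hle f)).order ↔ _
  rw [this]

end Emb

/-- the value of `j` at a zero of `T - T₀` -/
theorem ord_jF_pos {K F : Type*} [Field K] [Field F] [Algebra K F] {T j : F} {k : ℕ} {a b : K}
    (hT : Transcendental K T) (hj : Transcendental K j)
    (hrel : j * T ^ k = (T + algebraMap K F a) * (T + algebraMap K F b) ^ k) {v : Place K F}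
    (hr : Flat.Rational v) {T₀ j₀ : K} (hT₀ : T₀ ≠ 0)
    (h0 : j₀ * T₀ ^ k = (T₀ + a) * (T₀ + b) ^ k) (hv : 0 < v.ord (T - algebraMap K F T₀)) :
    0 < v.ord (j - algebraMap K F j₀) := by
  have hTm : T ∈ v.toValuationSubring := by
    have h1 := add_mem (mem_of_ord_nonneg v hv.le) (v.algebraMap_mem' T₀)
    rwa [sub_add_cancel] at h1
  have hevT : evp v T = T₀ := evp_unique (by rw [adicValuation_lt_one_iff]; exact Or.inr hv)
  have hTord : v.ord T = 0 := ((evp_ne_zero_iff hr hTm).mp (by rw [hevT]; exact hT₀)).2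
  have hjm : j ∈ v.toValuationSubring := mem_of_ord_nonneg v (ord_j_zero hrel hT hTord)
  have e1 := congrArg (evp v) hrel
  rw [evp_mul hr hjm (pow_mem hTm k), Flat.evp_pow hr hTm, hevT, evp_mul hr
    (add_mem hTm (v.algebraMap_mem' a)) (pow_mem (add_mem hTm (v.algebraMap_mem' b)) k),
    Flat.evp_pow hr (add_mem hTm (v.algebraMap_mem' b)), evp_add hr hTm (v.algebraMap_mem' a),
    evp_add hr hTm (v.algebraMap_mem' b), evp_algebraMap, evp_algebraMap, hevT, ← h0] at e1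
  have e2 : evp v j = j₀ := mul_right_cancel₀ (pow_ne_zero k hT₀) e1
  have e3 := evp_spec hr hjm
  rw [e2, adicValuation_lt_one_iff] at e3
  rcases e3 with e3 | e3
  · exfalso
    have := Flat.transcendental_sub hj j₀
    rw [e3] at this
    exact this isAlgebraic_zero
  · exact e3

/-- **(S5)** the point of `X₀(pN)` above a point of `X₀(N)` with a given value of the
Hauptmodul. -/
theorem exists_lift {p N M : ℕ} [Fact p.Prime] [NeZero N] [NeZero M] {κ : ℤ} (H : HauptFn p κ)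
    (hN : N.Prime) (hpN : p ≠ N) (hM : M = p * N) (hle : F0 Qb N ≤ F0 Qb M) (hpM : p ∣ M)
    {k : ℕ} {a b : Qb}
    (hrel : jF Qb M * tF H hpM ^ k = (tF H hpM + algebraMap Qb _ a) *
      (tF H hpM + algebraMap Qb _ b) ^ k)
    (hdeg : Module.finrank Qb⟮tF H hpM⟯ (F0 Qb M) = N + 1)
    {x : Place Qb (F0 Qb N)} {j₀ T₀ : Qb} (hx : 0 < x.ord (jF Qb N - algebraMap Qb _ j₀))
    (hj0 : j₀ ≠ 0) (hj1 : j₀ ≠ 1728) (hT₀ : T₀ ≠ 0)
    (h0 : j₀ * T₀ ^ k = (T₀ + a) * (T₀ + b) ^ k) :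
    ∃ x' : Place Qb (F0 Qb M),
      Abv ((IntermediateField.inclusion hle : F0 Qb N →ₐ[Qb] F0 Qb M) : F0 Qb N →+* F0 Qb M)
        x' x ∧ 0 < x'.ord (tF H hpM - algebraMap Qb _ T₀) ∧
      ∀ y' : Place Qb (F0 Qb M),
        Abv ((IntermediateField.inclusion hle : F0 Qb N →ₐ[Qb] F0 Qb M) : F0 Qb N →+* F0 Qb M)
          y' x → 0 < y'.ord (tF H hpM - algebraMap Qb _ T₀) → y' = x' := by
  classical
  subst hM
  have hp : p.Prime := Fact.out
  have hcop : p.Coprime N := (Nat.coprime_primes hp hN).mpr hpN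
  obtain ⟨ζ, hζ⟩ := exists_zetaΩ ιC N
  obtain ⟨ζ', hζ'⟩ := exists_zetaΩ ιC (p * N)
  obtain ⟨τ₀, hτ₀⟩ := J_surjective (ιC j₀)
  obtain ⟨p₁, hpi₁, hpo₁, hps₁, hpv₁, hpe₁⟩ := exists_places_at hζ hj0 hj1 hτ₀
  obtain ⟨p₂, hpi₂, hpo₂, hps₂, hpv₂, hpe₂⟩ := exists_places_at hζ' hj0 hj1 hτ₀
  set T := tF H hpM with hT
  have hsT : Flat.Sep Qb T := sep_tF H hpM
  have hrat : ∀ v : Place Qb (F0 Qb (p * N)), Flat.Rational v := hsT.rational
  have hAbv : ∀ y, Abv ((IntermediateField.inclusion hle : F0 Qb N →ₐ[Qb] F0 Qb (p * N)) :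
      F0 Qb N →+* F0 Qb (p * N)) (p₂ y) (p₁ (prX N y)) := fun y =>
    abv_inclusion hζ hζ' (dvd_mul_left N p) τ₀ hle y (hpv₂ y) (hpv₁ _)
  -- the values of `T`
  have hTH : HasExp ιC (qN 1) (tI H) (T : LaurentSeries Qb) := hasExp_tI H ιC
  have hTmem : ∀ y, T ∈ (p₂ y).toValuationSubring := fun y => by
    rw [hpv₂, FunField.mem_valSub_iff_order hsT.ne_zero]
    have h1 := orderTop_embF_nonneg hζ' τ₀ (mdiff_tI H) hTH y
    have h2 : embF (expData_sD τ₀) hζ' y T ≠ 0 := (_root_.map_ne_zero _).mpr hsT.ne_zero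
    rw [← HahnSeries.order_eq_orderTop_of_ne_zero h2] at h1
    exact_mod_cast h1
  have hTval : ∀ y, ιC (evp (p₂ y) T) = conjHom (prX p y) (tI H) τ₀ := fun y => by
    rw [hpe₂ y T (hTmem y), coeff_zero_embF hζ' τ₀ (mdiff_tI H) hTH,
      conjHom_prX (tI_isInv H dvd_rfl), conjHom_apply]
  have hTz : ∀ y, 0 < (p₂ y).ord (T - algebraMap Qb _ T₀) ↔ evp (p₂ y) T = T₀ := by
    intro y
    constructor
    · intro h
      exact evp_unique (by rw [adicValuation_lt_one_iff]; exact Or.inr h)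
    · intro h
      have e3 := evp_spec (hrat (p₂ y)) (hTmem y)
      rw [h, adicValuation_lt_one_iff] at e3
      rcases e3 with e3 | e3
      · exact absurd e3 (hsT.sub T₀).ne_zero
      · exact e3
  obtain ⟨s, hs, hsum, -⟩ := hsT.above T₀
  rw [hdeg] at hsum
  have hs' : ∀ v ∈ s, ∃ y, p₂ y = v := fun v hv =>
    hps₂ v (ord_jF_pos hsT.trans (sep_jF hζ').trans hrel (hrat v) hT₀ h0 ((hs v).mp hv))
  have hne : s.Nonempty := by
    rw [Finset.nonempty_iff_ne_empty]
    rintro rfl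
    rw [Finset.sum_empty] at hsum
    push_cast at hsum
    omega
  obtain ⟨v₀, hv₀⟩ := hne
  obtain ⟨y₀, rfl⟩ := hs' v₀ hv₀
  set z₀ := prX p y₀ with hz₀
  have hfib : ∀ y, prX p y = z₀ → p₂ y ∈ s := by
    intro y hy
    rw [hs, hTz]
    apply ιC.injective
    rw [hTval, hy, hz₀, ← hTval, (hTz y₀).mp ((hs _).mp hv₀)]
  have hbij := prX_bijective (N := N) hcop
  have hcard : (Finset.univ.filter fun y : XN (p * N) => prX p y = z₀).card = N + 1 := by
    rw [← card_XN_prime hN, ← Finset.card_univ]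
    refine Finset.card_bij (fun y _ => prX N y) (fun _ _ => Finset.mem_univ _) ?_ ?_
    · intro y hy y' hy' h
      refine hbij.1 (Prod.ext h ?_)
      exact (Finset.mem_filter.mp hy).2.trans (Finset.mem_filter.mp hy').2.symm
    · intro x _
      obtain ⟨y, hy⟩ := hbij.2 (x, z₀)
      refine ⟨y, Finset.mem_filter.mpr ⟨Finset.mem_univ _, congrArg Prod.snd hy⟩,
        congrArg Prod.fst hy⟩
  have hsc : s.card ≤ N + 1 := by
    have h1 : ∑ v ∈ s, (1 : ℤ) ≤ ∑ v ∈ s, v.ord (T - algebraMap Qb _ T₀) :=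
      Finset.sum_le_sum fun v hv => by have := (hs v).mp hv; omega
    rw [hsum, Finset.sum_const, nsmul_eq_mul, mul_one] at h1
    exact_mod_cast h1
  have heq : (Finset.univ.filter fun y : XN (p * N) => prX p y = z₀).image p₂ = s := by
    apply Finset.eq_of_subset_of_card_le
    · intro v hv
      obtain ⟨y, hy, rfl⟩ := Finset.mem_image.mp hv
      exact hfib y (Finset.mem_filter.mp hy).2
    · rw [Finset.card_image_of_injective _ hpi₂, hcard]
      exact hsc
  obtain ⟨x₀, rfl⟩ := hps₁ x hx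
  obtain ⟨y₁, hy₁⟩ := hbij.2 (x₀, z₀)
  have hy1 : prX N y₁ = x₀ := congrArg Prod.fst hy₁
  have hy2 : prX p y₁ = z₀ := congrArg Prod.snd hy₁
  refine ⟨p₂ y₁, ?_, (hs _).mp (hfib y₁ hy2), ?_⟩
  · have := hAbv y₁
    rwa [hy1] at this
  · intro y' hy' hpos
    have h1 := (hs y').mpr hpos
    rw [← heq] at h1
    obtain ⟨y, hy, rfl⟩ := Finset.mem_image.mp h1
    have h2 := hpi₁ ((hAbv y).unique hy')
    congr 1
    refine hbij.1 (Prod.ext ?_ ?_)
    · exact h2.trans hy1.symm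
    · exact (Finset.mem_filter.mp hy).2.trans hy2.symm

end Fermat.Agent.WP
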