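import Fermat.Agent.WP.TF

/-!
The function `Δ(τ)/Δ(Nτ)` and a function with a simple pole at the cusp `∞`.
-/

set_option autoImplicit false
set_option linter.unusedSectionVars false

noncomputable section

namespace Fermat.Agent.WP

open AlgebraicCurve IntermediateField UpperHalfPlane
open Fermat.Agent.FunField Fermat.Agent.Flat Fermat.Agent.LG Fermat.Agent.ModFun Fermat.Agent.MZ
open Fermat.Agent.ESCore (ιC heckeChar)
open ModularCurve (qExpand jqModC)
open CongruenceSubgroup (Gamma0)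
open scoped IntermediateField.algebraAdjoinAdjoin MatrixGroups

/-- The field of algebraic numbers. -/
local notation "Qb" => AlgebraicClosure ℚ
/-- The absolute Galois group. -/
local notation "GQ" => (AlgebraicClosure ℚ ≃ₐ[ℚ] AlgebraicClosure ℚ)

/-! ### the series -/

section Ser

variable (L : Type*) [Field L] (N : ℕ) [NeZero N]

/-- expansion of `Δ(τ)/Δ(Nτ)` -/
def hSer : LaurentSeries L := dSer L * qExpand L N (dInvSer L)

/-- expansion of `Δ(Nτ)/Δ(τ)` -/
def hSer' : LaurentSeries L := dInvSer L * qExpand L N (dSer L)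

theorem hSer_mul : hSer L N * hSer' L N = 1 := by
  have h1 : hSer L N * hSer' L N = (dSer L * dInvSer L) * qExpand L N (dSer L * dInvSer L) := by
    rw [hSer, hSer', map_mul]
    ring
  rw [h1, dSer_mul_dInvSer, map_one, mul_one]

theorem leadU_dSer : LeadU (dSer L) 1 := leadU_dSeries.coeffMap _

theorem leadU_dInvSer : LeadU (dInvSer L) (-1) := (leadU_dSer L).inv dSer_mul_dInvSer

theorem leadU_hSer : LeadU (hSer L N) (1 - N) := by
  have h := (leadU_dSer L).mul ((leadU_dInvSer L).qExpand N)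
  rwa [show (1 + (N : ℤ) * -1) = 1 - N by ring] at h

variable {L N}

theorem coeffMap_hSer {L' : Type*} [Field L'] (u : L →+* L') :
    ModularCurve.coeffMap u (hSer L N) = hSer L' N := by
  rw [hSer, map_mul, coeffMap_dSer, coeffMap_qExpand, coeffMap_dInvSer, hSer]

variable {ι : L →+* ℂ}

theorem hasExp_dInvSer : HasExp ι (qN 1) (ModularForm.discriminant : ℍ → ℂ)⁻¹ (dInvSer L) :=
  hasExp_discriminant_inv.coeffMap (Int.castRingHom L) (RingHom.ext_int _ _)

theorem hasExp_hSer : HasExp ι (qN 1) (ud N)⁻¹ (hSer L N) := by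
  have h1 := (hasExp_dInvSer (ι := ι)).qExpand (s' := qN 1) N (fun τ => tri N 0 1 τ)
    (fun τ => qN_one_tri_one N τ)
  refine ((hasExp_disc_L (ι := ι)).mul h1).congr fun τ => ?_
  simp only [Pi.mul_apply, Pi.inv_apply, ud, div_eq_mul_inv, mul_inv, inv_inv]
  ring

theorem hasExp_hSer' : HasExp ι (qN 1) (ud N) (hSer' L N) := by
  have h1 := (hasExp_disc_L (ι := ι)).qExpand (s' := qN 1) N (fun τ => tri N 0 1 τ)
    (fun τ => qN_one_tri_one N τ)
  refine ((hasExp_dInvSer (ι := ι)).mul h1).congr fun τ => ?_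
  simp only [Pi.mul_apply, Pi.inv_apply, ud, div_eq_mul_inv]
  ring

theorem uexp_ud_C (γ : SL(2, ℤ)) : ∃ m, UExp (RingHom.id ℂ) (qN N) (fun τ => ud N (γ • τ)) m :=
  ⟨_, uexp_ud_smul (N := N) (R := ℂ) (φ := RingHom.id ℂ)
    (isUnit_iff_ne_zero.mpr (by exact_mod_cast NeZero.ne N)) (zetaC_spec N) (d := N) (e := 1)
    (mul_one N) γ⟩

theorem ud_mem_modFun : ud N ∈ modFun (RingHom.id ℂ) N := by
  refine ⟨mdiff_ud N, fun γ => ?_⟩
  obtain ⟨m, F, G, h1, h2, h3, h4⟩ := uexp_ud_C (N := N) γ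
  exact ⟨F, h1⟩

theorem ud_inv_mem_modFun : (ud N)⁻¹ ∈ modFun (RingHom.id ℂ) N := by
  refine ⟨mdiff_inv (mdiff_ud N) (ud_ne_zero N), fun γ => ?_⟩
  obtain ⟨m, F, G, h1, h2, h3, h4⟩ := uexp_ud_C (N := N) γ
  exact ⟨G, h2⟩

theorem hSer_mem_holC : hSer L N ∈ holC ι N :=
  ⟨(ud N)⁻¹, ud_inv_mem_modFun, fun γ hγ τ => by
    rw [Pi.inv_apply, Pi.inv_apply, ud_invariant dvd_rfl hγ], hasExp_hSer⟩

theorem hSer'_mem_holC : hSer' L N ∈ holC ι N :=
  ⟨ud N, ud_mem_modFun, fun _ hγ τ => ud_invariant dvd_rfl hγ τ, hasExp_hSer'⟩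

end Ser

/-! ### the function -/

section Fun

variable (N : ℕ) [NeZero N]

/-- `Δ(τ)/Δ(Nτ)` -/
def HF : F0 Qb N := ⟨hSer Qb N, mem_F0_of_holC (hSer_mem_holC (ι := ιC))⟩

/-- `Δ(Nτ)/Δ(τ)` -/
def HF' : F0 Qb N := ⟨hSer' Qb N, mem_F0_of_holC (hSer'_mem_holC (ι := ιC))⟩

variable {N}

theorem HF_mul : HF N * HF' N = 1 := Subtype.ext (hSer_mul Qb N)

theorem HF_ne_zero : HF N ≠ 0 := left_ne_zero_of_mul_eq_one HF_mul

theorem galF0_HF (σ : GQ) : galF0 N σ • HF N = HF N := by
  apply Subtype.ext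
  rw [coe_galF0_smul]
  exact coeffMap_hSer _

theorem cInf_ord_HF : (cInf N).ord (HF N) = 1 - N := by
  rw [cInf_ord HF_ne_zero]
  exact (leadU_hSer Qb N).order_eq

theorem aeval_mem_place {K F : Type*} [Field K] [Field F] [Algebra K F] (v : Place K F) {t : F}
    (ht : t ∈ v.toValuationSubring) (a : Polynomial K) :
    Polynomial.aeval t a ∈ v.toValuationSubring := by
  induction a using Polynomial.induction_on' with
  | add p q hp hq =>
    rw [map_add]
    exact add_mem hp hq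
  | monomial n a =>
    rw [Polynomial.aeval_monomial]
    exact mul_mem (v.algebraMap_mem' a) (pow_mem ht n)

/-- holomorphic functions are regular away from the cusps -/
theorem ord_nonneg_of_holC {v : Place Qb (F0 Qb N)} (hv : 0 ≤ v.ord (jF Qb N)) {f : F0 Qb N}
    (hf : (f : LaurentSeries Qb) ∈ holC ιC N) : 0 ≤ v.ord f := by
  obtain ⟨Q, hm, -, hQ⟩ := exists_eval₂_eq_zero hf
  let _ : Algebra (Polynomial Qb) (F0 Qb N) := (Polynomial.aeval (jF Qb N)).toRingHom.toAlgebra
  refine ord_nonneg_of_mem v (mem_place_of_isIntegral v (A := Polynomial Qb) (fun a => ?_)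
    ⟨Q, hm, ?_⟩)
  · exact aeval_mem_place v (mem_of_ord_nonneg v hv) a
  · apply Subtype.ext
    have h1 : ((F0 Qb N).val.toRingHom.comp (Polynomial.aeval (jF Qb N)).toRingHom) =
        (Polynomial.aeval (R := Qb) (jqModC Qb)).toRingHom := by
      refine Polynomial.ringHom_ext (fun a => ?_) ?_
      · change ((Polynomial.aeval (jF Qb N) (Polynomial.C a) : F0 Qb N) : LaurentSeries Qb) =
          Polynomial.aeval (R := Qb) (jqModC Qb) (Polynomial.C a)
        rw [Polynomial.aeval_C, Polynomial.aeval_C]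
        rfl
      · change ((Polynomial.aeval (jF Qb N) Polynomial.X : F0 Qb N) : LaurentSeries Qb) =
          Polynomial.aeval (R := Qb) (jqModC Qb) Polynomial.X
        rw [Polynomial.aeval_X, Polynomial.aeval_X]
        rfl
    have h2 := Polynomial.hom_eval₂ Q (Polynomial.aeval (jF Qb N)).toRingHom
      (F0 Qb N).val.toRingHom f
    rw [h1] at h2
    exact h2.trans hQ

theorem ord_HF {v : Place Qb (F0 Qb N)} (hv : 0 ≤ v.ord (jF Qb N)) : v.ord (HF N) = 0 := by
  have h1 := ord_nonneg_of_holC hv (f := HF N) hSer_mem_holC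
  have h2 := ord_nonneg_of_holC hv (f := HF' N) hSer'_mem_holC
  have h3 := v.ord_mul (f := HF N) (g := HF' N) HF_ne_zero (right_ne_zero_of_mul_eq_one HF_mul)
  rw [HF_mul, v.ord_one] at h3
  omega

end Fun

section Prime

variable {N : ℕ} [Fact N.Prime] [NeZero N]

theorem disc_smul' (γ : SL(2, ℤ)) (τ : ℍ) : ModularForm.discriminant (γ • τ) =
    ((γ 1 0 : ℂ) * τ + γ 1 1) ^ 12 * ModularForm.discriminant τ := by
  rw [discriminant_smul, denom_eq]
  rfl

theorem slash_ud_inv (τ : ℍ) : (frB N).slash (ud N)⁻¹ τ = (N : ℂ) ^ 12 * ud N τ := by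
  have h1 : ModularForm.discriminant ((frB N).W τ) =
      ((N : ℂ) * τ) ^ 12 * ModularForm.discriminant (tri N 0 1 τ) := by
    rw [Bez.W, disc_smul', coe_tri]
    congr 2
    have e1 : ((frB N).g0 1 0 : ℂ) = 1 := by
      have : (frB N).g0 1 0 = 1 := rfl
      rw [this]; norm_num
    have e2 : ((frB N).g0 1 1 : ℂ) = 0 := by
      have : (frB N).g0 1 1 = (N : ℤ) * 0 := rfl
      rw [this]; norm_num
    rw [e1, e2]
    push_cast
    ring
  have h2 : ModularForm.discriminant (tri N 0 1 ((frB N).W τ)) =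
      (τ : ℂ) ^ 12 * ModularForm.discriminant τ := by
    have h3 := (frB N).W_eq (d := 1) τ
    have h4 : tri N 0 1 ((frB N).W τ) = (frB N).g1 • τ := by
      have h5 : tri (N * 1) 0 1 ((frB N).W τ) = tri N 0 1 ((frB N).W τ) := by
        apply UpperHalfPlane.ext
        rw [coe_tri, coe_tri, mul_one]
      rw [← h5, h3]
      apply UpperHalfPlane.ext
      rw [coe_tri]
      push_cast
      ring
    rw [h4, disc_smul']
    congr 2
    have e1 : ((frB N).g1 1 0 : ℂ) = 1 := by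
      have : (frB N).g1 1 0 = 1 := rfl
      rw [this]; norm_num
    have e2 : ((frB N).g1 1 1 : ℂ) = 0 := by
      have : (frB N).g1 1 1 = 0 := rfl
      rw [this]; norm_num
    rw [e1, e2]
    ring
  rw [Bez.slash_apply, Pi.inv_apply, ud, ud, h1, h2]
  have h6 := ModularForm.discriminant_ne_zero τ
  have h7 := ModularForm.discriminant_ne_zero (tri N 0 1 τ)
  have h8 : (τ : ℂ) ≠ 0 := UpperHalfPlane.ne_zero τ
  field_simp

theorem wN_HF : wN N (HF N) = algebraMap Qb _ ((N : Qb) ^ 12) * (HF N)⁻¹ := by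
  have h0 : (HF N)⁻¹ = HF' N := inv_eq_of_mul_eq_one_right HF_mul
  rw [h0]
  apply Subtype.ext
  have h1 : HasExp ιC (qN 1) ((ud N)⁻¹) (HF N : LaurentSeries Qb) := hasExp_hSer
  have h2 : HasExp ιC (qN 1) ((frB N).slash (ud N)⁻¹)
      (((algebraMap Qb _ ((N : Qb) ^ 12) * HF' N : F0 Qb N)) : LaurentSeries Qb) := by
    have h3 : (((algebraMap Qb _ ((N : Qb) ^ 12) * HF' N : F0 Qb N)) : LaurentSeries Qb) =
        HahnSeries.C ((N : Qb) ^ 12) * hSer' Qb N := by
      rw [← algebraMap_eq_C]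
      rfl
    rw [h3]
    refine ((HasExp.const ((N : Qb) ^ 12)).mul (hasExp_hSer' (ι := ιC))).congr fun τ => ?_
    rw [slash_ud_inv, Pi.mul_apply, map_pow, map_natCast]
  have h3 := (frB N).wF_hasExp (Fact.out : N.Prime) (mul_one N).symm h1
    (h2.coeffMap ιC (RingHom.id_comp ιC))
  exact RingHom.injective (ModularCurve.coeffMap ιC) h3

theorem cZero_ord_HF : (cZero N).ord (HF N) = N - 1 := by
  rw [cZero_ord', wN_HF, Place.ord_mul _ ?_ (inv_ne_zero HF_ne_zero), Place.ord_inv, cInf_ord_HF]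
  · rw [ord_algebraMap]
    ring
  · exact (map_ne_zero _).mpr (pow_ne_zero _ (by exact_mod_cast NeZero.ne N))

end Prime

end Fermat.Agent.WP
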