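import Fermat.Agent.WP.Free

/-!
A homomorphism `Γ₀(N) → ℤ` with value `1` at `T`.
-/

set_option autoImplicit false

noncomputable section

namespace Fermat.Agent.WP

open Matrix Matrix.SpecialLinearGroup ModularGroup CongruenceSubgroup
open scoped MatrixGroups

variable (N : ℕ)

/-- cosets -/
abbrev Cos : Type := SL(2, ℤ) ⧸ Gamma0 N

/-- the base point -/
def x0 : Cos N := ((1 : SL(2, ℤ)) : Cos N)

variable {N}

theorem neg_one_mem_Gamma0 : (-1 : SL(2, ℤ)) ∈ Gamma0 N := by
  rw [Gamma0_mem]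
  simp

theorem neg_one_smul (x : Cos N) : (-1 : SL(2, ℤ)) • x = x := by
  induction x using QuotientGroup.induction_on with
  | H g =>
    show (((-1 : SL(2, ℤ)) * g : SL(2, ℤ)) : Cos N) = (g : Cos N)
    rw [QuotientGroup.eq]
    have : ((-1 : SL(2, ℤ)) * g)⁻¹ * g = -1 := by
      rw [inv_mul_eq_iff_eq_mul]
      simp
    rw [this]
    exact neg_one_mem_Gamma0

theorem smul_x0_iff {γ : SL(2, ℤ)} : γ • x0 N = x0 N ↔ γ ∈ Gamma0 N := by
  show ((γ * 1 : SL(2, ℤ)) : Cos N) = ((1 : SL(2, ℤ)) : Cos N) ↔ _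
  rw [mul_one, eq_comm, QuotientGroup.eq, inv_one, one_mul]

open Classical in
/-- the indicator function of the base point -/
def dl (x : Cos N) : ℤ := if x = x0 N then 1 else 0

/-- the involution -/
def sP : Equiv.Perm (Cos N × ℤ) where
  toFun p := (S • p.1, p.2)
  invFun p := (S⁻¹ • p.1, p.2)
  left_inv p := by simp
  right_inv p := by simp

/-- the element of order three -/
def uP : Equiv.Perm (Cos N × ℤ) where
  toFun p := ((S * T) • p.1, p.2 + dl ((S * T) • p.1) - dl p.1)
  invFun p := ((S * T)⁻¹ • p.1, p.2 + dl ((S * T)⁻¹ • p.1) - dl p.1)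
  left_inv p := by
    refine Prod.ext ?_ ?_
    · simp only [inv_smul_smul]
    · simp only [inv_smul_smul]
      ring
  right_inv p := by
    refine Prod.ext ?_ ?_
    · simp only [smul_inv_smul]
    · simp only [smul_inv_smul]
      ring

theorem sP_apply (p : Cos N × ℤ) : sP p = (S • p.1, p.2) := rfl

theorem uP_apply (p : Cos N × ℤ) :
    uP p = ((S * T) • p.1, p.2 + dl ((S * T) • p.1) - dl p.1) := rfl

theorem sP_sq : (sP : Equiv.Perm (Cos N × ℤ)) ^ 2 = 1 := by
  ext1 p
  rw [sq, Equiv.Perm.mul_apply, sP_apply, sP_apply]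
  refine Prod.ext ?_ rfl
  show S • S • p.1 = p.1
  rw [← mul_smul, ← sq, S_sq, neg_one_smul]

theorem uP_cube : (uP : Equiv.Perm (Cos N × ℤ)) ^ 3 = 1 := by
  ext1 p
  rw [pow_succ, sq, Equiv.Perm.mul_apply, Equiv.Perm.mul_apply, uP_apply p]
  rw [uP_apply, uP_apply]
  have h : (S * T) • (S * T) • (S * T) • p.1 = p.1 := by
    have e : (S * T) * (S * T) * (S * T) = (-1 : SL(2, ℤ)) := by
      rw [← ST_cube, pow_succ, sq]
    rw [← mul_smul, ← mul_smul, e, neg_one_smul]
  refine Prod.ext ?_ ?_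
  · exact h
  · simp only [h, Equiv.Perm.one_apply]
    ring

theorem exists_phi1 (hN : 1 < N) : ∃ φ : Gamma0 N →* Multiplicative ℤ,
    (∀ h : T ∈ Gamma0 N, φ ⟨T, h⟩ = Multiplicative.ofAdd 1) ∧
    ∀ h : (-1 : SL(2, ℤ)) ∈ Gamma0 N, φ ⟨-1, h⟩ = 1 := by
  obtain ⟨F, hS, hU, hm⟩ := exists_hom (sP : Equiv.Perm (Cos N × ℤ)) uP sP_sq uP_cube
  let K : Subgroup SL(2, ℤ) :=
    { carrier := {γ | (∀ p, (F γ p).1 = γ • p.1) ∧
        ∀ p (m : ℤ), F γ (p.1, p.2 + m) = ((F γ p).1, (F γ p).2 + m)}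
      one_mem' := by
        refine ⟨fun p => ?_, fun p m => ?_⟩
        · rw [map_one, Equiv.Perm.one_apply, one_smul]
        · simp only [map_one, Equiv.Perm.one_apply]
      mul_mem' := by
        rintro a b ⟨ha1, ha2⟩ ⟨hb1, hb2⟩
        refine ⟨fun p => ?_, fun p m => ?_⟩
        · rw [map_mul, Equiv.Perm.mul_apply, ha1, hb1, mul_smul]
        · rw [map_mul, Equiv.Perm.mul_apply, hb2, ha2, Equiv.Perm.mul_apply]
      inv_mem' := by
        rintro a ⟨ha1, ha2⟩
        have hq : ∀ p, F a (F a⁻¹ p) = p := by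
          intro p
          rw [← Equiv.Perm.mul_apply, ← map_mul, mul_inv_cancel, map_one, Equiv.Perm.one_apply]
        refine ⟨fun p => ?_, fun p m => ?_⟩
        · have h1 := ha1 (F a⁻¹ p)
          rw [hq] at h1
          rw [h1, inv_smul_smul]
        · apply (F a).injective
          rw [hq, ha2, hq] }
  have hK : ∀ γ, γ ∈ K := by
    have h1 : (⊤ : Subgroup SL(2, ℤ)) ≤ K := by
      have hSK : S ∈ K := by
        refine ⟨fun p => ?_, fun p m => ?_⟩
        · rw [hS, sP_apply]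
        · simp only [hS, sP_apply]
      have hUK : S * T ∈ K := by
        refine ⟨fun p => ?_, fun p m => ?_⟩
        · rw [hU, uP_apply]
        · simp only [hU, uP_apply]
          refine Prod.ext rfl ?_
          simp only
          ring
      rw [← SpecialLinearGroup.SL2Z_generators, Subgroup.closure_le]
      rintro γ (rfl | rfl)
      · exact hSK
      · have e : T = S⁻¹ * (S * T) := by rw [inv_mul_cancel_left]
        rw [e]
        exact mul_mem (inv_mem hSK) hUK
    exact fun γ => h1 (Subgroup.mem_top γ)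
  have hfix : ∀ γ : Gamma0 N, F γ (x0 N, 0) = (x0 N, (F γ (x0 N, 0)).2) := by
    intro γ
    refine Prod.ext ?_ rfl
    rw [(hK γ).1]
    exact smul_x0_iff.mpr γ.2
  refine ⟨⟨⟨fun γ => Multiplicative.ofAdd (-(F γ (x0 N, 0)).2), ?_⟩, ?_⟩, ?_, ?_⟩
  · simp
  · intro a b
    show Multiplicative.ofAdd _ = Multiplicative.ofAdd _ * Multiplicative.ofAdd _
    rw [← ofAdd_add]
    congr 1
    rw [Subgroup.coe_mul, map_mul, Equiv.Perm.mul_apply, hfix b]
    have := (hK a).2 (x0 N, 0) (F b (x0 N, 0)).2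
    simp only [zero_add] at this
    rw [this]
    simp only
    ring
  · intro h
    show Multiplicative.ofAdd (-(F T (x0 N, 0)).2) = Multiplicative.ofAdd 1
    congr 1
    have e : F T = (F S)⁻¹ * F (S * T) := by rw [map_mul, inv_mul_cancel_left]
    rw [e, hS, hU, Equiv.Perm.mul_apply, uP_apply]
    have hne : (S * T) • x0 N ≠ x0 N := by
      rw [Ne, smul_x0_iff, Gamma0_mem, ST_eq]
      simp only [Matrix.cons_val', Matrix.cons_val_zero, Matrix.cons_val_one,
        Matrix.cons_val_fin_one, Matrix.of_apply, Int.cast_one]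
      have : Fact (1 < N) := ⟨hN⟩
      exact one_ne_zero
    have h1 : dl ((S * T) • x0 N) = 0 := by
      unfold dl
      rw [if_neg hne]
    have h2 : dl (x0 N) = 1 := by
      unfold dl
      rw [if_pos rfl]
    simp only [h1, h2]
    rfl
  · intro h
    show Multiplicative.ofAdd (-(F (-1) (x0 N, 0)).2) = 1
    rw [hm]
    rfl

end Fermat.Agent.WP
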