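import Fermat.Agent.WP.Basic

/-!
The addition theorem for the Weierstrass `℘`-function.
-/

set_option autoImplicit false

noncomputable section

namespace Fermat.Agent.WP

open Filter Topology Module PeriodPair

variable {L : PeriodPair}

theorem coe_add_mem {z w : ℂ} (hw : w ∈ L.lattice) : z + w ∈ L.lattice ↔ z ∈ L.lattice :=
  L.lattice.toAddSubgroup.add_mem_cancel_right (y := z) hw

theorem P_add {z w : ℂ} (hw : w ∈ L.lattice) : ℘[L] (z + w) = ℘[L] z :=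
  L.weierstrassP_add_coe z ⟨w, hw⟩

theorem P'_add {z w : ℂ} (hw : w ∈ L.lattice) : ℘'[L] (z + w) = ℘'[L] z :=
  L.derivWeierstrassP_add_coe z ⟨w, hw⟩

/-- the relation `y² = x³ + a₄ x + a₆` -/
theorem rel {z : ℂ} (hz : z ∉ L.lattice) :
    (℘'[L] z / 2) ^ 2 = ℘[L] z ^ 3 - L.g₂ / 4 * ℘[L] z - L.g₃ / 4 := by
  linear_combination (L.derivWeierstrassP_sq z hz) / 4

/-- the slope -/
def sl (L : PeriodPair) (z w : ℂ) : ℂ :=
  (℘'[L] z / 2 - ℘'[L] w / 2) / (℘[L] z - ℘[L] w)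

/-- the `x`-coordinate of the sum -/
def X (L : PeriodPair) (z w : ℂ) : ℂ := sl L z w ^ 2 - ℘[L] z - ℘[L] w

theorem hasDerivAt_P_sub (c : ℂ) {t : ℂ} (ht : c - t ∉ L.lattice) :
    HasDerivAt (fun t => ℘[L] (c - t)) (-℘'[L] (c - t)) t := by
  have h1 : HasDerivAt (fun t : ℂ => c - t) (-1) t := by
    simpa using (hasDerivAt_id t).const_sub c
  have := (hasDerivAt_P ht).comp t h1
  simpa [Function.comp_def] using this

theorem hasDerivAt_P'_sub (c : ℂ) {t : ℂ} (ht : c - t ∉ L.lattice) :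
    HasDerivAt (fun t => ℘'[L] (c - t)) (-(6 * ℘[L] (c - t) ^ 2 - L.g₂ / 2)) t := by
  have h1 : HasDerivAt (fun t : ℂ => c - t) (-1) t := by
    simpa using (hasDerivAt_id t).const_sub c
  have := (hasDerivAt_P' ht).comp t h1
  simpa [Function.comp_def] using this

theorem hasDerivAt_sl (c : ℂ) {t : ℂ} (h1 : t ∉ L.lattice) (h2 : c - t ∉ L.lattice)
    (hne : ℘[L] t ≠ ℘[L] (c - t)) :
    HasDerivAt (fun t => sl L t (c - t)) (℘[L] t - ℘[L] (c - t)) t := by
  have hne' : ℘[L] t - ℘[L] (c - t) ≠ 0 := sub_ne_zero.mpr hne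
  have := (((hasDerivAt_P' h1).div_const 2).fun_sub ((hasDerivAt_P'_sub c h2).div_const 2)).fun_div
    ((hasDerivAt_P h1).fun_sub (hasDerivAt_P_sub c h2)) hne'
  refine this.congr_deriv ?_
  rw [div_eq_iff (pow_ne_zero 2 hne')]
  have e1 := rel h1
  have e2 := rel h2
  linear_combination (-2) * e1 + 2 * e2

theorem hasDerivAt_X (c : ℂ) {t : ℂ} (h1 : t ∉ L.lattice) (h2 : c - t ∉ L.lattice)
    (hne : ℘[L] t ≠ ℘[L] (c - t)) :
    HasDerivAt (fun t => X L t (c - t)) 0 t := by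
  have hne' : ℘[L] t - ℘[L] (c - t) ≠ 0 := sub_ne_zero.mpr hne
  have := ((hasDerivAt_sl c h1 h2 hne).fun_pow 2).fun_sub (hasDerivAt_P h1) |>.fun_sub
    (hasDerivAt_P_sub c h2)
  refine this.congr_deriv ?_
  have hs : sl L t (c - t) * (℘[L] t - ℘[L] (c - t)) = ℘'[L] t / 2 - ℘'[L] (c - t) / 2 :=
    div_mul_cancel₀ _ hne'
  push_cast
  linear_combination 2 * hs

theorem meromorphic_X (c : ℂ) : Meromorphic (fun t => X L t (c - t)) := by
  intro z
  have h1 : MeromorphicAt ℘[L] z := L.meromorphic_weierstrassP z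
  have h2 : MeromorphicAt ℘'[L] z := L.meromorphic_derivWeierstrassP z
  have h3 : MeromorphicAt (fun t => ℘[L] (c - t)) z :=
    (L.meromorphic_weierstrassP (c - z)).comp_analyticAt (g := fun t => c - t) (by fun_prop)
  have h4 : MeromorphicAt (fun t => ℘'[L] (c - t)) z :=
    (L.meromorphic_derivWeierstrassP (c - z)).comp_analyticAt (g := fun t => c - t) (by fun_prop)
  unfold X sl
  fun_prop

theorem eventually_P_ne {c : ℂ} (b : ℂ → ℂ) (hb : ContinuousAt b 0) (hc : c ∉ L.lattice)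
    (hbc : b 0 = c) : ∀ᶠ t in 𝓝[≠] (0 : ℂ), ℘[L] t ≠ ℘[L] (b t) := by
  have h1 : Tendsto (fun t => ‖℘[L] t‖) (𝓝[≠] (0 : ℂ)) atTop :=
    tendsto_norm_cobounded_atTop.comp (tendsto_P (L := L) (zero_mem _))
  have h2 : Tendsto (fun t => ‖℘[L] (b t)‖) (𝓝[≠] (0 : ℂ)) (𝓝 ‖℘[L] c‖) := by
    have : ContinuousAt (fun t => ℘[L] (b t)) 0 := by
      have h3 : ContinuousAt ℘[L] (b 0) := by
        rw [hbc]
        exact (analyticAt_P hc).continuousAt
      exact h3.comp hb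
    have h4 := this.tendsto.norm
    simp only [hbc] at h4
    exact h4.mono_left nhdsWithin_le_nhds
  have h3 := h1.eventually_gt_atTop (‖℘[L] c‖ + 1)
  have h4 := h2.eventually_lt_const (u := ‖℘[L] c‖ + 1) (by linarith)
  filter_upwards [h3, h4] with t h5 h6 h7
  rw [h7] at h5
  linarith

theorem tendsto_X {c : ℂ} (hc : c ∉ L.lattice) :
    Tendsto (fun t => X L t (c - t)) (𝓝[≠] (0 : ℂ)) (𝓝 (℘[L] c)) := by
  set u : ℂ → ℂ := fun t => (℘[L] t)⁻¹ with hu
  set v : ℂ → ℂ := fun t => ℘'[L] t / 2 * u t ^ 2 with hv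
  have hu0 : Tendsto u (𝓝[≠] (0 : ℂ)) (𝓝 0) := tendsto_P_inv (L := L) (zero_mem _)
  have hP : ∀ᶠ t in 𝓝[≠] (0 : ℂ), ℘[L] t ≠ 0 :=
    (tendsto_P (L := L) (zero_mem _)).eventually_ne_cobounded 0
  have hnm : ∀ᶠ t in 𝓝[≠] (0 : ℂ), t ∉ L.lattice := eventually_notMem 0
  have hv0 : Tendsto v (𝓝[≠] (0 : ℂ)) (𝓝 0) := by
    have h1 : Tendsto (fun t => v t ^ 2) (𝓝[≠] (0 : ℂ)) (𝓝 0) := by
      have h2 : Tendsto (fun t => u t - L.g₂ / 4 * u t ^ 3 - L.g₃ / 4 * u t ^ 4) (𝓝[≠] (0 : ℂ))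
          (𝓝 (0 - L.g₂ / 4 * 0 ^ 3 - L.g₃ / 4 * 0 ^ 4)) :=
        (hu0.sub ((hu0.pow 3).const_mul _)).sub ((hu0.pow 4).const_mul _)
      have h3 : (0 - L.g₂ / 4 * 0 ^ 3 - L.g₃ / 4 * 0 ^ 4 : ℂ) = 0 := by ring
      rw [h3] at h2
      refine h2.congr' ?_
      filter_upwards [hP, hnm] with t h4 h5
      have e1 := rel h5
      simp only [hv, hu, mul_pow, e1]
      field_simp
    have h2 := h1.norm
    simp only [norm_pow, norm_zero] at h2
    have h3 := h2.sqrt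
    simp only [Real.sqrt_sq (norm_nonneg _), Real.sqrt_zero] at h3
    exact tendsto_zero_iff_norm_tendsto_zero.mpr h3
  have hsub : Tendsto (fun t : ℂ => c - t) (𝓝[≠] (0 : ℂ)) (𝓝 c) := by
    have : ContinuousAt (fun t : ℂ => c - t) 0 := by fun_prop
    have h1 := this.tendsto
    simp only [sub_zero] at h1
    exact h1.mono_left nhdsWithin_le_nhds
  have hx : Tendsto (fun t => ℘[L] (c - t)) (𝓝[≠] (0 : ℂ)) (𝓝 (℘[L] c)) :=
    (analyticAt_P hc).continuousAt.tendsto.comp hsub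
  have hy : Tendsto (fun t => ℘'[L] (c - t)) (𝓝[≠] (0 : ℂ)) (𝓝 (℘'[L] c)) :=
    (analyticAt_P' hc).continuousAt.tendsto.comp hsub
  have hcm : ∀ᶠ t in 𝓝[≠] (0 : ℂ), c - t ∉ L.lattice :=
    hsub.eventually (mem_nhds_compl hc)
  have hden : Tendsto (fun t => (1 - ℘[L] (c - t) * u t) ^ 2) (𝓝[≠] (0 : ℂ))
      (𝓝 ((1 - ℘[L] c * 0) ^ 2)) := ((hx.mul hu0).const_sub 1).pow 2
  have hnum : Tendsto (fun t => ℘[L] (c - t) * (1 + ℘[L] (c - t) * u t)
      - L.g₂ / 4 * (u t + ℘[L] (c - t) * u t ^ 2) - L.g₃ / 2 * u t ^ 2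
      - v t * ℘'[L] (c - t)) (𝓝[≠] (0 : ℂ))
      (𝓝 (℘[L] c * (1 + ℘[L] c * 0) - L.g₂ / 4 * (0 + ℘[L] c * 0 ^ 2) - L.g₃ / 2 * 0 ^ 2
        - 0 * ℘'[L] c)) :=
    (((hx.mul ((hx.mul hu0).const_add 1)).sub ((hu0.add (hx.mul (hu0.pow 2))).const_mul _)).sub
      ((hu0.pow 2).const_mul _)).sub (hv0.mul hy)
  have hq := hnum.div hden (by simp)
  have e0 : (℘[L] c * (1 + ℘[L] c * 0) - L.g₂ / 4 * (0 + ℘[L] c * 0 ^ 2) - L.g₃ / 2 * 0 ^ 2
        - 0 * ℘'[L] c) / ((1 - ℘[L] c * 0) ^ 2) = ℘[L] c := by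
    ring
  rw [e0] at hq
  refine hq.congr' ?_
  have hne : ∀ᶠ t in 𝓝[≠] (0 : ℂ), ℘[L] t ≠ ℘[L] (c - t) :=
    eventually_P_ne (fun t => c - t) (by fun_prop) hc (by simp)
  filter_upwards [hP, hnm, hcm, hne] with t h1 h2 h3 h4
  have h5 : ℘[L] t - ℘[L] (c - t) ≠ 0 := sub_ne_zero.mpr h4
  have h6 : 1 - ℘[L] (c - t) * (℘[L] t)⁻¹ ≠ 0 := by
    intro h
    apply h5
    field_simp at h
    simpa using h
  have e1 := rel h2
  have e2 := rel h3
  simp only [Pi.div_apply, hu, hv, X, sl]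
  have h7 : (1 - ℘[L] (c - t) * (℘[L] t)⁻¹) = (℘[L] t - ℘[L] (c - t)) / ℘[L] t := by
    field_simp
  rw [h7]
  generalize ℘[L] t = x1 at *
  generalize ℘[L] (c - t) = x2 at *
  generalize ℘'[L] t = y1 at *
  generalize ℘'[L] (c - t) = y2 at *
  field_simp
  linear_combination (-16) * e1 + (-16) * e2

theorem X_eq {c : ℂ} (hc : c ∉ L.lattice) {t : ℂ} (h1 : t ∉ L.lattice) (h2 : c - t ∉ L.lattice)
    (hne : ℘[L] t ≠ ℘[L] (c - t)) : X L t (c - t) = ℘[L] c := by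
  set G : ℂ → ℂ := fun t => X L t (c - t) - ℘[L] c with hG
  have hm : Meromorphic G := by
    intro z
    have := meromorphic_X (L := L) c z
    fun_prop
  have hgood : ∀ᶠ t in 𝓝[≠] (0 : ℂ), deriv G t = 0 := by
    have hne : ∀ᶠ t in 𝓝[≠] (0 : ℂ), ℘[L] t ≠ ℘[L] (c - t) :=
      eventually_P_ne (fun t => c - t) (by fun_prop) hc (by simp)
    have hsub : Tendsto (fun t : ℂ => c - t) (𝓝[≠] (0 : ℂ)) (𝓝 c) := by
      have : ContinuousAt (fun t : ℂ => c - t) 0 := by fun_prop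
      have h1 := this.tendsto
      simp only [sub_zero] at h1
      exact h1.mono_left nhdsWithin_le_nhds
    filter_upwards [eventually_notMem (L := L) 0, hsub.eventually (mem_nhds_compl hc), hne]
      with t h3 h4 h5
    exact ((hasDerivAt_X c h3 h4 h5).sub_const _).deriv
  have h0 : meromorphicOrderAt G 0 = ⊤ := by
    by_contra hnt
    have hpos : 0 < meromorphicOrderAt G 0 := by
      rw [← tendsto_zero_iff_meromorphicOrderAt_pos (hm 0)]
      have := (tendsto_X hc).sub_const (℘[L] c)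
      simpa using this
    obtain ⟨n, hn⟩ := WithTop.ne_top_iff_exists.mp hnt
    have hn0 : (n : ℂ) ≠ 0 := by
      rw [← hn] at hpos
      have : (0 : ℤ) < n := by exact_mod_cast hpos
      exact_mod_cast this.ne'
    have h3 := meromorphicOrderAt_deriv_eq_sub_one hn0 hn.symm
    rw [meromorphicOrderAt_eq_top_iff.mpr hgood] at h3
    exact WithTop.coe_ne_top h3.symm
  have ht : meromorphicOrderAt G t = ⊤ := by
    by_contra hnt
    exact hm.exists_meromorphicOrderAt_ne_top_iff_forall.mp ⟨t, hnt⟩ 0 h0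
  rw [meromorphicOrderAt_eq_top_iff] at ht
  have hcont : ContinuousAt G t := ((hasDerivAt_X c h1 h2 hne).sub_const _).continuousAt
  have h3 : Tendsto G (𝓝[≠] t) (𝓝 (G t)) := hcont.tendsto.mono_left nhdsWithin_le_nhds
  have h4 : Tendsto G (𝓝[≠] t) (𝓝 0) := tendsto_const_nhds.congr' (by
    filter_upwards [ht] with w hw using hw.symm)
  have h5 := tendsto_nhds_unique h3 h4
  exact sub_eq_zero.mp h5

/-- the addition theorem, `x`-coordinate -/
theorem X_add {z w : ℂ} (hz : z ∉ L.lattice) (hw : w ∉ L.lattice) (hzw : z + w ∉ L.lattice)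
    (hne : ℘[L] z ≠ ℘[L] w) : X L z w = ℘[L] (z + w) := by
  have := X_eq (c := z + w) (t := z) hzw hz (by simpa using hw) (by simpa using hne)
  simpa using this

/-- the addition theorem, `y`-coordinate -/
theorem Y_add {z w : ℂ} (hz : z ∉ L.lattice) (hw : w ∉ L.lattice) (hzw : z + w ∉ L.lattice)
    (hne : ℘[L] z ≠ ℘[L] w) :
    -(sl L z w * (X L z w - ℘[L] z) + ℘'[L] z / 2) = ℘'[L] (z + w) / 2 := by
  have hne' : ℘[L] z - ℘[L] w ≠ 0 := sub_ne_zero.mpr hne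
  have e1 := rel hz
  have e2 := rel hw
  have hs : HasDerivAt (fun t => sl L t w) (-(X L z w - ℘[L] z)) z := by
    have := ((hasDerivAt_P' hz).div_const 2).sub_const (℘'[L] w / 2) |>.fun_div
      ((hasDerivAt_P hz).sub_const (℘[L] w)) hne'
    refine this.congr_deriv ?_
    simp only [X, sl]
    field_simp
    linear_combination (-4) * e1 + 4 * e2
  have hX : HasDerivAt (fun t => X L t w) (2 * sl L z w * (-(X L z w - ℘[L] z)) - ℘'[L] z) z := by
    have := ((hs.fun_pow 2).fun_sub (hasDerivAt_P hz)).sub_const (℘[L] w)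
    refine this.congr_deriv ?_
    push_cast
    ring
  have hX' : HasDerivAt (fun t => X L t w) (℘'[L] (z + w)) z := by
    have h1 : HasDerivAt (fun t : ℂ => ℘[L] (t + w)) (℘'[L] (z + w)) z := by
      have h3 : HasDerivAt (fun t : ℂ => t + w) 1 z := (hasDerivAt_id z).add_const w
      have := (hasDerivAt_P hzw).comp z h3
      simpa [Function.comp_def] using this
    refine h1.congr_of_eventuallyEq ?_
    have h4 : ∀ᶠ t in 𝓝 z, t + w ∉ L.lattice := by
      have : ContinuousAt (fun t : ℂ => t + w) z := by fun_prop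
      exact this.eventually (mem_nhds_compl hzw)
    have h5 : ∀ᶠ t in 𝓝 z, ℘[L] t ≠ ℘[L] w :=
      (analyticAt_P hz).continuousAt.eventually_ne hne
    filter_upwards [mem_nhds_compl hz, h4, h5] with t h6 h7 h8
    exact X_add h6 hw h7 h8
  have := hX.unique hX'
  linear_combination this / 2

end Fermat.Agent.WP
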