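import Mathlib

/-!
Basic facts on the Weierstrass `℘`-function: second derivative, non-singularity, surjectivity.
-/

set_option autoImplicit false

noncomputable section

namespace Fermat.Agent.WP

open Filter Topology Module PeriodPair

variable (L : PeriodPair)

theorem countable_lattice : (L.lattice : Set ℂ).Countable :=
  Set.countable_coe_iff.mp (Countable.of_equiv _ L.latticeEquivProd.symm.toEquiv)

theorem isOpen_compl : IsOpen ((L.lattice : Set ℂ)ᶜ) := L.isClosed_lattice.isOpen_compl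

variable {L}

theorem mem_nhds_compl {z : ℂ} (hz : z ∉ L.lattice) : ∀ᶠ w in 𝓝 z, w ∉ L.lattice :=
  (isOpen_compl L).mem_nhds hz

theorem eventually_notMem (z : ℂ) : ∀ᶠ w in 𝓝[≠] z, w ∉ L.lattice := by
  filter_upwards [self_mem_nhdsWithin,
    mem_nhdsWithin_of_mem_nhds (L.compl_lattice_sdiff_singleton_mem_nhds z)] with w hw hw' hm
  exact hw' ⟨hm, hw⟩

theorem tendsto_P {l : ℂ} (hl : l ∈ L.lattice) :
    Tendsto ℘[L] (𝓝[≠] l) (Bornology.cobounded ℂ) := by
  refine tendsto_cobounded_of_meromorphicOrderAt_neg ?_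
  rw [L.order_weierstrassP l hl]
  decide

theorem tendsto_P_inv {l : ℂ} (hl : l ∈ L.lattice) :
    Tendsto (fun z => (℘[L] z)⁻¹) (𝓝[≠] l) (𝓝 0) :=
  Filter.tendsto_inv₀_cobounded.comp (tendsto_P hl)

theorem order_sub_const (c z : ℂ) : meromorphicOrderAt (fun z => ℘[L] z - c) z ≠ ⊤ := by
  have hm : Meromorphic (fun z => ℘[L] z - c) := by fun_prop
  refine hm.exists_meromorphicOrderAt_ne_top_iff_forall.mp ⟨0, ?_⟩ z
  rw [Ne, meromorphicOrderAt_eq_top_iff]
  intro h
  have h1 := tendsto_P (L := L) (l := 0) (zero_mem _)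
  have h2 : Tendsto ℘[L] (𝓝[≠] (0 : ℂ)) (𝓝 c) := by
    refine tendsto_const_nhds.congr' ?_
    filter_upwards [h] with w hw
    exact (sub_eq_zero.mp hw).symm
  exact not_tendsto_nhds_of_tendsto_atTop (tendsto_norm_cobounded_atTop.comp h1) _ h2.norm

theorem analyticAt_P {z : ℂ} (hz : z ∉ L.lattice) : AnalyticAt ℂ ℘[L] z :=
  L.analyticOnNhd_weierstrassP z hz

theorem analyticAt_P' {z : ℂ} (hz : z ∉ L.lattice) : AnalyticAt ℂ ℘'[L] z :=
  L.analyticOnNhd_derivWeierstrassP z hz

theorem hasDerivAt_P {z : ℂ} (hz : z ∉ L.lattice) : HasDerivAt ℘[L] (℘'[L] z) z := by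
  rw [← L.deriv_weierstrassP]
  exact (analyticAt_P hz).differentiableAt.hasDerivAt

theorem order_P' {z : ℂ} (hz : z ∉ L.lattice) : analyticOrderAt ℘'[L] z ≠ ⊤ := by
  intro h
  have h1 := (analyticAt_P hz).analyticOrderAt_deriv_add_one
  rw [L.deriv_weierstrassP, h] at h1
  have h2 : AnalyticAt ℂ (fun w => ℘[L] w - ℘[L] z) z := (analyticAt_P hz).sub analyticAt_const
  refine order_sub_const (L := L) (℘[L] z) z ?_
  rw [h2.meromorphicOrderAt_eq, ← h1]
  rfl

/-- `℘'' = 6 ℘² - g₂ / 2` -/
theorem hasDerivAt_P' {z : ℂ} (hz : z ∉ L.lattice) :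
    HasDerivAt ℘'[L] (6 * ℘[L] z ^ 2 - L.g₂ / 2) z := by
  have hd := (analyticAt_P' hz).differentiableAt.hasDerivAt
  suffices h : deriv ℘'[L] z - (6 * ℘[L] z ^ 2 - L.g₂ / 2) = 0 by
    rw [← sub_eq_zero.mp h]
    exact hd
  set h : ℂ → ℂ := fun w => deriv ℘'[L] w - (6 * ℘[L] w ^ 2 - L.g₂ / 2) with hh
  have ha : AnalyticAt ℂ h z := by
    have h1 := (analyticAt_P' hz).deriv
    have h2 := analyticAt_P hz
    fun_prop
  have h0 : analyticOrderAt (fun w => ℘'[L] w * h w) z = ⊤ := by
    rw [analyticOrderAt_eq_top]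
    filter_upwards [mem_nhds_compl hz] with w hw
    have e1 : HasDerivAt (fun w => ℘'[L] w ^ 2) (2 * ℘'[L] w * deriv ℘'[L] w) w := by
      have := ((analyticAt_P' hw).differentiableAt.hasDerivAt).fun_pow 2
      simpa using this
    have e2 : HasDerivAt (fun w => 4 * ℘[L] w ^ 3 - L.g₂ * ℘[L] w - L.g₃)
        (4 * (3 * ℘[L] w ^ 2 * ℘'[L] w) - L.g₂ * ℘'[L] w) w := by
      have h3 := (hasDerivAt_P hw).pow 3
      have := ((h3.const_mul 4).sub ((hasDerivAt_P hw).const_mul L.g₂)).sub_const L.g₃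
      simpa using this
    have e3 : (fun w => ℘'[L] w ^ 2) =ᶠ[𝓝 w]
        (fun w => 4 * ℘[L] w ^ 3 - L.g₂ * ℘[L] w - L.g₃) := by
      filter_upwards [mem_nhds_compl hw] with v hv
      exact L.derivWeierstrassP_sq v hv
    have e4 := (e1.congr_of_eventuallyEq e3.symm).unique e2
    simp only [hh]
    linear_combination e4 / 2
  rw [show (fun w => ℘'[L] w * h w) = ℘'[L] * h from rfl,
    analyticOrderAt_mul (analyticAt_P' hz) ha] at h0
  have h1 : analyticOrderAt h z = ⊤ := by
    rcases WithTop.add_eq_top.mp h0 with h2 | h2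
    · exact absurd h2 (order_P' hz)
    · exact h2
  exact (analyticOrderAt_eq_top.mp h1).self_of_nhds

/-- `℘'` and `℘''` have no common zeros -/
theorem nonsing {z : ℂ} (hz : z ∉ L.lattice) (h1 : ℘'[L] z = 0) :
    6 * ℘[L] z ^ 2 - L.g₂ / 2 ≠ 0 := by
  intro h2
  set D : ℂ → ℂ := fun w => 6 * ℘[L] w ^ 2 - L.g₂ / 2 with hD
  have hDa : AnalyticAt ℂ D z := by
    have h2 := analyticAt_P hz
    fun_prop
  have e1 : analyticOrderAt D z + 1 = analyticOrderAt ℘'[L] z := by
    have := (analyticAt_P' hz).analyticOrderAt_deriv_add_one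
    simp only [h1, sub_zero] at this
    rw [← this]
    congr 1
    refine analyticOrderAt_congr ?_
    filter_upwards [mem_nhds_compl hz] with w hw
    exact (hasDerivAt_P' hw).deriv.symm
  have e2 : analyticOrderAt (deriv D) z + 1 = analyticOrderAt D z := by
    have := hDa.analyticOrderAt_deriv_add_one
    have h3 : D z = 0 := h2
    simpa only [h3, sub_zero] using this
  have e3 : analyticOrderAt (deriv D) z = analyticOrderAt ((fun w => 12 * ℘[L] w) * ℘'[L]) z := by
    refine analyticOrderAt_congr ?_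
    filter_upwards [mem_nhds_compl hz] with w hw
    have := (((hasDerivAt_P hw).pow 2).const_mul 6).sub_const (L.g₂ / 2)
    rw [show deriv D w = _ from this.deriv]
    simp only [Pi.mul_apply]
    push_cast
    ring
  have h4 : AnalyticAt ℂ (fun w => 12 * ℘[L] w) z := by
    have h2 := analyticAt_P hz
    fun_prop
  rw [analyticOrderAt_mul h4 (analyticAt_P' hz)] at e3
  rw [← e2, e3] at e1
  obtain ⟨n, hn⟩ := ENat.ne_top_iff_exists.mp (order_P' hz)
  rw [← hn] at e1
  rcases eq_or_ne (analyticOrderAt (fun w => 12 * ℘[L] w) z) ⊤ with h5 | h5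
  · rw [h5] at e1
    simp at e1
  · obtain ⟨m, hm⟩ := ENat.ne_top_iff_exists.mp h5
    rw [← hm] at e1
    norm_cast at e1
    omega

/-- `℘` takes all values -/
theorem surj (e : ℂ) : ∃ z ∉ L.lattice, ℘[L] z = e := by
  classical
  by_contra hne
  push Not at hne
  set h : ℂ → ℂ := fun z => if z ∈ L.lattice then 0 else (℘[L] z - e)⁻¹ with hh
  have hd : ∀ z ∉ L.lattice, DifferentiableAt ℂ h z := by
    intro z hz
    have h1 : DifferentiableAt ℂ (fun z => (℘[L] z - e)⁻¹) z :=
      ((analyticAt_P hz).differentiableAt.sub_const e).inv (sub_ne_zero.mpr (hne z hz))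
    refine h1.congr_of_eventuallyEq ?_
    filter_upwards [mem_nhds_compl hz] with w hw
    simp [hh, hw]
  have hd' : Differentiable ℂ h := by
    intro z
    by_cases hz : z ∈ L.lattice
    · refine (Complex.analyticAt_of_differentiable_on_punctured_nhds_of_continuousAt ?_
        ?_).differentiableAt
      · filter_upwards [eventually_notMem (L := L) z] with w hw using hd w hw
      · rw [continuousAt_iff_punctured_nhds]
        have h0 : h z = 0 := by simp [hh, hz]
        rw [h0]
        have h1 : Tendsto (fun w => (℘[L] w - e)⁻¹) (𝓝[≠] z) (𝓝 0) := by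
          refine Filter.tendsto_inv₀_cobounded.comp ?_
          have := tendsto_P (L := L) hz
          exact (tendsto_add_const_cobounded (-e)).comp this |>.congr fun w => by simp [sub_eq_add_neg]
        refine h1.congr' ?_
        filter_upwards [eventually_notMem (L := L) z] with w hw
        simp [hh, hw]
    · exact hd z hz
  have hper : ∀ z w, w ∈ L.lattice → h (z + w) = h z := by
    intro z w hw
    have h1 : z + w ∈ L.lattice ↔ z ∈ L.lattice :=
      L.lattice.toAddSubgroup.add_mem_cancel_right (y := z) hw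
    have h2 : ℘[L] (z + w) = ℘[L] z := L.weierstrassP_add_coe z ⟨w, hw⟩
    simp only [hh, h1, h2]
  have hc := (hd'.apply_eq_apply_of_bounded (IsZLattice.isCompact_range_of_periodic L.lattice _
    hd'.continuous fun z w hw => hper z w hw).isBounded (L.ω₁ / 2) 0)
  have h3 : L.ω₁ / 2 ∉ L.lattice := L.ω₁_div_two_notMem_lattice
  simp only [hh, h3, zero_mem, if_true, if_false] at hc
  exact sub_ne_zero.mpr (hne _ h3) (inv_eq_zero.mp hc)

end Fermat.Agent.WP
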