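import Mathlib

/-!
`PSL₂(ℤ)` is the free product of `ℤ/2` and `ℤ/3`; a homomorphism `Γ₀(N) → ℤ` with value `1` at `T`.
-/

set_option autoImplicit false

noncomputable section

namespace Fermat.Agent.WP

open Matrix Matrix.SpecialLinearGroup ModularGroup OnePoint Monoid
open scoped MatrixGroups Pointwise

/-- the orders of the two generators -/
def ordn (b : Bool) : ℕ := cond b 3 2

/-- the two finite groups -/
abbrev Hn (b : Bool) : Type := Multiplicative (ZMod (ordn b))

/-- the homomorphism `ℤ/n → G` with `1 ↦ g` -/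
def ofPow {G : Type*} [Group G] (n : ℕ) (g : G) (h : g ^ n = 1) : Multiplicative (ZMod n) →* G :=
  AddMonoidHom.toMultiplicativeLeft (ZMod.lift n ⟨zmultiplesHom (Additive G) (Additive.ofMul g), by
    rw [zmultiplesHom_apply, natCast_zsmul]
    exact h⟩)

theorem ofPow_intCast {G : Type*} [Group G] (n : ℕ) (g : G) (h : g ^ n = 1) (k : ℤ) :
    ofPow n g h (Multiplicative.ofAdd (k : ZMod n)) = g ^ k := by
  simp only [ofPow, AddMonoidHom.coe_toMultiplicativeLeft, Function.comp_apply, toAdd_ofAdd,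
    ZMod.lift_coe]
  rfl

theorem ofPow_one {G : Type*} [Group G] (n : ℕ) (g : G) (h : g ^ n = 1) :
    ofPow n g h (Multiplicative.ofAdd 1) = g := by
  have := ofPow_intCast n g h 1
  simpa using this

/-- the action on `ℙ¹(ℚ)` -/
def act : SL(2, ℤ) →* Equiv.Perm (OnePoint ℚ) :=
  (MulAction.toPermHom (GL (Fin 2) ℚ) (OnePoint ℚ)).comp (mapGL ℚ)

theorem act_coe (γ : SL(2, ℤ)) (k : ℚ) : act γ (k : OnePoint ℚ) =
    if (γ 1 0 : ℚ) * k + (γ 1 1 : ℚ) = 0 then ∞ else
      (((γ 0 0 : ℚ) * k + (γ 0 1 : ℚ)) / ((γ 1 0 : ℚ) * k + (γ 1 1 : ℚ)) : ℚ) := by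
  have := smul_some_eq_ite (g := mapGL ℚ γ) (k := k)
  simpa [act] using this

theorem act_infty (γ : SL(2, ℤ)) : act γ ∞ =
    if (γ 1 0 : ℚ) = 0 then ∞ else ((γ 0 0 : ℚ) / (γ 1 0 : ℚ) : ℚ) := by
  have := smul_infty_eq_ite (mapGL ℚ γ)
  simpa [act] using this

theorem act_neg_one : act (-1) = 1 := by
  ext x
  cases x with
  | infty => simp [act_infty]
  | coe k => simp [act_coe]

theorem S_sq : S ^ 2 = (-1 : SL(2, ℤ)) := by decide

theorem ST_cube : (S * T) ^ 3 = (-1 : SL(2, ℤ)) := by decide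

theorem ST_eq : (S * T : SL(2, ℤ)) = ⟨!![0, -1; 1, 1], by simp [Matrix.det_fin_two]⟩ :=
  Subtype.ext (by decide)

theorem ST_sq_eq : ((S * T) ^ 2 : SL(2, ℤ)) = ⟨!![-1, -1; 1, 0], by simp [Matrix.det_fin_two]⟩ :=
  Subtype.ext (by decide)

/-- the two generators -/
def gn (b : Bool) : Equiv.Perm (OnePoint ℚ) := act (cond b (S * T) S)

theorem gn_pow (b : Bool) : gn b ^ ordn b = 1 := by
  cases b
  · show act S ^ 2 = 1
    rw [← map_pow, S_sq, act_neg_one]
  · show act (S * T) ^ 3 = 1
    rw [← map_pow, ST_cube, act_neg_one]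

/-- the ping-pong sets -/
def Xn (b : Bool) : Set (OnePoint ℚ) := (fun k : ℚ => (k : OnePoint ℚ)) '' {k | cond b (k < 0) (0 < k)}

theorem act_S {k : ℚ} (hk : k < 0) : ∃ k' > 0, act S (k : OnePoint ℚ) = (k' : ℚ) := by
  refine ⟨-1 / k, by rw [gt_iff_lt]; exact div_pos_of_neg_of_neg (by norm_num) hk, ?_⟩
  rw [act_coe]
  simp [S, hk.ne]

theorem act_ST {k : ℚ} (hk : 0 < k) : ∃ k' < 0, act (S * T) (k : OnePoint ℚ) = (k' : ℚ) := by
  have h1 : k + 1 ≠ 0 := by positivity
  refine ⟨-1 / (k + 1), div_neg_of_neg_of_pos (by norm_num) (by positivity), ?_⟩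
  rw [act_coe, ST_eq]
  simp [h1]

theorem act_ST2 {k : ℚ} (hk : 0 < k) : ∃ k' < 0, act ((S * T) ^ 2) (k : OnePoint ℚ) = (k' : ℚ) := by
  refine ⟨-(k + 1) / k, div_neg_of_neg_of_pos (by linarith) hk, ?_⟩
  rw [act_coe, ST_sq_eq]
  simp [hk.ne']
  field_simp
  ring

theorem lift_injective : Function.Injective
    (CoprodI.lift (fun b => ofPow (ordn b) (gn b) (gn_pow b))) := by
  refine CoprodI.lift_injective_of_ping_pong _ (Or.inr ⟨true, ?_⟩) Xn ?_ ?_ ?_
  · simp [ordn]
  · intro b
    cases b
    · exact ⟨_, ⟨1, by simp, rfl⟩⟩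
    · exact ⟨_, ⟨-1, by simp, rfl⟩⟩
  · intro a b hab
    rw [Function.onFun, Set.disjoint_left]
    rintro _ ⟨x, hx, rfl⟩ ⟨y, hy, h⟩
    have h' : y = x := OnePoint.coe_injective h
    subst h'
    cases a <;> cases b <;> simp at hab hx hy <;> linarith
  · intro a b hab h hh
    rintro _ ⟨_, ⟨k, hk, rfl⟩, rfl⟩
    cases a <;> cases b <;> simp at hab hk
    · have e : h = Multiplicative.ofAdd (1 : ZMod 2) := by
        revert hh
        change h ≠ (1 : Multiplicative (ZMod 2)) → _
        have : ∀ h : Multiplicative (ZMod 2), h ≠ 1 → h = Multiplicative.ofAdd 1 := by decide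
        exact this h
      rw [e]
      obtain ⟨k', hk', h'⟩ := act_S hk
      refine ⟨k', by simpa using hk', ?_⟩
      change (k' : OnePoint ℚ) = (ofPow (ordn false) (gn false) (gn_pow false)
        (Multiplicative.ofAdd (1 : ZMod 2))) (k : OnePoint ℚ)
      have := ofPow_one (ordn false) (gn false) (gn_pow false)
      change ofPow (ordn false) (gn false) (gn_pow false) (Multiplicative.ofAdd (1 : ZMod 2)) = _
        at this
      rw [this]
      exact h'.symm
    · have e : h = Multiplicative.ofAdd (1 : ZMod 3) ∨ h = Multiplicative.ofAdd (2 : ZMod 3) := by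
        revert hh
        change h ≠ (1 : Multiplicative (ZMod 3)) → _
        have : ∀ h : Multiplicative (ZMod 3), h ≠ 1 → h = Multiplicative.ofAdd 1 ∨
          h = Multiplicative.ofAdd 2 := by decide
        exact this h
      rcases e with e | e
      · rw [e]
        obtain ⟨k', hk', h'⟩ := act_ST hk
        refine ⟨k', by simpa using hk', ?_⟩
        change (k' : OnePoint ℚ) = (ofPow (ordn true) (gn true) (gn_pow true)
          (Multiplicative.ofAdd (1 : ZMod 3))) (k : OnePoint ℚ)
        have := ofPow_one (ordn true) (gn true) (gn_pow true)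
        change ofPow (ordn true) (gn true) (gn_pow true) (Multiplicative.ofAdd (1 : ZMod 3)) = _
          at this
        rw [this]
        exact h'.symm
      · rw [e]
        obtain ⟨k', hk', h'⟩ := act_ST2 hk
        refine ⟨k', by simpa using hk', ?_⟩
        change (k' : OnePoint ℚ) = (ofPow (ordn true) (gn true) (gn_pow true)
          (Multiplicative.ofAdd (2 : ZMod 3))) (k : OnePoint ℚ)
        have := ofPow_intCast (ordn true) (gn true) (gn_pow true) 2
        change ofPow (ordn true) (gn true) (gn_pow true) (Multiplicative.ofAdd (2 : ZMod 3)) = _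
          at this
        rw [this]
        have e2 : gn true ^ (2 : ℤ) = act ((S * T) ^ 2) := by
          rw [map_pow]
          rfl
        rw [e2]
        exact h'.symm

/-- the universal property of `SL₂(ℤ)/±1` -/
theorem exists_hom {G : Type*} [Group G] (s u : G) (hs : s ^ 2 = 1) (hu : u ^ 3 = 1) :
    ∃ F : SL(2, ℤ) →* G, F S = s ∧ F (S * T) = u ∧ F (-1) = 1 := by
  set a := CoprodI.lift (fun b => ofPow (ordn b) (gn b) (gn_pow b)) with ha
  have hinj : Function.Injective a := lift_injective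
  have haS : a (CoprodI.of (i := false) (Multiplicative.ofAdd 1)) = act S := by
    rw [ha, CoprodI.lift_of, ofPow_one]
    rfl
  have haU : a (CoprodI.of (i := true) (Multiplicative.ofAdd 1)) = act (S * T) := by
    rw [ha, CoprodI.lift_of, ofPow_one]
    rfl
  have hr : ∀ γ, act γ ∈ a.range := by
    have h1 : (⊤ : Subgroup SL(2, ℤ)) ≤ a.range.comap act := by
      rw [← SpecialLinearGroup.SL2Z_generators, Subgroup.closure_le]
      rintro γ (rfl | rfl)
      · exact ⟨_, haS⟩
      · show act T ∈ a.range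
        have e : act T = (act S)⁻¹ * act (S * T) := by
          rw [map_mul, inv_mul_cancel_left]
        rw [e]
        exact mul_mem (inv_mem ⟨_, haS⟩) ⟨_, haU⟩
    exact fun γ => h1 (Subgroup.mem_top γ)
  let e := MonoidHom.ofInjective hinj
  let w : SL(2, ℤ) →* CoprodI Hn :=
    (e.symm : a.range →* CoprodI Hn).comp (act.codRestrict a.range hr)
  have hw : ∀ γ x, a x = act γ → w γ = x := by
    intro γ x h
    have h1 : (act.codRestrict a.range hr) γ = e x := by
      ext1
      exact h.symm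
    show e.symm ((act.codRestrict a.range hr) γ) = x
    rw [h1, MulEquiv.symm_apply_apply]
  have hgu : ∀ b, (fun b : Bool => cond b u s) b ^ ordn b = 1 := by
    intro b
    cases b
    · exact hs
    · exact hu
  let F := (CoprodI.lift (fun b => ofPow (ordn b) ((fun b : Bool => cond b u s) b) (hgu b))).comp w
  refine ⟨F, ?_, ?_, ?_⟩
  · simp only [F, MonoidHom.comp_apply]
    rw [hw S _ haS, CoprodI.lift_of, ofPow_one]
    rfl
  · simp only [F, MonoidHom.comp_apply]
    rw [hw (S * T) _ haU, CoprodI.lift_of, ofPow_one]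
    rfl
  · simp only [F, MonoidHom.comp_apply]
    rw [hw (-1) 1 (by rw [map_one, act_neg_one]), map_one]

end Fermat.Agent.WP
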