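import Fermat.Agent.WP.Add

/-!
The Weierstrass uniformisation `ℂ / L ≃ E_L(ℂ)` as a group isomorphism.
-/

set_option autoImplicit false

noncomputable section

namespace Fermat.Agent.WP

open Filter Topology Module PeriodPair WeierstrassCurve

variable (L : PeriodPair)

/-- the curve `y² = x³ - (g₂/4) x - g₃/4` -/
def crv : WeierstrassCurve ℂ := ⟨0, 0, 0, -(L.g₂ / 4), -(L.g₃ / 4)⟩

@[simp] theorem crv_a₁ : (crv L).a₁ = 0 := rfl
@[simp] theorem crv_a₂ : (crv L).a₂ = 0 := rfl
@[simp] theorem crv_a₃ : (crv L).a₃ = 0 := rfl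
@[simp] theorem crv_a₄ : (crv L).a₄ = -(L.g₂ / 4) := rfl
@[simp] theorem crv_a₆ : (crv L).a₆ = -(L.g₃ / 4) := rfl

variable {L}

theorem equation {z : ℂ} (hz : z ∉ L.lattice) :
    (crv L).toAffine.Equation (℘[L] z) (℘'[L] z / 2) := by
  rw [Affine.equation_iff]
  simp only [crv_a₁, crv_a₂, crv_a₃, crv_a₄, crv_a₆]
  linear_combination rel hz

theorem nonsingular {z : ℂ} (hz : z ∉ L.lattice) :
    (crv L).toAffine.Nonsingular (℘[L] z) (℘'[L] z / 2) := by
  rw [Affine.nonsingular_iff']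
  refine ⟨equation hz, ?_⟩
  by_cases h : ℘'[L] z = 0
  · left
    have := nonsing hz h
    simp only [crv_a₁, crv_a₂, crv_a₄]
    intro h1
    apply this
    linear_combination (-2) * h1
  · right
    simp only [crv_a₁, crv_a₃]
    intro h1
    apply h
    linear_combination h1

variable (L)

open Classical in
/-- the point `(℘ z, ℘' z / 2)` -/
def pt (z : ℂ) : (crv L).toAffine.Point :=
  if h : z ∈ L.lattice then 0 else .some (℘[L] z) (℘'[L] z / 2) (nonsingular h)

variable {L}

theorem pt_of_mem {z : ℂ} (h : z ∈ L.lattice) : pt L z = 0 := dif_pos h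

theorem pt_of_notMem {z : ℂ} (h : z ∉ L.lattice) :
    pt L z = .some (℘[L] z) (℘'[L] z / 2) (nonsingular h) := dif_neg h

theorem pt_eq_zero {z : ℂ} : pt L z = 0 ↔ z ∈ L.lattice := by
  refine ⟨fun h => ?_, pt_of_mem⟩
  by_contra hz
  rw [pt_of_notMem hz] at h
  exact Affine.Point.some_ne_zero _ h

theorem pt_add_mem {z w : ℂ} (hw : w ∈ L.lattice) : pt L (z + w) = pt L z := by
  by_cases hz : z ∈ L.lattice
  · rw [pt_of_mem hz, pt_of_mem (add_mem hz hw)]
  · have hzw : z + w ∉ L.lattice := fun h => hz ((coe_add_mem hw).mp h)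
    rw [pt_of_notMem hz, pt_of_notMem hzw]
    simp only [P_add hw, P'_add hw]

theorem pt_neg (z : ℂ) : pt L (-z) = -pt L z := by
  by_cases hz : z ∈ L.lattice
  · rw [pt_of_mem hz, pt_of_mem (neg_mem hz), neg_zero]
  · have hz' : -z ∉ L.lattice := fun h => hz (neg_mem_iff.mp h)
    rw [pt_of_notMem hz, pt_of_notMem hz', Affine.Point.neg_some]
    simp only [L.weierstrassP_neg, L.derivWeierstrassP_neg, Affine.negY, crv_a₁, crv_a₃]
    congr 1
    ring

/-- generic case of the addition formula -/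
theorem pt_add_generic {z w : ℂ} (hz : z ∉ L.lattice) (hw : w ∉ L.lattice)
    (hzw : z + w ∉ L.lattice) (hne : ℘[L] z ≠ ℘[L] w) : pt L (z + w) = pt L z + pt L w := by
  rw [pt_of_notMem hz, pt_of_notMem hw, pt_of_notMem hzw, Affine.Point.add_of_X_ne hne]
  have hs : (crv L).toAffine.slope (℘[L] z) (℘[L] w) (℘'[L] z / 2) (℘'[L] w / 2) = sl L z w := by
    rw [Affine.slope_of_X_ne hne, sl]
  have hX : (crv L).toAffine.addX (℘[L] z) (℘[L] w) (sl L z w) = ℘[L] (z + w) := by
    rw [← X_add hz hw hzw hne]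
    simp only [Affine.addX, X, crv_a₁, crv_a₂]
    ring
  have hY : (crv L).toAffine.addY (℘[L] z) (℘[L] w) (℘'[L] z / 2) (sl L z w) =
      ℘'[L] (z + w) / 2 := by
    rw [← Y_add hz hw hzw hne]
    rw [← X_add hz hw hzw hne] at hX
    simp only [Affine.addY, Affine.negAddY, Affine.negY, hX, crv_a₁, crv_a₃]
    ring
  simp only [hs, hX, hY]

theorem eventually_ne_sub (z w : ℂ) (hzw : z + w ∉ L.lattice) :
    ∀ᶠ s in 𝓝[≠] (0 : ℂ), ℘[L] (z + s) ≠ ℘[L] (w - s) := by
  set G : ℂ → ℂ := fun s => ℘[L] (z + s) - ℘[L] (w - s) with hG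
  have hm : Meromorphic G := by
    intro x
    have h3 : MeromorphicAt (fun s => ℘[L] (z + s)) x :=
      (L.meromorphic_weierstrassP (z + x)).comp_analyticAt (g := fun s => z + s) (by fun_prop)
    have h4 : MeromorphicAt (fun s => ℘[L] (w - s)) x :=
      (L.meromorphic_weierstrassP (w - x)).comp_analyticAt (g := fun s => w - s) (by fun_prop)
    fun_prop
  have h1 : meromorphicOrderAt G (-z) ≠ ⊤ := by
    rw [Ne, meromorphicOrderAt_eq_top_iff]
    intro h
    have hT : Tendsto (fun s => z + s) (𝓝[≠] (-z)) (𝓝[≠] 0) := by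
      have : Tendsto (fun s => z + s) (𝓝[≠] (-z)) (𝓝 0) := by
        have h2 : ContinuousAt (fun s => z + s) (-z) := by fun_prop
        have h3 := h2.tendsto
        simp only [add_neg_cancel] at h3
        exact h3.mono_left nhdsWithin_le_nhds
      refine tendsto_nhdsWithin_iff.mpr ⟨this, ?_⟩
      filter_upwards [self_mem_nhdsWithin] with s hs h5
      exact hs (by
        have : z + s = 0 := h5
        simp only [Set.mem_singleton_iff]
        linear_combination this)
    have h2 := (tendsto_P (L := L) (zero_mem _)).comp hT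
    have h3 : ContinuousAt (fun s => ℘[L] (w - s)) (-z) := by
      have h4 : ContinuousAt ℘[L] (w - -z) :=
        (analyticAt_P (by rwa [sub_neg_eq_add, add_comm])).continuousAt
      exact h4.comp (f := fun s => w - s) (by fun_prop)
    have h4 : Tendsto (fun s => ℘[L] (z + s)) (𝓝[≠] (-z)) (𝓝 (℘[L] (w - -z))) := by
      refine (h3.tendsto.mono_left nhdsWithin_le_nhds).congr' ?_
      filter_upwards [h] with s hs
      exact (sub_eq_zero.mp hs).symm
    exact not_tendsto_nhds_of_tendsto_atTop (tendsto_norm_cobounded_atTop.comp h2) _ h4.norm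
  have h0 : meromorphicOrderAt G 0 ≠ ⊤ :=
    hm.exists_meromorphicOrderAt_ne_top_iff_forall.mp ⟨-z, h1⟩ 0
  have h2 := (meromorphicOrderAt_ne_top_iff_eventually_ne_zero (hm 0)).mp h0
  filter_upwards [h2] with s hs h3
  exact hs (sub_eq_zero.mpr h3)

/-- the addition theorem -/
theorem pt_add (z w : ℂ) : pt L (z + w) = pt L z + pt L w := by
  by_cases hw : w ∈ L.lattice
  · rw [pt_add_mem hw, pt_of_mem hw, add_zero]
  by_cases hz : z ∈ L.lattice
  · rw [add_comm z w, pt_add_mem hz, pt_of_mem hz, zero_add]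
  by_cases hzw : z + w ∈ L.lattice
  · have h1 : pt L w = -pt L z := by
      rw [← pt_neg, ← pt_add_mem (z := -z) hzw, neg_add_cancel_left]
    rw [pt_of_mem hzw, h1, add_neg_cancel]
  -- choose a generic `s`
  have e1 : ∀ᶠ s in 𝓝[≠] (0 : ℂ), s ∉ L.lattice := eventually_notMem 0
  have c1 : ContinuousAt (fun s : ℂ => z + s) 0 := by fun_prop
  have c2 : ContinuousAt (fun s : ℂ => w - s) 0 := by fun_prop
  have e2 : ∀ᶠ s in 𝓝[≠] (0 : ℂ), z + s ∉ L.lattice := by
    refine (c1.eventually (mem_nhds_compl ?_)).filter_mono nhdsWithin_le_nhds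
    simpa using hz
  have e3 : ∀ᶠ s in 𝓝[≠] (0 : ℂ), w - s ∉ L.lattice := by
    refine (c2.eventually (mem_nhds_compl ?_)).filter_mono nhdsWithin_le_nhds
    simpa using hw
  have e4 : ∀ᶠ s in 𝓝[≠] (0 : ℂ), ℘[L] s ≠ ℘[L] z :=
    eventually_P_ne (fun _ => z) continuousAt_const hz rfl
  have e5 : ∀ᶠ s in 𝓝[≠] (0 : ℂ), ℘[L] s ≠ ℘[L] w :=
    eventually_P_ne (fun _ => w) continuousAt_const hw rfl
  have e6 := eventually_ne_sub z w hzw
  obtain ⟨s, h1, h2, h3, h4, h5, h6⟩ :=
    (e1.and (e2.and (e3.and (e4.and (e5.and e6))))).exists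
  have a1 : pt L (z + s) = pt L z + pt L s := pt_add_generic hz h1 h2 h4.symm
  have h1' : -s ∉ L.lattice := fun h => h1 (neg_mem_iff.mp h)
  have a2 : pt L (w - s) = pt L w - pt L s := by
    rw [sub_eq_add_neg, pt_add_generic hw h1' (by rwa [← sub_eq_add_neg])
      (by rw [L.weierstrassP_neg]; exact h5.symm), pt_neg, sub_eq_add_neg]
  have a3 : pt L (z + s + (w - s)) = pt L (z + s) + pt L (w - s) :=
    pt_add_generic h2 h3 (by
      have : z + s + (w - s) = z + w := by ring
      rwa [this]) h6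
  have e7 : z + s + (w - s) = z + w := by ring
  rw [e7, a1, a2] at a3
  rw [a3]
  abel

variable (L) in
/-- the Weierstrass uniformisation -/
def uni : ℂ →+ (crv L).toAffine.Point where
  toFun := pt L
  map_zero' := pt_of_mem (zero_mem _)
  map_add' := pt_add

theorem uni_apply (z : ℂ) : uni L z = pt L z := rfl

theorem uni_of_notMem {z : ℂ} (h : z ∉ L.lattice) :
    uni L z = .some (℘[L] z) (℘'[L] z / 2) (nonsingular h) := pt_of_notMem h

theorem uni_eq_zero {z : ℂ} : uni L z = 0 ↔ z ∈ L.lattice := pt_eq_zero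

theorem uni_eq_iff {z w : ℂ} : uni L z = uni L w ↔ z - w ∈ L.lattice := by
  rw [← sub_eq_zero, ← map_sub, uni_eq_zero]

theorem ker_uni : (uni L).ker = L.lattice.toAddSubgroup := by
  ext z
  exact uni_eq_zero

theorem uni_surjective : Function.Surjective (uni L) := by
  intro P
  match P with
  | 0 => exact ⟨0, map_zero _⟩
  | .some x y h =>
    obtain ⟨z, hz, hx⟩ := surj (L := L) x
    subst hx
    have h1 := (Affine.equation_iff ..).mp h.1
    have h2 := (Affine.equation_iff ..).mp (equation hz)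
    simp only [crv_a₁, crv_a₂, crv_a₃, crv_a₄, crv_a₆] at h1 h2
    have h3 : (y - ℘'[L] z / 2) * (y + ℘'[L] z / 2) = 0 := by linear_combination h1 - h2
    rcases mul_eq_zero.mp h3 with h4 | h4
    · refine ⟨z, ?_⟩
      rw [uni_of_notMem hz]
      have h5 : y = ℘'[L] z / 2 := by linear_combination h4
      subst h5
      rfl
    · have hz' : -z ∉ L.lattice := fun h => hz (neg_mem_iff.mp h)
      refine ⟨-z, ?_⟩
      have h5 : y = -(℘'[L] z / 2) := by linear_combination h4
      rw [uni_of_notMem hz']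
      simp only [L.weierstrassP_neg, L.derivWeierstrassP_neg, h5]
      congr 1
      ring

variable (L) in
theorem crv_Δ_ne_zero : (crv L).Δ ≠ 0 := by
  intro h
  -- a singular point
  obtain ⟨x, h1, h2⟩ : ∃ x : ℂ, 3 * x ^ 2 + (crv L).a₄ = 0 ∧
      x ^ 3 + (crv L).a₄ * x + (crv L).a₆ = 0 := by
    have h0 : 4 * (crv L).a₄ ^ 3 + 27 * (crv L).a₆ ^ 2 = 0 := by
      simp only [WeierstrassCurve.Δ, WeierstrassCurve.b₂, WeierstrassCurve.b₄,
        WeierstrassCurve.b₆, WeierstrassCurve.b₈, crv_a₁, crv_a₂, crv_a₃] at h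
      linear_combination (-1 / 16) * h
    generalize (crv L).a₄ = a at h0 ⊢
    generalize (crv L).a₆ = b at h0 ⊢
    by_cases ha : a = 0
    · subst ha
      have hb : b = 0 := by
        have : b ^ 2 = 0 := by linear_combination h0 / 27
        exact pow_eq_zero_iff (two_ne_zero) |>.mp this
      exact ⟨0, by simp, by simp [hb]⟩
    · refine ⟨-3 * b / (2 * a), ?_, ?_⟩
      · field_simp
        linear_combination h0
      · field_simp
        linear_combination (-b) * h0
  obtain ⟨z, hz, rfl⟩ := surj (L := L) x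
  have hr := rel hz
  simp only [crv_a₄, crv_a₆] at h1 h2
  have h3 : ℘'[L] z = 0 := by
    have : (℘'[L] z) ^ 2 = 0 := by linear_combination 4 * hr + 4 * h2
    exact pow_eq_zero_iff (two_ne_zero) |>.mp this
  exact nonsing hz h3 (by linear_combination 2 * h1)

instance crv_isElliptic : (crv L).IsElliptic := ⟨(crv_Δ_ne_zero L).isUnit⟩

variable (L) in
theorem disc_ne_zero : L.g₂ ^ 3 - 27 * L.g₃ ^ 2 ≠ 0 := by
  intro h
  refine crv_Δ_ne_zero L ?_
  simp only [WeierstrassCurve.Δ, WeierstrassCurve.b₂, WeierstrassCurve.b₄,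
    WeierstrassCurve.b₆, WeierstrassCurve.b₈, crv_a₁, crv_a₂, crv_a₃, crv_a₄, crv_a₆]
  linear_combination h

theorem crv_Δ : (crv L).Δ = L.g₂ ^ 3 - 27 * L.g₃ ^ 2 := by
  simp only [WeierstrassCurve.Δ, WeierstrassCurve.b₂, WeierstrassCurve.b₄,
    WeierstrassCurve.b₆, WeierstrassCurve.b₈, crv_a₁, crv_a₂, crv_a₃, crv_a₄, crv_a₆]
  ring

theorem crv_c₄ : (crv L).c₄ = 12 * L.g₂ := by
  simp only [WeierstrassCurve.c₄, WeierstrassCurve.b₂, WeierstrassCurve.b₄,
    crv_a₁, crv_a₂, crv_a₃, crv_a₄]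
  ring

theorem crv_c₆ : (crv L).c₆ = 216 * L.g₃ := by
  simp only [WeierstrassCurve.c₆, WeierstrassCurve.b₂, WeierstrassCurve.b₄,
    WeierstrassCurve.b₆, crv_a₁, crv_a₂, crv_a₃, crv_a₄, crv_a₆]
  ring

/-- torsion points -/
theorem exists_of_nsmul_eq_zero {n : ℕ} {P : (crv L).toAffine.Point} (h : n • P = 0) :
    ∃ z : ℂ, (n : ℂ) * z ∈ L.lattice ∧ uni L z = P := by
  obtain ⟨z, rfl⟩ := uni_surjective P
  refine ⟨z, ?_, rfl⟩
  rw [← map_nsmul, uni_eq_zero, nsmul_eq_mul] at h
  exact h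

/-- `℘ z = ℘ w` iff `z = ± w` modulo the lattice -/
theorem P_eq_iff {z w : ℂ} (hz : z ∉ L.lattice) (hw : w ∉ L.lattice) :
    ℘[L] z = ℘[L] w ↔ z - w ∈ L.lattice ∨ z + w ∈ L.lattice := by
  constructor
  · intro h
    have h1 : pt L z = pt L w ∨ pt L z = -pt L w := by
      rw [pt_of_notMem hz, pt_of_notMem hw]
      exact Affine.Point.X_eq_iff.mp h
    rcases h1 with h1 | h1
    · exact Or.inl (uni_eq_iff.mp h1)
    · right
      rw [← pt_neg] at h1
      have := uni_eq_iff.mp h1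
      rwa [sub_neg_eq_add] at this
  · rintro (h | h)
    · have := P_add (z := w) h
      rwa [add_sub_cancel] at this
    · have := P_add (z := -w) h
      rw [L.weierstrassP_neg, add_comm z w, neg_add_cancel_left] at this
      exact this

end Fermat.Agent.WP
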