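import Fermat.Agent.WP.Vals
import Fermat.Agent.WP.Cusp

/-!
The polynomial of normalised `x`-coordinates is rational over `ℚ`.
-/

set_option autoImplicit false
set_option linter.unusedSectionVars false

noncomputable section

namespace Fermat.Agent.WP

open AlgebraicCurve IntermediateField
open Fermat.Agent.FunField Fermat.Agent.Flat Fermat.Agent.LG Fermat.Agent.ModFun Fermat.Agent.MZ
open Fermat.Agent.Tor
open Fermat.Agent.ESCore (ιC)

/-- The field of algebraic numbers. -/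
local notation "Qb" => AlgebraicClosure ℚ
/-- The absolute Galois group. -/
local notation "GQ" => (AlgebraicClosure ℚ ≃ₐ[ℚ] AlgebraicClosure ℚ)

variable {N : ℕ} [NeZero N] {ζ : Qbˣ}

/-- series attached to a unit -/
def S1 (w : Qbˣ) : LaurentSeries Qb := HahnSeries.ofPowerSeries ℤ Qb
  (XS 1 (PowerSeries.C ((w : Qb) / (1 - (w : Qb)) ^ 2) + serS (fun n => n + 1) (w : Qb) +
    serS (fun n => n + 1) ((w⁻¹ : Qbˣ) : Qb) - 2 * serS (fun n => n + 1) 1))

theorem S1_eq (i : ℕ) : HahnSeries.ofPowerSeries ℤ Qb (XS 1 (Xinf ζ (cK ζ i) i)) = S1 (ζ ^ i) := by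
  rw [S1, Xinf, cK, Units.val_pow_eq_pow_val]

theorem coeffMap_S1 (g : Qb →+* Qb) (w : Qbˣ) :
    ModularCurve.coeffMap g (S1 w) = S1 (Units.map (g : Qb →* Qb) w) := by
  rw [S1, S1, coeffMap_ofPowerSeries, map_XS]
  congr 2
  rw [map_sub, map_add, map_add, map_mul, map_serS, map_serS, map_serS, map_one,
    PowerSeries.map_C, map_ofNat, map_div₀, map_pow, map_sub, map_one]
  rw [← map_inv]
  rfl

theorem isPrimitiveRoot_of_exp (hζ : ιC ζ = Complex.exp (2 * Real.pi * Complex.I / N)) :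
    IsPrimitiveRoot (ζ : Qb) N :=
  (IsPrimitiveRoot.map_iff_of_injective ιC.injective).mp (by
    rw [hζ]; exact Complex.isPrimitiveRoot_exp N (NeZero.ne N))

theorem pow_val_mul (hζN : ζ ^ N = 1) {i : ℕ} (hic : i.Coprime N) (u : (ZMod N)ˣ) :
    (ζ ^ i) ^ ZMod.val (u : ZMod N) =
      ζ ^ ZMod.val ((u * ZMod.unitOfCoprime i hic : (ZMod N)ˣ) : ZMod N) := by
  rw [← pow_mul, Units.val_mul, ZMod.coe_unitOfCoprime, ZMod.val_mul,
      ZMod.val_natCast, mul_comm i, Nat.mul_mod_mod, ← pow_mod_orderOf ζ,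
      ← pow_mod_orderOf ζ ((ZMod.val (u : ZMod N) * i) % N),
      Nat.mod_mod_of_dvd _ (orderOf_dvd_of_pow_eq_one hζN)]

theorem HS_coeff_eq (hN : 1 < N) (hζ : ιC ζ = Complex.exp (2 * Real.pi * Complex.I / N)) (k : ℕ) :
    (((HS hN hζ).coeff k : F0 Qb N) : LaurentSeries Qb) =
      (∏ u : (ZMod N)ˣ, (Polynomial.X - Polynomial.C (S1 (ζ ^ (ZMod.val (u : ZMod N)))))).coeff k := by
  have h1 := congrArg (fun p => Polynomial.coeff p k) (HS_map hN hζ)
  simp only [Polynomial.coeff_map, S1_eq] at h1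
  exact h1

theorem map_prod_S1 (g : Qb →+* Qb) (hζN : ζ ^ N = 1) {i : ℕ} (hic : i.Coprime N)
    (hi : Units.map (g : Qb →* Qb) ζ = ζ ^ i) :
    (∏ u : (ZMod N)ˣ, (Polynomial.X - Polynomial.C (S1 (ζ ^ (ZMod.val (u : ZMod N)))))).map
      (ModularCurve.coeffMap g) =
    ∏ u : (ZMod N)ˣ, (Polynomial.X - Polynomial.C (S1 (ζ ^ (ZMod.val (u : ZMod N))))) := by
  rw [Polynomial.map_prod]
  simp only [Polynomial.map_sub, Polynomial.map_X, Polynomial.map_C, coeffMap_S1]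
  refine Fintype.prod_equiv (Equiv.mulRight (ZMod.unitOfCoprime i hic)) _ _ fun u => ?_
  rw [map_pow, hi, pow_val_mul hζN hic]
  rfl

/-- **Rationality.** -/
theorem HS_gal (hN : 1 < N) (hζ : ιC ζ = Complex.exp (2 * Real.pi * Complex.I / N)) (σ : GQ)
    (k : ℕ) : galF0 N σ • (HS hN hζ).coeff k = (HS hN hζ).coeff k := by
  apply Subtype.ext
  rw [coe_galF0_smul, HS_coeff_eq, ← Polynomial.coeff_map]
  have hp := isPrimitiveRoot_of_exp hζ
  have hp' : IsPrimitiveRoot (σ (ζ : Qb)) N := hp.map_of_injective σ.injective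
  obtain ⟨i, hi, hic, hiz⟩ := (hp.isPrimitiveRoot_iff).mp hp'
  have hζN : ζ ^ N = 1 := Units.ext (by
    rw [Units.val_pow_eq_pow_val, hp.pow_eq_one, Units.val_one])
  rw [map_prod_S1 _ hζN hic]
  exact Units.ext (by rw [Units.val_pow_eq_pow_val, hiz]; rfl)

end Fermat.Agent.WP
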