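import Fermat.Agent.WP.Hom
import Fermat.Agent.ModFun.JDeriv

/-!
Homogeneity of `℘`, modular behaviour.
-/

set_option autoImplicit false

noncomputable section

namespace Fermat.Agent.WP

open UpperHalfPlane hiding I J
open Filter Topology Module PeriodPair
open scoped MatrixGroups

variable {L L' : PeriodPair}

/-- multiplication by `u` as an equivalence of lattices -/
def scaleEquiv {u : ℂ} (hu : u ≠ 0) (h : ∀ z, z ∈ L'.lattice ↔ u * z ∈ L.lattice) :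
    L'.lattice ≃ L.lattice where
  toFun l := ⟨u * l, (h _).mp l.2⟩
  invFun l := ⟨u⁻¹ * l, (h _).mpr (by rw [mul_inv_cancel_left₀ hu]; exact l.2)⟩
  left_inv l := by ext; simp [hu]
  right_inv l := by ext; simp [hu]

theorem P_scale {u : ℂ} (hu : u ≠ 0) (h : ∀ z, z ∈ L'.lattice ↔ u * z ∈ L.lattice) (z : ℂ) :
    ℘[L'] z = u ^ 2 * ℘[L] (u * z) := by
  unfold weierstrassP
  rw [← (scaleEquiv hu h).tsum_eq, ← tsum_mul_left]
  refine tsum_congr fun l => ?_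
  simp only [scaleEquiv, Equiv.coe_fn_mk, ← mul_sub, mul_pow, one_div, mul_inv]
  rw [mul_inv_cancel_left₀ (pow_ne_zero 2 hu)]

theorem P'_scale {u : ℂ} (hu : u ≠ 0) (h : ∀ z, z ∈ L'.lattice ↔ u * z ∈ L.lattice) (z : ℂ) :
    ℘'[L'] z = u ^ 3 * ℘'[L] (u * z) := by
  unfold derivWeierstrassP
  rw [← (scaleEquiv hu h).tsum_eq, ← neg_mul_eq_mul_neg, ← tsum_mul_left]
  congr 1
  refine tsum_congr fun l => ?_
  simp only [scaleEquiv, Equiv.coe_fn_mk, ← mul_sub, mul_pow, div_eq_mul_inv, mul_inv]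
  rw [mul_left_comm 2, mul_inv_cancel_left₀ (pow_ne_zero 3 hu)]

theorem G_scale {u : ℂ} (hu : u ≠ 0) (h : ∀ z, z ∈ L'.lattice ↔ u * z ∈ L.lattice) (n : ℕ) :
    L'.G n = u ^ n * L.G n := by
  unfold PeriodPair.G
  rw [← (scaleEquiv hu h).tsum_eq, ← tsum_mul_left]
  refine tsum_congr fun l => ?_
  simp only [scaleEquiv, Equiv.coe_fn_mk, mul_pow, mul_inv]
  rw [mul_inv_cancel_left₀ (pow_ne_zero n hu)]

/-- the lattice of `γ τ` -/
theorem mem_lattice_smul {τ : ℍ} (γ : SL(2, ℤ)) (h1 : L.ω₁ = τ) (h2 : L.ω₂ = 1)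
    (h1' : L'.ω₁ = (γ • τ : ℍ)) (h2' : L'.ω₂ = 1) (z : ℂ) :
    z ∈ L'.lattice ↔ denom γ τ * z ∈ L.lattice := by
  have hd : denom γ τ ≠ 0 := denom_ne_zero _ _
  have hden : denom γ τ = (γ 1 0 : ℂ) * τ + (γ 1 1 : ℂ) := by
    simp [denom]
  have hsm : denom γ τ * ((γ • τ : ℍ) : ℂ) = (γ 0 0 : ℂ) * τ + (γ 0 1 : ℂ) := by
    rw [specialLinearGroup_apply, hden]
    rw [hden] at hd
    simp only [algebraMap_int_eq, eq_intCast, Complex.ofReal_intCast]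
    rw [mul_div_cancel₀ _ hd]
  have hdet : (γ 0 0 : ℂ) * (γ 1 1 : ℂ) - (γ 0 1 : ℂ) * (γ 1 0 : ℂ) = 1 := by
    have := γ.2
    rw [Matrix.det_fin_two] at this
    exact_mod_cast this
  simp only [mem_lattice, h1, h2, h1', h2', mul_one]
  constructor
  · rintro ⟨m, n, rfl⟩
    refine ⟨m * γ 0 0 + n * γ 1 0, m * γ 0 1 + n * γ 1 1, ?_⟩
    push_cast
    have : denom γ τ * (m * ((γ • τ : ℍ) : ℂ) + n) =
      m * (denom γ τ * ((γ • τ : ℍ) : ℂ)) + n * denom γ τ := by ring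
    rw [this, hsm, hden]
    ring
  · rintro ⟨m, n, h⟩
    refine ⟨m * γ 1 1 - n * γ 1 0, -(m * γ 0 1) + n * γ 0 0, ?_⟩
    push_cast
    have hz : denom γ τ * (((m : ℂ) * (γ 1 1 : ℂ) - n * (γ 1 0 : ℂ)) * ((γ • τ : ℍ) : ℂ) +
        (-((m : ℂ) * (γ 0 1 : ℂ)) + n * (γ 0 0 : ℂ))) = denom γ τ * z := by
      have e : denom γ τ * (((m : ℂ) * (γ 1 1 : ℂ) - n * (γ 1 0 : ℂ)) * ((γ • τ : ℍ) : ℂ) +
        (-((m : ℂ) * (γ 0 1 : ℂ)) + n * (γ 0 0 : ℂ))) =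
          ((m : ℂ) * (γ 1 1 : ℂ) - n * (γ 1 0 : ℂ)) * (denom γ τ * ((γ • τ : ℍ) : ℂ)) +
            (-((m : ℂ) * (γ 0 1 : ℂ)) + n * (γ 0 0 : ℂ)) * denom γ τ := by ring
      rw [e, hsm, hden, ← hden, ← h]
      rw [hden]
      linear_combination ((m : ℂ) * τ + n) * hdet
    exact mul_left_cancel₀ hd hz

theorem P_smul {τ : ℍ} (γ : SL(2, ℤ)) (h1 : L.ω₁ = τ) (h2 : L.ω₂ = 1)
    (h1' : L'.ω₁ = (γ • τ : ℍ)) (h2' : L'.ω₂ = 1) (z : ℂ) :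
    ℘[L'] z = denom γ τ ^ 2 * ℘[L] (denom γ τ * z) :=
  P_scale (denom_ne_zero _ _) (mem_lattice_smul γ h1 h2 h1' h2') z

end Fermat.Agent.WP
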