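import Fermat.Agent.WP.Hom
import Fermat.Agent.EC.VarChange
import Fermat.Agent.ModFun.JDeriv

/-!
`g₂`, `g₃` of the lattice `ℤ τ + ℤ` and uniformisation of elliptic curves over `ℂ`.
-/

set_option autoImplicit false

noncomputable section

namespace Fermat.Agent.WP

open UpperHalfPlane hiding I J
open Filter Topology Module PeriodPair WeierstrassCurve ModularForm EisensteinSeries Real
open Fermat.Agent.ModFun (J)

variable {L : PeriodPair} {τ : ℍ}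

theorem G_eq (h1 : L.ω₁ = τ) (h2 : L.ω₂ = 1) {k : ℕ} (hk : 3 ≤ k) :
    L.G k = 2 * riemannZeta k * E hk τ := by
  have e1 : E hk τ = (1 / 2 : ℂ) • eisensteinSeriesSIF (N := 1) 0 k τ := rfl
  rw [e1, eisensteinSeriesSIF_apply 0 k τ, smul_eq_mul]
  have e2 := tsum_eisSummand_eq_riemannZeta_mul_eisensteinSeries hk τ
  have e3 : L.G k = ∑' v : Fin 2 → ℤ, eisSummand k v τ := by
    unfold PeriodPair.G
    rw [← L.latticeEquivProd.symm.toEquiv.tsum_eq, ← (finTwoArrowEquiv ℤ).tsum_eq]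
    refine tsum_congr fun v => ?_
    have := L.latticeEquiv_symm_apply (finTwoArrowEquiv ℤ v)
    simp only [LinearEquiv.coe_toEquiv, this, eisSummand, h1, h2]
    simp
  rw [e3, e2]
  ring

theorem g₂_eq (h1 : L.ω₁ = τ) (h2 : L.ω₂ = 1) : L.g₂ = 4 / 3 * (π : ℂ) ^ 4 * E₄ τ := by
  have := G_eq h1 h2 (k := 4) (by norm_num)
  rw [PeriodPair.g₂, this]
  have h3 : riemannZeta ((4 : ℕ) : ℂ) = π ^ 4 / 90 := by
    simpa using riemannZeta_four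
  rw [h3]
  ring

theorem riemannZeta_six' : riemannZeta 6 = π ^ 6 / 945 := by
  have h := riemannZeta_two_mul_nat (k := 3) (by norm_num)
  have e1 : (2 * ((3 : ℕ) : ℂ)) = 6 := by norm_num
  rw [e1] at h
  rw [h]
  have e2 : bernoulli (2 * 3) = 1 / 42 := by decide +kernel
  rw [e2]
  norm_num [Nat.factorial]
  ring

theorem g₃_eq (h1 : L.ω₁ = τ) (h2 : L.ω₂ = 1) : L.g₃ = 8 / 27 * (π : ℂ) ^ 6 * E₆ τ := by
  have := G_eq h1 h2 (k := 6) (by norm_num)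
  rw [PeriodPair.g₃, this]
  have h3 : riemannZeta ((6 : ℕ) : ℂ) = π ^ 6 / 945 := by
    simpa using riemannZeta_six'
  rw [h3]
  ring

theorem crv_Δ_eq (h1 : L.ω₁ = τ) (h2 : L.ω₂ = 1) :
    (crv L).Δ = (2 * π) ^ 12 * discriminant τ := by
  rw [crv_Δ, g₂_eq h1 h2, g₃_eq h1 h2, discriminant_eq_E₄_cube_sub_E₆_sq]
  ring

theorem crv_c₄_eq (h1 : L.ω₁ = τ) (h2 : L.ω₂ = 1) :
    (crv L).c₄ = (2 * π) ^ 4 * E₄ τ := by
  rw [crv_c₄, g₂_eq h1 h2]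
  ring

theorem crv_c₆_eq (h1 : L.ω₁ = τ) (h2 : L.ω₂ = 1) :
    (crv L).c₆ = (2 * π) ^ 6 * E₆ τ := by
  rw [crv_c₆, g₃_eq h1 h2]
  ring

theorem crv_j_eq (h1 : L.ω₁ = τ) (h2 : L.ω₂ = 1) : (crv L).j = J τ := by
  have h3 : discriminant τ ≠ 0 := discriminant_ne_zero τ
  have h4 : ((2 * π : ℝ) : ℂ) ≠ 0 := by
    exact_mod_cast (by positivity : (2 * π : ℝ) ≠ 0)
  have h5 : (2 * (π : ℂ)) ≠ 0 := by simpa using h4
  rw [WeierstrassCurve.j, Units.val_inv_eq_inv_val,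
    WeierstrassCurve.coe_Δ', crv_Δ_eq h1 h2, crv_c₄_eq h1 h2, J]
  field_simp

theorem exists_hom_of_eq {E : WeierstrassCurve ℂ} (hE : E = crv L) :
    ∃ φ : ℂ →+ E.toAffine.Point, Function.Surjective φ ∧ (∀ z, φ z = 0 ↔ z ∈ L.lattice) ∧
      ∀ z ∉ L.lattice, ∃ y h, φ z = .some (℘[L] z) y h := by
  subst hE
  exact ⟨uni L, uni_surjective, fun z => uni_eq_zero, fun z hz => ⟨_, _, uni_of_notMem hz⟩⟩

/-- uniformisation of an elliptic curve over `ℂ` -/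
theorem exists_unif (h1 : L.ω₁ = τ) (h2 : L.ω₂ = 1) (W : WeierstrassCurve ℂ) [W.IsElliptic]
    (hj : W.j = J τ) : ∃ u : ℂ, u ≠ 0 ∧ W.c₄ = (u * (2 * π)) ^ 4 * E₄ τ ∧
      W.c₆ = (u * (2 * π)) ^ 6 * E₆ τ ∧
      ∃ φ : ℂ →+ W.toAffine.Point, Function.Surjective φ ∧ (∀ z, φ z = 0 ↔ z ∈ L.lattice) ∧
        ∀ z ∉ L.lattice, ∃ y h, φ z = .some (u ^ 2 * ℘[L] z - W.b₂ / 12) y h := by
  obtain ⟨C, hC⟩ := exists_variableChange_of_j_eq W (crv L) (hj.trans (crv_j_eq h1 h2).symm)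
  obtain ⟨φ, hs, hk, hφ⟩ := exists_hom_of_eq hC
  have hu : (C.u : ℂ) ≠ 0 := C.u.ne_zero
  have hui : ((C.u⁻¹ : ℂˣ) : ℂ) = (C.u : ℂ)⁻¹ := Units.val_inv_eq_inv_val _
  have hr : C.r = -(W.b₂ / 12) := by
    have e1 := W.variableChange_b₂ C
    rw [hC] at e1
    have e2 : (crv L).b₂ = 0 := by simp [WeierstrassCurve.b₂]
    rw [e2, hui] at e1
    have e3 : W.b₂ + 12 * C.r = 0 := by
      rcases mul_eq_zero.mp e1.symm with h | h
      · exact absurd h (pow_ne_zero _ (inv_ne_zero hu))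
      · exact h
    linear_combination e3 / 12
  refine ⟨C.u, hu, ?_, ?_, (EC.pointMap W C).comp φ, (EC.pointMap_surjective W C).comp hs, ?_, ?_⟩
  · have e1 := W.variableChange_c₄ C
    rw [hC, crv_c₄_eq h1 h2, hui] at e1
    rw [mul_pow, mul_assoc, e1]
    field_simp
  · have e1 := W.variableChange_c₆ C
    rw [hC, crv_c₆_eq h1 h2, hui] at e1
    rw [mul_pow, mul_assoc, e1]
    field_simp
  · intro z
    rw [← hk z]
    simp only [AddMonoidHom.comp_apply]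
    rw [← map_zero (EC.pointMap W C)]
    exact (EC.pointMap_injective W C).eq_iff
  · intro z hz
    obtain ⟨y, h, e⟩ := hφ z hz
    refine ⟨EC.vcY C (℘[L] z) y, ?_⟩
    have e1 : EC.vcX C (℘[L] z) = (C.u : ℂ) ^ 2 * ℘[L] z - W.b₂ / 12 := by
      rw [EC.vcX, hr]
      ring
    rw [← e1]
    refine ⟨(EC.vc_nonsingular_iff W C _ _).mpr h, ?_⟩
    rw [AddMonoidHom.comp_apply, e, EC.pointMap_some]

/-- the normalised `x`-coordinate -/
def xs (W : WeierstrassCurve ℂ) (x : ℂ) : ℂ := -(W.c₄ * x + W.b₂ * W.b₄ - 18 * W.b₆) / W.c₆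

theorem xs_eq (W : WeierstrassCurve ℂ) {u : ℂ} (hu : u ≠ 0) (h4 : W.c₄ = (u * (2 * π)) ^ 4 * E₄ τ)
    (h6 : W.c₆ = (u * (2 * π)) ^ 6 * E₆ τ) (h0 : W.c₆ ≠ 0) (P : ℂ) :
    xs W (u ^ 2 * P - W.b₂ / 12) =
      (12 * (2 * π * Complex.I) ^ (-2 : ℤ) * P * E₄ τ / E₆ τ - 1) / 12 := by
  have hπ : (π : ℂ) ≠ 0 := by exact_mod_cast pi_ne_zero
  have hE : E₆ τ ≠ 0 := by
    intro h
    rw [h6, h, mul_zero] at h0
    exact h0 rfl
  have e1 : W.c₄ * (u ^ 2 * P - W.b₂ / 12) + W.b₂ * W.b₄ - 18 * W.b₆ =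
      W.c₄ * u ^ 2 * P + W.c₆ / 12 := by
    simp only [WeierstrassCurve.c₄, WeierstrassCurve.c₆]
    ring
  have e2 : (2 * π * Complex.I : ℂ) ^ (-2 : ℤ) = -(1 / (2 * π) ^ 2) := by
    rw [zpow_neg, show ((2 : ℤ)) = ((2 : ℕ) : ℤ) from rfl, zpow_natCast, mul_pow, Complex.I_sq]
    field_simp
  rw [xs, e1, e2, h4, h6]
  field_simp
  ring

end Fermat.Agent.WP
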