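import Fermat.Agent.WP.Pl
import Fermat.Agent.WP.Scale
import Fermat.Agent.WP.Unif
import Fermat.Agent.Tor.HSh

/-!
Values of the polynomial of normalised `x`-coordinates at the places above a point of the `j`-line.
-/

set_option autoImplicit false

noncomputable section

namespace Fermat.Agent.WP

open UpperHalfPlane hiding I J
open Complex Function Filter Topology ModularForm IntermediateField AlgebraicCurve Polynomial
open Fermat.Agent.ModFun Fermat.Agent.Flat Fermat.Agent.Tor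
open scoped Manifold MatrixGroups ModularForm IntermediateField.algebraAdjoinAdjoin PeriodPair

/-! ### the analytic side -/

theorem latT_ω₁ (τ : ℍ) : (latT τ).ω₁ = τ := rfl

theorem latT_ω₂ (τ : ℍ) : (latT τ).ω₂ = 1 := rfl

theorem Xval_add {τ : ℍ} (z : ℂ) {w : ℂ} (hw : w ∈ (latT τ).lattice) :
    Xval τ (z + w) = Xval τ z := by
  rw [Xval, Xval, wpN, wpN, P_add hw]

theorem Xval_neg (τ : ℍ) (z : ℂ) : Xval τ (-z) = Xval τ z := by
  rw [Xval, Xval, wpN, wpN, PeriodPair.weierstrassP_neg]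

theorem Xval_eq_iff {τ : ℍ} (h4 : E₄ τ ≠ 0) (h6 : E₆ τ ≠ 0) {z w : ℂ}
    (hz : z ∉ (latT τ).lattice) (hw : w ∉ (latT τ).lattice) :
    Xval τ z = Xval τ w ↔ z - w ∈ (latT τ).lattice ∨ z + w ∈ (latT τ).lattice := by
  have hπ : (2 * (Real.pi : ℂ) * I) ^ 2 ≠ 0 := by
    refine pow_ne_zero 2 ?_
    simp [Real.pi_ne_zero]
  rw [← P_eq_iff hz hw, Xval, Xval, wpN, wpN, sub_left_inj, mul_left_inj' (div_ne_zero h4 h6),
    mul_right_inj' (inv_ne_zero hπ)]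

variable {K : Type*} [Field K] {N : ℕ} [NeZero N] {ι : K →+* ℂ} {ζ : Kˣ}

/-- the torsion point attached to a coset -/
def zpt (τ : ℍ) (x : XN N) : ℂ :=
  ((((Quotient.out x)⁻¹ : SL(2, ℤ)) 1 0 : ℤ) * (τ : ℂ) +
    (((Quotient.out x)⁻¹ : SL(2, ℤ)) 1 1 : ℤ)) / N

/-- the polynomial of the normalised `x`-coordinates of the multiples of a point -/
def PX (N : ℕ) [NeZero N] (τ : ℍ) (z : ℂ) : ℂ[X] :=
  ∏ u : (ZMod N)ˣ, (Polynomial.X - Polynomial.C (Xval τ ((ZMod.val (u : ZMod N) : ℂ) * z)))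

theorem N_mul_zpt_mem (τ : ℍ) (x : XN N) : (N : ℂ) * zpt τ x ∈ (latT τ).lattice := by
  rw [mem_latT]
  refine ⟨((Quotient.out x)⁻¹ : SL(2, ℤ)) 1 0, ((Quotient.out x)⁻¹ : SL(2, ℤ)) 1 1, ?_⟩
  rw [zpt, mul_div_cancel₀]
  exact_mod_cast NeZero.ne N

omit [NeZero N] in
theorem mem_of_dvd {τ : ℍ} {z : ℂ} (hz : (N : ℂ) * z ∈ (latT τ).lattice) {n : ℤ}
    (hn : (N : ℤ) ∣ n) : (n : ℂ) * z ∈ (latT τ).lattice := by
  obtain ⟨m, rfl⟩ := hn
  have := (latT τ).lattice.smul_mem m hz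
  rw [zsmul_eq_mul] at this
  push_cast
  rwa [mul_comm (N : ℂ), mul_assoc]

omit [NeZero N] in
/-- Independence of representatives. -/
theorem Xval_congr {τ : ℍ} {z : ℂ} (hz : (N : ℂ) * z ∈ (latT τ).lattice) {m n : ℤ}
    (h : (m : ZMod N) = (n : ZMod N)) : Xval τ ((m : ℂ) * z) = Xval τ ((n : ℂ) * z) := by
  have h1 : (N : ℤ) ∣ m - n := by
    rw [← ZMod.intCast_zmod_eq_zero_iff_dvd]
    push_cast
    rw [h, sub_self]
  have h2 := mem_of_dvd hz h1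
  have h3 : (m : ℂ) * z = (n : ℂ) * z + ((m - n : ℤ) : ℂ) * z := by
    push_cast
    ring
  rw [h3, Xval_add _ h2]

theorem PX_congr {τ : ℍ} {z w : ℂ} (hz : (N : ℂ) * z ∈ (latT τ).lattice) (δ : (ZMod N)ˣ) {d : ℤ}
    (hd : (d : ZMod N) = δ) (h : w - d * z ∈ (latT τ).lattice) : PX N τ w = PX N τ z := by
  rw [PX, PX]
  refine Fintype.prod_equiv (Equiv.mulRight δ) _ _ fun u => ?_
  congr 2
  have h1 : ((ZMod.val (u : ZMod N) : ℂ) * w) = ((ZMod.val (u : ZMod N) * d : ℤ) : ℂ) * z +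
      ((ZMod.val (u : ZMod N) : ℤ) : ℂ) * (w - d * z) := by
    push_cast
    ring
  have h2 : ((ZMod.val (u : ZMod N) : ℤ) : ℂ) * (w - d * z) ∈ (latT τ).lattice := by
    have := (latT τ).lattice.smul_mem (ZMod.val (u : ZMod N) : ℤ) h
    rwa [zsmul_eq_mul] at this
  rw [h1, Xval_add _ h2]
  have h3 : ((ZMod.val ((Equiv.mulRight δ u : (ZMod N)ˣ) : ZMod N) : ℂ)) =
      ((ZMod.val ((Equiv.mulRight δ u : (ZMod N)ˣ) : ZMod N) : ℤ) : ℂ) := by
    push_cast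
    rfl
  rw [h3]
  refine Xval_congr hz ?_
  push_cast
  rw [ZMod.natCast_zmod_val, ZMod.natCast_zmod_val, hd]
  simp

theorem div_mem_iff {τ : ℍ} {m n : ℤ} :
    ((m : ℂ) * τ + n) / N ∈ (latT τ).lattice ↔ (N : ℤ) ∣ m ∧ (N : ℤ) ∣ n := by
  have hN : (N : ℂ) ≠ 0 := by exact_mod_cast NeZero.ne N
  rw [mem_latT]
  constructor
  · rintro ⟨a, b, h⟩
    rw [eq_div_iff hN] at h
    have h1 : ((N * a - m : ℤ) : ℂ) * τ + ((N * b - n : ℤ) : ℂ) = 0 := by
      push_cast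
      linear_combination h
    have h2 := congrArg Complex.im h1
    simp only [add_im, mul_im, intCast_re, intCast_im, zero_mul, add_zero, zero_im] at h2
    have h3 : ((N * a - m : ℤ) : ℝ) = 0 := by
      rcases mul_eq_zero.mp h2 with h | h
      · exact h
      · exact absurd h τ.im_ne_zero
    have h4 : (N * a - m : ℤ) = 0 := by exact_mod_cast h3
    rw [h4, Int.cast_zero, zero_mul, zero_add] at h1
    have h5 : (N * b - n : ℤ) = 0 := by exact_mod_cast h1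
    exact ⟨⟨a, by linarith⟩, ⟨b, by linarith⟩⟩
  · rintro ⟨⟨a, rfl⟩, ⟨b, rfl⟩⟩
    refine ⟨a, b, ?_⟩
    push_cast
    field_simp

omit [NeZero N] in
theorem val_mul_zpt (τ : ℍ) (x : XN N) (u : (ZMod N)ˣ) : (ZMod.val (u : ZMod N) : ℂ) * zpt τ x =
    (((ZMod.val (u : ZMod N) : ℤ) * ((Quotient.out x)⁻¹ : SL(2, ℤ)) 1 0 : ℤ) * (τ : ℂ) +
      ((ZMod.val (u : ZMod N) : ℤ) * ((Quotient.out x)⁻¹ : SL(2, ℤ)) 1 1 : ℤ)) / N := by
  rw [zpt]
  push_cast
  ring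

omit [NeZero N] in
theorem cast_eq_of_dvd {a b : ℤ} (h : (N : ℤ) ∣ a - b) : (a : ZMod N) = b := by
  rw [← ZMod.intCast_zmod_eq_zero_iff_dvd] at h
  push_cast at h
  exact sub_eq_zero.mp h

/-- `u • z_x` is not in the lattice -/
theorem val_mul_zpt_notMem (hN : 1 < N) (τ : ℍ) (x : XN N) (u : (ZMod N)ˣ) :
    (ZMod.val (u : ZMod N) : ℂ) * zpt τ x ∉ (latT τ).lattice := by
  rw [val_mul_zpt, div_mem_iff]
  intro h
  refine not_dvd_smul (not_dvd_val hN u) (Quotient.out x)⁻¹ ?_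
  simpa using h

theorem mul_inv_10 (g g' : SL(2, ℤ)) :
    ((g * g'⁻¹ : SL(2, ℤ)) 1 0 : ℤ) = g 1 0 * g' 1 1 - g 1 1 * g' 1 0 := by
  have h1 : ((g * g'⁻¹ : SL(2, ℤ)) : Matrix (Fin 2) (Fin 2) ℤ) =
      (g : Matrix (Fin 2) (Fin 2) ℤ) * (g' : Matrix (Fin 2) (Fin 2) ℤ).adjugate := by
    rw [Matrix.SpecialLinearGroup.coe_mul, Matrix.SpecialLinearGroup.coe_inv]
  have h2 : ((g * g'⁻¹ : SL(2, ℤ)) 1 0 : ℤ) =
      ((g * g'⁻¹ : SL(2, ℤ)) : Matrix (Fin 2) (Fin 2) ℤ) 1 0 := rfl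
  rw [h2, h1, Matrix.adjugate_fin_two, Matrix.mul_apply, Fin.sum_univ_two]
  simp only [Matrix.of_apply, Matrix.cons_val', Matrix.cons_val_zero, Matrix.cons_val_one,
    Matrix.cons_val_fin_one]
  ring

/-- **Uniqueness**: cosets with a common root are equal. -/
theorem eq_of_root {τ : ℍ} (h4 : E₄ τ ≠ 0) (h6 : E₆ τ ≠ 0) (hN : 1 < N) {x y : XN N} {r : ℂ}
    (hx : (PX N τ (zpt τ x)).IsRoot r) (hy : (PX N τ (zpt τ y)).IsRoot r) : x = y := by
  obtain ⟨u, -, hu⟩ : ∃ u ∈ Finset.univ, (Polynomial.X - Polynomial.C (Xval τ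
      ((ZMod.val ((u : (ZMod N)ˣ) : ZMod N) : ℂ) * zpt τ x))).IsRoot r := by
    rw [← Polynomial.isRoot_prod]
    exact hx
  obtain ⟨v, -, hv⟩ : ∃ u ∈ Finset.univ, (Polynomial.X - Polynomial.C (Xval τ
      ((ZMod.val ((u : (ZMod N)ˣ) : ZMod N) : ℂ) * zpt τ y))).IsRoot r := by
    rw [← Polynomial.isRoot_prod]
    exact hy
  rw [Polynomial.root_X_sub_C] at hu hv
  have h1 := (Xval_eq_iff h4 h6 (val_mul_zpt_notMem hN τ x u) (val_mul_zpt_notMem hN τ y v)).mp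
    (hu.trans hv.symm)
  rw [val_mul_zpt, val_mul_zpt] at h1
  set g := ((Quotient.out x)⁻¹ : SL(2, ℤ)) with hg
  set g' := ((Quotient.out y)⁻¹ : SL(2, ℤ)) with hg'
  -- the congruences
  have h2 : ∃ e : ZMod N, IsUnit e ∧ ((u : ZMod N) * (g 1 0 : ℤ) = e * ((v : ZMod N) * (g' 1 0 : ℤ))) ∧
      ((u : ZMod N) * (g 1 1 : ℤ) = e * ((v : ZMod N) * (g' 1 1 : ℤ))) := by
    rcases h1 with h1 | h1
    · rw [← sub_div, show ((((ZMod.val (u : ZMod N) : ℤ) * g 1 0 : ℤ) : ℂ) * τ +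
          (((ZMod.val (u : ZMod N) : ℤ) * g 1 1 : ℤ) : ℂ)) -
          ((((ZMod.val (v : ZMod N) : ℤ) * g' 1 0 : ℤ) : ℂ) * τ +
          (((ZMod.val (v : ZMod N) : ℤ) * g' 1 1 : ℤ) : ℂ)) =
          (((ZMod.val (u : ZMod N) : ℤ) * g 1 0 - (ZMod.val (v : ZMod N) : ℤ) * g' 1 0 : ℤ) : ℂ) *
            τ + (((ZMod.val (u : ZMod N) : ℤ) * g 1 1 - (ZMod.val (v : ZMod N) : ℤ) * g' 1 1 : ℤ) :
              ℂ) by push_cast; ring, div_mem_iff] at h1
      refine ⟨1, isUnit_one, ?_, ?_⟩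
      · have := cast_eq_of_dvd h1.1
        push_cast at this
        simpa using this
      · have := cast_eq_of_dvd h1.2
        push_cast at this
        simpa using this
    · rw [← add_div, show ((((ZMod.val (u : ZMod N) : ℤ) * g 1 0 : ℤ) : ℂ) * τ +
          (((ZMod.val (u : ZMod N) : ℤ) * g 1 1 : ℤ) : ℂ)) +
          ((((ZMod.val (v : ZMod N) : ℤ) * g' 1 0 : ℤ) : ℂ) * τ +
          (((ZMod.val (v : ZMod N) : ℤ) * g' 1 1 : ℤ) : ℂ)) =
          (((ZMod.val (u : ZMod N) : ℤ) * g 1 0 - -((ZMod.val (v : ZMod N) : ℤ) * g' 1 0) : ℤ) : ℂ) *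
            τ + (((ZMod.val (u : ZMod N) : ℤ) * g 1 1 - -((ZMod.val (v : ZMod N) : ℤ) * g' 1 1) : ℤ) :
              ℂ) by push_cast; ring, div_mem_iff] at h1
      refine ⟨-1, isUnit_one.neg, ?_, ?_⟩
      · have := cast_eq_of_dvd h1.1
        push_cast at this
        simpa using this
      · have := cast_eq_of_dvd h1.2
        push_cast at this
        simpa using this
  obtain ⟨e, -, e1, e2⟩ := h2
  rw [← QuotientGroup.out_eq' x, ← QuotientGroup.out_eq' y, QuotientGroup.eq]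
  have hgy : (Quotient.out y : SL(2, ℤ)) = g'⁻¹ := by rw [hg', inv_inv]
  change g * (Quotient.out y : SL(2, ℤ)) ∈ _
  rw [hgy, CongruenceSubgroup.Gamma0_mem]
  have h5 : ((g * g'⁻¹ : SL(2, ℤ)) 1 0 : ℤ) = g 1 0 * g' 1 1 - g 1 1 * g' 1 0 := by
    exact mul_inv_10 g g'
  rw [h5]
  push_cast
  have h6 : (u : ZMod N) * ((g 1 0 : ZMod N) * (g' 1 1 : ZMod N) -
      (g 1 1 : ZMod N) * (g' 1 0 : ZMod N)) = 0 := by
    linear_combination (g' 1 1 : ZMod N) * e1 - (g' 1 0 : ZMod N) * e2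
  exact (Units.mul_right_eq_zero u).mp h6

/-- **The values** of the polynomial at a place. -/
theorem HS_values [CharZero K] (hN : 1 < N) (hζ : ι ζ = Complex.exp (2 * Real.pi * Complex.I / N))
    {τ : ℍ} (hτ : J τ ≠ 1728) (x : XN N) {v : Place K (F0 K N)} (hr : Flat.Rational v)
    (hv : v.toValuationSubring = FunField.valSub (embF (expData_sD τ) hζ x)) (k : ℕ) :
    (HS hN hζ).coeff k ∈ v.toValuationSubring ∧
      ι (evp v ((HS hN hζ).coeff k)) = (PX N τ (zpt τ x)).coeff k := by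
  set P : (PowerSeries ℂ)[X] := ∏ u : (ZMod N)ˣ, (Polynomial.X - Polynomial.C
        (XD N τ ((ZMod.val (u : ZMod N) : ℤ) * ((Quotient.out x)⁻¹ : SL(2, ℤ)) 1 0)
          ((ZMod.val (u : ZMod N) : ℤ) * ((Quotient.out x)⁻¹ : SL(2, ℤ)) 1 1))) with hP
  have h1 : (HS hN hζ).map (embF (expData_sD τ) hζ x) =
      P.map (HahnSeries.ofPowerSeries ℤ ℂ) := by
    rw [HS_map_point hN hζ hτ x, hP, Polynomial.map_prod]
    simp only [Polynomial.map_sub, Polynomial.map_X, Polynomial.map_C]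
  have h2 : embF (expData_sD τ) hζ x ((HS hN hζ).coeff k) =
      HahnSeries.ofPowerSeries ℤ ℂ (P.coeff k) := by
    rw [← Polynomial.coeff_map, h1, Polynomial.coeff_map]
  have h3 : P.map (PowerSeries.constantCoeff (R := ℂ)) = PX N τ (zpt τ x) := by
    rw [hP, Polynomial.map_prod, PX]
    refine Finset.prod_congr rfl fun u _ => ?_
    rw [Polynomial.map_sub, Polynomial.map_X, Polynomial.map_C, constantCoeff_XD N hτ, zpt]
    congr 3
    push_cast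
    ring
  have hmem : (HS hN hζ).coeff k ∈ v.toValuationSubring := by
    rw [hv, FunField.mem_valSub, h2]
    by_cases h0 : HahnSeries.ofPowerSeries ℤ ℂ (P.coeff k) = 0
    · rw [h0, HahnSeries.orderTop_zero]
      exact le_top
    · rw [← HahnSeries.order_eq_orderTop_of_ne_zero h0]
      by_contra h
      push Not at h
      have h5 : (HahnSeries.ofPowerSeries ℤ ℂ (P.coeff k)).order < 0 := by exact_mod_cast h
      exact HahnSeries.coeff_order_eq_zero.not.2 h0 (ModularCurve.ofPowerSeries_coeff_of_neg _ h5)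
  refine ⟨hmem, ?_⟩
  rw [evp_of_embF _ hζ hr hv hmem, h2, ← h3, Polynomial.coeff_map]
  have h4 := HahnSeries.ofPowerSeries_apply_coeff (Γ := ℤ) (P.coeff k) 0
  rw [Nat.cast_zero] at h4
  rw [h4, PowerSeries.coeff_zero_eq_constantCoeff_apply]

end Fermat.Agent.WP
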