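import Fermat.Agent.WP.Rat
import Fermat.Agent.MX.Xs

/-!
The place of the function field of `X₀(N)` attached to an elliptic curve and a point of order `N`.
-/

set_option autoImplicit false
set_option linter.unusedSectionVars false

noncomputable section

namespace Fermat.Agent.WP

open AlgebraicCurve IntermediateField UpperHalfPlane ModularForm
open Fermat.Agent.FunField Fermat.Agent.Flat Fermat.Agent.LG Fermat.Agent.ModFun Fermat.Agent.MZ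
open Fermat.Agent.Tor Fermat.Agent.MX Fermat.Agent.EC
open Fermat.Agent.ESCore (ιC)
open WeierstrassCurve WeierstrassCurve.Affine
open scoped MatrixGroups PeriodPair

/-- The field of algebraic numbers. -/
local notation "Qb" => AlgebraicClosure ℚ
/-- The absolute Galois group. -/
local notation "GQ" => (AlgebraicClosure ℚ ≃ₐ[ℚ] AlgebraicClosure ℚ)

/-! ### choice of a coset -/

section Coset

variable {N : ℕ} [NeZero N]

theorem exists_row (hNp : N.Prime) {a b : ℤ} (h : ¬ ((N : ℤ) ∣ a ∧ (N : ℤ) ∣ b)) :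
    ∃ (γ : SL(2, ℤ)) (e : ℤ), IsUnit (e : ZMod N) ∧ (γ 1 0 : ZMod N) = e * a ∧
      (γ 1 1 : ZMod N) = e * b := by
  have : Fact N.Prime := ⟨hNp⟩
  by_cases ha : (N : ℤ) ∣ a
  · have hb : (b : ZMod N) ≠ 0 := by
      rw [Ne, ZMod.intCast_zmod_eq_zero_iff_dvd]
      exact fun hb => h ⟨ha, hb⟩
    refine ⟨1, (((b : ZMod N)⁻¹ : ZMod N).val : ℤ), ?_, ?_, ?_⟩
    · push_cast
      rw [ZMod.natCast_zmod_val]
      exact (inv_ne_zero hb).isUnit
    · rw [(ZMod.intCast_zmod_eq_zero_iff_dvd a N).mpr ha, mul_zero]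
      simp
    · push_cast
      rw [ZMod.natCast_zmod_val, inv_mul_cancel₀ hb]
      simp
  · have ha' : (a : ZMod N) ≠ 0 := by
      rw [Ne, ZMod.intCast_zmod_eq_zero_iff_dvd]
      exact ha
    refine ⟨⟨!![0, -1; 1, (((a : ZMod N)⁻¹ : ZMod N).val : ℤ) * b], by
      rw [Matrix.det_fin_two_of]; ring⟩, (((a : ZMod N)⁻¹ : ZMod N).val : ℤ), ?_, ?_, ?_⟩
    · push_cast
      rw [ZMod.natCast_zmod_val]
      exact (inv_ne_zero ha').isUnit
    · push_cast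
      rw [ZMod.natCast_zmod_val, inv_mul_cancel₀ ha']
      simp
    · simp

theorem exists_coset (hNp : N.Prime) {τ : ℍ} {z : ℂ} (hz : (N : ℂ) * z ∈ (latT τ).lattice)
    (hz' : z ∉ (latT τ).lattice) : ∃ x : XN N, PX N τ (zpt τ x) = PX N τ z := by
  have hN : (N : ℂ) ≠ 0 := by exact_mod_cast NeZero.ne N
  obtain ⟨a, b, hab⟩ := mem_latT.mp hz
  have hzab : z = (a * (τ : ℂ) + b) / N := by
    rw [hab, mul_div_cancel_left₀ _ hN]
  have h : ¬ ((N : ℤ) ∣ a ∧ (N : ℤ) ∣ b) := by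
    rw [← div_mem_iff (τ := τ), ← hzab]
    exact hz'
  obtain ⟨γ, e, he, h1, h2⟩ := exists_row hNp h
  refine ⟨((γ⁻¹ : SL(2, ℤ)) : XN N), ?_⟩
  set x : XN N := ((γ⁻¹ : SL(2, ℤ)) : XN N) with hx
  have h3 : (Quotient.out x)⁻¹ * γ⁻¹ ∈ CongruenceSubgroup.Gamma0 N := by
    rw [← QuotientGroup.eq, QuotientGroup.out_eq']
  set k := (Quotient.out x)⁻¹ * γ⁻¹ with hk
  have h4 : (Quotient.out x)⁻¹ = k * γ := by rw [hk, inv_mul_cancel_right]
  obtain ⟨k0, δ, k1⟩ := exists_unit h3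
  have h5 : ((k * γ : SL(2, ℤ)) 1 0 : ZMod N) = δ * e * a := by
    rw [Matrix.SpecialLinearGroup.coe_mul, Matrix.mul_apply, Fin.sum_univ_two]
    push_cast
    rw [k0, k1, h1]
    ring
  have h6 : ((k * γ : SL(2, ℤ)) 1 1 : ZMod N) = δ * e * b := by
    rw [Matrix.SpecialLinearGroup.coe_mul, Matrix.mul_apply, Fin.sum_univ_two]
    push_cast
    rw [k0, k1, h2]
    ring
  obtain ⟨e', he'⟩ := he
  refine PX_congr hz (δ * e') (d := (ZMod.val ((δ * e' : (ZMod N)ˣ) : ZMod N) : ℤ)) ?_ ?_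
  · push_cast
    rw [ZMod.natCast_zmod_val]
  · have h7 : zpt τ x - ((ZMod.val ((δ * e' : (ZMod N)ˣ) : ZMod N) : ℤ) : ℂ) * z =
        (((((k * γ : SL(2, ℤ)) 1 0) - (ZMod.val ((δ * e' : (ZMod N)ˣ) : ZMod N) : ℤ) * a : ℤ) : ℂ) *
          τ + ((((k * γ : SL(2, ℤ)) 1 1) - (ZMod.val ((δ * e' : (ZMod N)ˣ) : ZMod N) : ℤ) * b : ℤ) :
            ℂ)) / N := by
      rw [zpt, h4, hzab]
      push_cast
      ring
    rw [h7, div_mem_iff, ← ZMod.intCast_zmod_eq_zero_iff_dvd, ← ZMod.intCast_zmod_eq_zero_iff_dvd]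
    constructor
    · push_cast
      rw [ZMod.natCast_zmod_val, h5, he', sub_self]
    · push_cast
      rw [ZMod.natCast_zmod_val, h6, he', sub_self]

end Coset

/-! ### link with the elliptic curve -/

section Link

variable (W : WeierstrassCurve ℚ)

/-- the embedding of the field of algebraic numbers in the complex numbers, as a `ℚ`-algebra map -/
def ιA : Qb →ₐ[ℚ] ℂ := ιC.toRatAlgHom

theorem ιA_apply (a : Qb) : ιA a = ιC a := rfl

/-- points over `ℂ` -/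
def ptC : (W⁄Qb).Point →+ (W⁄ℂ).Point := Affine.Point.map (W' := W) ιA

theorem ptC_injective : Function.Injective (ptC W) := Affine.Point.map_injective (W' := W) ιA

theorem xc_ptC (P : (W⁄Qb).Point) : xc (ptC W P) = ιC (xc P) := by
  rcases P with _ | ⟨x, y, h⟩
  · change (0 : ℂ) = ιC 0
    rw [_root_.map_zero]
  · rfl

theorem Xs_ptC (P : (W⁄Qb).Point) : Xs (W⁄ℂ) (ptC W P) = ιC (Xs (W⁄Qb) P) := by
  have h1 : (W⁄ℂ) = (W⁄Qb).map ιC := by
    ext <;> simp [WeierstrassCurve.baseChange]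
  rw [Xs, Xs, xc_ptC, map_div₀, map_neg, map_add, map_mul, map_sub, map_mul, map_mul, map_ofNat]
  have e1 : (W⁄ℂ).c₄ = ιC (W⁄Qb).c₄ := by rw [h1, WeierstrassCurve.map_c₄]
  have e2 : (W⁄ℂ).c₆ = ιC (W⁄Qb).c₆ := by rw [h1, WeierstrassCurve.map_c₆]
  have e3 : (W⁄ℂ).b₂ = ιC (W⁄Qb).b₂ := by rw [h1, WeierstrassCurve.map_b₂]
  have e4 : (W⁄ℂ).b₄ = ιC (W⁄Qb).b₄ := by rw [h1, WeierstrassCurve.map_b₄]
  have e5 : (W⁄ℂ).b₆ = ιC (W⁄Qb).b₆ := by rw [h1, WeierstrassCurve.map_b₆]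
  rw [e1, e2, e3, e4, e5]

theorem Xs_unif {τ : ℍ} (W : WeierstrassCurve ℂ) [W.IsElliptic] (hj : W.j = J τ)
    (h6 : E₆ τ ≠ 0) : ∃ φ : ℂ →+ W.toAffine.Point,
      Function.Surjective φ ∧ (∀ z, φ z = 0 ↔ z ∈ (latT τ).lattice) ∧
        ∀ z ∉ (latT τ).lattice, Xs W (φ z) = Xval τ z := by
  obtain ⟨u, hu, h4, h6', φ, hs, hk, hφ⟩ := exists_unif (latT_ω₁ τ) (latT_ω₂ τ) W hj
  have hπ : (2 * (Real.pi : ℂ)) ≠ 0 := by
    simp [Real.pi_ne_zero]
  have hc6 : W.c₆ ≠ 0 := by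
    rw [h6']
    exact mul_ne_zero (pow_ne_zero _ (mul_ne_zero hu hπ)) h6
  refine ⟨φ, hs, hk, fun z hz => ?_⟩
  obtain ⟨y, h, e⟩ := hφ z hz
  have h1 := xs_eq W hu h4 h6' hc6 (℘[latT τ] z)
  rw [e, Xs, xc_some, Xval, wpN]
  rw [xs] at h1
  have e2 : (2 * (Real.pi : ℂ) * Complex.I) ^ (-2 : ℤ) = ((2 * (Real.pi : ℂ) * Complex.I) ^ 2)⁻¹ := by
    rw [zpow_neg, show ((2 : ℤ)) = ((2 : ℕ) : ℤ) from rfl, zpow_natCast]
  rw [e2, add_sub_assoc] at h1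
  rw [h1]
  ring

end Link

section Main

variable {N : ℕ} [Fact N.Prime] [NeZero N] {ζ : Qbˣ}

/-- The polynomial of the normalised `x`-coordinates of the multiples of a point. -/
def PQ (N : ℕ) [NeZero N] (W : WeierstrassCurve ℚ) (Q : (W⁄Qb).Point) : Polynomial Qb :=
  ∏ u : (ZMod N)ˣ, (Polynomial.X - Polynomial.C (Xs (W⁄Qb) (ZMod.val (u : ZMod N) • Q)))

theorem val_nsmul_ne_zero {A : Type*} [AddCommGroup A] {Q : A} (hQ : addOrderOf Q = N)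
    (u : (ZMod N)ˣ) : ZMod.val (u : ZMod N) • Q ≠ 0 := by
  intro h
  have h1 := addOrderOf_dvd_of_nsmul_eq_zero h
  rw [hQ] at h1
  exact Nat.not_dvd_of_pos_of_lt (val_pos (Fact.out : N.Prime).one_lt u) (ZMod.val_lt _) h1

theorem PX_eq_PQ (W : WeierstrassCurve ℚ) {Q : (W⁄Qb).Point} (hQ : addOrderOf Q = N) {τ : ℍ}
    {φ : ℂ →+ (W⁄ℂ).Point} (hk : ∀ z, φ z = 0 ↔ z ∈ (latT τ).lattice)
    (hφ : ∀ z ∉ (latT τ).lattice, Xs (W⁄ℂ) (φ z) = Xval τ z) {z : ℂ} (hz : φ z = ptC W Q) :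
    PX N τ z = (PQ N W Q).map ιC := by
  rw [PX, PQ, Polynomial.map_prod]
  refine Finset.prod_congr rfl fun u _ => ?_
  rw [Polynomial.map_sub, Polynomial.map_X, Polynomial.map_C]
  congr 2
  have h1 : φ ((ZMod.val (u : ZMod N) : ℂ) * z) = ptC W (ZMod.val (u : ZMod N) • Q) := by
    rw [map_nsmul, ← hz, ← map_nsmul, nsmul_eq_mul]
  have h2 : (ZMod.val (u : ZMod N) : ℂ) * z ∉ (latT τ).lattice := by
    rw [← hk, h1, map_eq_zero_iff _ (ptC_injective W)]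
    exact val_nsmul_ne_zero hQ u
  rw [← hφ _ h2, h1, Xs_ptC]

instance isElliptic_C (W : WeierstrassCurve ℚ) [W.IsElliptic] : (W⁄ℂ).IsElliptic :=
  inferInstanceAs ((W.map (algebraMap ℚ ℂ)).IsElliptic)

theorem j_C (W : WeierstrassCurve ℚ) [W.IsElliptic] : (W⁄ℂ).j = algebraMap ℚ ℂ W.j :=
  WeierstrassCurve.map_j W (algebraMap ℚ ℂ)

/-- **The place attached to `(W, Q)`.** -/
theorem exists_xpt (hN : 1 < N) (hζ : ιC ζ = Complex.exp (2 * Real.pi * Complex.I / N))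
    (W : WeierstrassCurve ℚ) [W.IsElliptic] (hj0 : W.j ≠ 0) (hj1 : W.j ≠ 1728)
    {Q : (W⁄Qb).Point} (hQ : addOrderOf Q = N) :
    ∃ x : Place Qb (F0 Qb N),
      0 < x.ord (jF Qb N - algebraMap Qb (F0 Qb N) (algebraMap ℚ Qb W.j)) ∧
      (∀ k, (HS hN hζ).coeff k ∈ x.toValuationSubring ∧
        evp x ((HS hN hζ).coeff k) = (PQ N W Q).coeff k) ∧
      ∀ (y : Place Qb (F0 Qb N)) (R : Polynomial Qb) (r : Qb),
        0 < y.ord (jF Qb N - algebraMap Qb (F0 Qb N) (algebraMap ℚ Qb W.j)) →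
        (∀ k, evp y ((HS hN hζ).coeff k) = R.coeff k) → R.IsRoot r → (PQ N W Q).IsRoot r →
        y = x := by
  have hc0 : algebraMap ℚ Qb W.j ≠ 0 := by simpa using hj0
  have hc1 : algebraMap ℚ Qb W.j ≠ 1728 := by
    rw [← map_ofNat (algebraMap ℚ Qb) 1728]
    exact (algebraMap ℚ Qb).injective.ne hj1
  obtain ⟨τ, hτ⟩ := J_surjective (ιC (algebraMap ℚ Qb W.j))
  obtain ⟨p, hpi, hpo, hps, hpv, hpe⟩ := exists_places_at hζ hc0 hc1 hτ
  have h4 : E₄ τ ≠ 0 := by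
    intro h
    rw [← J_eq_zero_iff, hτ] at h
    exact hc0 (ιC.injective (by rw [h, _root_.map_zero]))
  have h6 : E₆ τ ≠ 0 := by
    intro h
    rw [← J_eq_1728_iff, hτ] at h
    exact hc1 (ιC.injective (by rw [h]; exact (map_ofNat ιC 1728).symm))
  have hJ : J τ ≠ 1728 := fun h => h6 ((J_eq_1728_iff τ).mp h)
  have hjC : (W⁄ℂ).j = J τ := by
    rw [j_C, hτ]
    exact (ιA.commutes W.j).symm
  obtain ⟨φ, hs, hk, hφ⟩ := Xs_unif (W⁄ℂ) hjC h6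
  obtain ⟨z, hz⟩ := hs (ptC W Q)
  have hQ0 : N • Q = 0 := by rw [← hQ]; exact addOrderOf_nsmul_eq_zero Q
  have hQ1 : Q ≠ 0 := by
    rintro rfl
    rw [addOrderOf_zero] at hQ
    omega
  have hNz : (N : ℂ) * z ∈ (latT τ).lattice := by
    rw [← hk, ← nsmul_eq_mul, map_nsmul, hz, ← map_nsmul, hQ0, map_zero]
  have hz' : z ∉ (latT τ).lattice := by
    rw [← hk, hz, map_eq_zero_iff _ (ptC_injective W)]
    exact hQ1
  obtain ⟨x, hx⟩ := exists_coset (Fact.out : N.Prime) hNz hz'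
  have hX := PX_eq_PQ W hQ hk hφ hz
  have hrat : ∀ v : Place Qb (F0 Qb N), Flat.Rational v := (sep_F0 N).rational
  refine ⟨p x, by rw [hpo]; exact one_pos, fun k => ?_, fun y R r hy hR hr hr' => ?_⟩
  · obtain ⟨h1, h2⟩ := HS_values hN hζ hJ x (hrat (p x)) (hpv x) k
    refine ⟨h1, ιC.injective ?_⟩
    rw [h2, hx, hX, Polynomial.coeff_map]
  · obtain ⟨y, rfl⟩ := hps y hy
    congr 1
    have h3 : PX N τ (zpt τ y) = R.map ιC := by
      ext1 k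
      obtain ⟨h1, h2⟩ := HS_values hN hζ hJ y (hrat (p y)) (hpv y) k
      rw [← h2, hR, Polynomial.coeff_map]
    refine eq_of_root (r := ιC r) h4 h6 hN ?_ ?_
    · rw [h3]
      exact hr.map
    · rw [hx, hX]
      exact hr'.map

theorem Xs_gal (W : WeierstrassCurve ℚ) (σ : GQ) (P : (W⁄Qb).Point) :
    Xs (W⁄Qb) (Affine.Point.map (W' := W) σ.toAlgHom P) = σ (Xs (W⁄Qb) P) := by
  have h1 : xc (Affine.Point.map (W' := W) σ.toAlgHom P) = σ (xc P) := by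
    rcases P with _ | ⟨x, y, h⟩
    · change (0 : Qb) = σ 0
      rw [_root_.map_zero]
    · rfl
  have e1 : (W⁄Qb).c₄ = algebraMap ℚ Qb W.c₄ := W.map_c₄ _
  have e2 : (W⁄Qb).c₆ = algebraMap ℚ Qb W.c₆ := W.map_c₆ _
  have e3 : (W⁄Qb).b₂ = algebraMap ℚ Qb W.b₂ := W.map_b₂ _
  have e4 : (W⁄Qb).b₄ = algebraMap ℚ Qb W.b₄ := W.map_b₄ _
  have e5 : (W⁄Qb).b₆ = algebraMap ℚ Qb W.b₆ := W.map_b₆ _
  rw [Xs, Xs, h1, map_div₀, map_neg, map_add, map_mul, map_sub, map_mul, map_mul, map_ofNat, e1,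
    e2, e3, e4, e5, σ.commutes, σ.commutes, σ.commutes, σ.commutes, σ.commutes]

theorem PQ_gal (W : WeierstrassCurve ℚ) {Q : (W⁄Qb).Point} {σ : GQ}
    (hQ : Affine.Point.map (W' := W) σ.toAlgHom Q = Q) :
    (PQ N W Q).map (σ.toRingEquiv : Qb →+* Qb) = PQ N W Q := by
  rw [PQ, Polynomial.map_prod]
  refine Finset.prod_congr rfl fun u _ => ?_
  rw [Polynomial.map_sub, Polynomial.map_X, Polynomial.map_C]
  congr 2
  have h1 := Xs_gal W σ (ZMod.val (u : ZMod N) • Q)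
  rw [map_nsmul, hQ] at h1
  exact h1.symm

theorem galF0_jF' (σ : GQ) : galF0 N σ • jF Qb N = jF Qb N := by
  apply Subtype.ext
  rw [coe_galF0_smul]
  exact coeffMap_jqModC _

theorem galF0_C (σ : GQ) (a : ℚ) :
    galF0 N σ • (algebraMap Qb (F0 Qb N) (algebraMap ℚ Qb a)) =
      algebraMap Qb (F0 Qb N) (algebraMap ℚ Qb a) := by
  have h1 : algebraMap Qb (F0 Qb N) (algebraMap ℚ Qb a) = (a : F0 Qb N) := by
    rw [eq_ratCast, map_ratCast]
  rw [h1]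
  exact map_ratCast (MulSemiringAction.toRingHom _ (F0 Qb N) (galF0 N σ)) a

/-- **The place is rational.** -/
theorem xpt_fixed (hN : 1 < N) (hζ : ιC ζ = Complex.exp (2 * Real.pi * Complex.I / N))
    (W : WeierstrassCurve ℚ) [W.IsElliptic] {Q : (W⁄Qb).Point}
    {x : Place Qb (F0 Qb N)}
    (h1 : 0 < x.ord (jF Qb N - algebraMap Qb (F0 Qb N) (algebraMap ℚ Qb W.j)))
    (h2 : ∀ k, (HS hN hζ).coeff k ∈ x.toValuationSubring ∧
        evp x ((HS hN hζ).coeff k) = (PQ N W Q).coeff k)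
    (h3 : ∀ (y : Place Qb (F0 Qb N)) (R : Polynomial Qb) (r : Qb),
        0 < y.ord (jF Qb N - algebraMap Qb (F0 Qb N) (algebraMap ℚ Qb W.j)) →
        (∀ k, evp y ((HS hN hζ).coeff k) = R.coeff k) → R.IsRoot r → (PQ N W Q).IsRoot r →
        y = x) {σ : GQ} (hQ : Affine.Point.map (W' := W) σ.toAlgHom Q = Q) :
    galF0 N σ • x = x := by
  have hrt : (PQ N W Q).IsRoot (Xs (W⁄Qb) (ZMod.val ((1 : (ZMod N)ˣ) : ZMod N) • Q)) := by
    rw [PQ, Polynomial.isRoot_prod]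
    exact ⟨1, Finset.mem_univ _, by rw [Polynomial.root_X_sub_C]⟩
  refine h3 _ (PQ N W Q) _ ?_ (fun k => ?_) hrt hrt
  · have h4 : galF0 N σ • (jF Qb N - algebraMap Qb (F0 Qb N) (algebraMap ℚ Qb W.j)) =
        jF Qb N - algebraMap Qb (F0 Qb N) (algebraMap ℚ Qb W.j) := by
      rw [smul_sub, galF0_C, galF0_jF']
    rw [← h4, SemilinearAut.ord_smul]
    exact h1
  · conv_lhs => rw [← HS_gal hN hζ σ k]
    rw [rational_smul _ ((sep_F0 N).rational x) (h2 k).1, (h2 k).2]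
    conv_rhs => rw [← PQ_gal W hQ, Polynomial.coeff_map]
    rfl

/-! ### integral equations -/

theorem isElliptic_of_int {W : WeierstrassCurve ℤ} (hΔ : W.Δ ≠ 0) :
    (W.map (Int.castRingHom ℚ)).IsElliptic := by
  rw [WeierstrassCurve.isElliptic_iff, WeierstrassCurve.map_Δ, isUnit_iff_ne_zero]
  simpa using hΔ

theorem j_mul_Δ {W : WeierstrassCurve ℤ} [(W.map (Int.castRingHom ℚ)).IsElliptic] :
    (W.map (Int.castRingHom ℚ)).j * (W.Δ : ℚ) = (W.c₄ : ℚ) ^ 3 := by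
  have h1 : ((W.map (Int.castRingHom ℚ)).Δ' : ℚ) = (W.Δ : ℚ) := by
    rw [WeierstrassCurve.coe_Δ', WeierstrassCurve.map_Δ]
    simp
  rw [WeierstrassCurve.j, ← h1, mul_comm, ← mul_assoc, Units.mul_inv, one_mul,
    WeierstrassCurve.map_c₄]
  simp

theorem j_ne_zero_of_int {W : WeierstrassCurve ℤ} [(W.map (Int.castRingHom ℚ)).IsElliptic]
    (h2 : ¬ (2 : ℤ) ∣ W.c₄) : (W.map (Int.castRingHom ℚ)).j ≠ 0 := by
  intro h
  have h1 := j_mul_Δ (W := W)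
  rw [h, zero_mul] at h1
  have h3 : W.c₄ = 0 := by
    have : (W.c₄ : ℚ) = 0 := pow_eq_zero_iff (three_ne_zero) |>.mp h1.symm
    exact_mod_cast this
  exact h2 (h3 ▸ dvd_zero _)

theorem j_ne_1728_of_int {W : WeierstrassCurve ℤ} [(W.map (Int.castRingHom ℚ)).IsElliptic]
    (h2 : ¬ (2 : ℤ) ∣ W.c₄) : (W.map (Int.castRingHom ℚ)).j ≠ 1728 := by
  intro h
  have h1 := j_mul_Δ (W := W)
  rw [h] at h1
  have h3 : 1728 * W.Δ = W.c₄ ^ 3 := by exact_mod_cast h1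
  refine h2 (Int.prime_two.dvd_of_dvd_pow (n := 3) ?_)
  rw [← h3]
  exact ⟨864 * W.Δ, by ring⟩

/-- **The rational place attached to `(W, Q)`**, integral form. -/
theorem exists_xpt_int (hN : 1 < N) (hζ : ιC ζ = Complex.exp (2 * Real.pi * Complex.I / N))
    (W : WeierstrassCurve ℤ) [(W.map (Int.castRingHom ℚ)).IsElliptic] (h2 : ¬ (2 : ℤ) ∣ W.c₄)
    {Q : ((W.map (Int.castRingHom ℚ))⁄(AlgebraicClosure ℚ)).Point}
    (hQfix : ∀ σ : AlgebraicClosure ℚ ≃ₐ[ℚ] AlgebraicClosure ℚ, σ • Q = Q)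
    (hQ : addOrderOf Q = N) :
    ∃ x : Place Qb (F0 Qb N), (∀ σ : GQ, galF0 N σ • x = x) ∧
      0 < x.ord (jF Qb N - algebraMap Qb (F0 Qb N)
        (algebraMap ℚ Qb (W.map (Int.castRingHom ℚ)).j)) ∧
      ∀ k, (HS hN hζ).coeff k ∈ x.toValuationSubring ∧
        evp x ((HS hN hζ).coeff k) = (PQ N (W.map (Int.castRingHom ℚ)) Q).coeff k := by
  obtain ⟨x, h3, h4, h5⟩ := exists_xpt hN hζ (W.map (Int.castRingHom ℚ)) (j_ne_zero_of_int h2)
    (j_ne_1728_of_int h2) hQ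
  exact ⟨x, fun σ => xpt_fixed hN hζ _ h3 h4 h5 (hQfix σ), h3, h4⟩

end Main

end Fermat.Agent.WP
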